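/-
GATE-F (S40), node GF-ECORE (helper57): the GENERIC CORE chain of GATE-H.  `GH/Top/Core` runs
`core_asm` + the descent node N1 on the modular frame `modularFunctionFieldBar N`; nothing in the
chain uses the modular curve.  Here: ANY reduction frame `R, H` of ANY function field `F/ℚ̄` with a
`G_ℚ`-action on `Pic⁰`, the node contracts and the GAL contract for the decomposition / inertia
groups of `R.A`, `R.A | ℓ`, and ANY finite `G_ℚ`-stable subgroup `M ≤ Pic⁰(F)` of finite level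
⟹ `HasFinOrder ℓ (actM hM)` (N1 is on main, binder-free: `GH/N1Inst/Node.n1Node`).
Consumer: the genus-one frame `GF/EFrame` (`M = E[p]` inside `Pic⁰(ℚ̄(E))`) ⟹ `GF/Peu/Main`.
-/
import Mathlib
import Fermat.Agent.GH.N1Inst.Node

set_option autoImplicit false
set_option linter.unusedSectionVars false
set_option linter.unusedVariables false

noncomputable section

open AlgebraicCurve

namespace Fermat.Agent.GF.EFrame

open GaloisRep Fermat.Agent.GH.Closure Fermat.Agent.GH
open Fermat.Agent.RRh45 Fermat.Agent.GJ.S37MinDiv Fermat.Agent.GJ.J1 Fermat.Agent.GJ.S37LSpace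
  Fermat.Agent.GJ.S37ROfSurj

local notation "Qb" => AlgebraicClosure ℚ
local notation "GQ" => (AlgebraicClosure ℚ ≃ₐ[ℚ] AlgebraicClosure ℚ)

variable {F k Ft : Type} [Field F] [Algebra Qb F] [Field k] [Field Ft] [Algebra k Ft]
variable {R : RedData Qb F k Ft} {g c : ℤ}
variable [FiniteResidues Qb F] [HasPrincipalDivisors Qb F] [Nonempty (Place Qb F)]
variable [FiniteResidues k Ft] [HasPrincipalDivisors k Ft] [Nonempty (Place k Ft)]
variable [Infinite k]
variable [DistribMulAction GQ (Pic0 Qb F)]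
variable {ℓ : ℕ} [Fact ℓ.Prime]

/-- **generic CORE chain**: frame + node contracts + GAL contract ⟹ a finite `Δ`-stable order on any
finite Galois-stable subgroup of `Pic⁰` of finite level. -/
theorem hasFinOrder_of_galFrame {H : LSpaceHyp R g c} {n : ℕ}
    (G : GalFrame H n (R.A.decompositionSubgroup ℚ) (R.A.inertiaSubgroupIn ℚ))
    (hco : CoordSpec H n) (hinj : CoordInj H n) (hsup : ChartSupply H n) (hadd : AddSpec H n)
    (hℓ : (ℓ : Qb) ∈ R.A.nonunits)
    {M : AddSubgroup (Pic0 Qb F)} [Finite M] (hM : ∀ (σ : GQ), ∀ x ∈ M, σ • x ∈ M)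
    (hlev : ∃ U : Subgroup GQ, IsOpen (U : Set GQ) ∧ ∀ σ ∈ U, ∀ x, actM hM σ x = x) :
    HasFinOrder ℓ (actM hM) := by
  obtain ⟨h1, h2, h3, h4, h5⟩ := core_asm G (M := M) hM hco hinj hsup hadd
  exact Fermat.Agent.GH.N1Inst.n1Node ℓ _ (actM hM) (actM_one _) (actM_mul _) hlev R.A hℓ
    (coreGens G M) h1 h2 h3 h4 h5

/-- transport along an equivariant injection into `M` (e.g. `E[p] ↪ Pic⁰`, `Y0 ≅ E[p]`). -/
theorem hasFinOrder_of_galFrame_of_injective {H : LSpaceHyp R g c} {n : ℕ}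
    (G : GalFrame H n (R.A.decompositionSubgroup ℚ) (R.A.inertiaSubgroupIn ℚ))
    (hco : CoordSpec H n) (hinj : CoordInj H n) (hsup : ChartSupply H n) (hadd : AddSpec H n)
    (hℓ : (ℓ : Qb) ∈ R.A.nonunits)
    {M : AddSubgroup (Pic0 Qb F)} [Finite M] (hM : ∀ (σ : GQ), ∀ x ∈ M, σ • x ∈ M)
    (hlev : ∃ U : Subgroup GQ, IsOpen (U : Set GQ) ∧ ∀ σ ∈ U, ∀ x, actM hM σ x = x)
    {N : Type*} [AddCommGroup N] (actN : GQ → N →+ N) (j : N →+ M)
    (hj : Function.Injective j) (hjeq : ∀ (σ : GQ) (x : N), j (actN σ x) = actM hM σ (j x)) :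
    HasFinOrder ℓ actN :=
  (hasFinOrder_of_galFrame G hco hinj hsup hadd hℓ hM hlev).of_injective j hj hjeq

end Fermat.Agent.GF.EFrame
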