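/-
GATE-F (S40), node GF-ECORE part 2 (helper57): the generic CORE chain with the four node contracts
DISCHARGED (they are theorems over any frame: `GH/L/Final`, `GH/L/Inj`, `GH/Add/DiscCalcOfV`,
`GH/Inst/Arch`).  What remains as input: the frame `H : LSpaceHyp R g c` with `g = n`, the GAL
contract `GalFrame H n D I`, and `R.A | ℓ`.
-/
import Mathlib
import Fermat.Agent.GF.EFrame.Core
import Fermat.Agent.GH.Top.AddPlug

set_option autoImplicit false
set_option linter.unusedSectionVars false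
set_option linter.unusedVariables false

noncomputable section

open AlgebraicCurve

namespace Fermat.Agent.GF.EFrame

open GaloisRep Fermat.Agent.GH.Closure Fermat.Agent.GH
open Fermat.Agent.RRh45 Fermat.Agent.GJ.S37MinDiv Fermat.Agent.GJ.J1 Fermat.Agent.GJ.S37LSpace
  Fermat.Agent.GJ.S37ROfSurj

local notation "Qb" => AlgebraicClosure ℚ
local notation "GQ" => (AlgebraicClosure ℚ ≃ₐ[ℚ] AlgebraicClosure ℚ)

variable {F k Ft : Type} [Field F] [Algebra Qb F] [Field k] [Field Ft] [Algebra k Ft]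
variable {R : RedData Qb F k Ft} {g c : ℤ}
variable [FiniteResidues Qb F] [HasPrincipalDivisors Qb F] [Nonempty (Place Qb F)]
variable [FiniteResidues k Ft] [HasPrincipalDivisors k Ft] [Nonempty (Place k Ft)]
variable [Infinite k]
variable [DistribMulAction GQ (Pic0 Qb F)]
variable {ℓ : ℕ} [Fact ℓ.Prime]

/-- **generic CORE chain, contracts discharged**: frame + GAL contract ⟹ a finite `Δ`-stable order
on every finite Galois-stable subgroup of `Pic⁰` of finite level. -/
theorem hasFinOrder_of_lSpaceHyp (H : LSpaceHyp R g c) {n : ℕ} (hn : (n : ℤ) = g)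
    (G : GalFrame H n (R.A.decompositionSubgroup ℚ) (R.A.inertiaSubgroupIn ℚ))
    (hℓ : (ℓ : Qb) ∈ R.A.nonunits)
    {M : AddSubgroup (Pic0 Qb F)} [Finite M] (hM : ∀ (σ : GQ), ∀ x ∈ M, σ • x ∈ M)
    (hlev : ∃ U : Subgroup GQ, IsOpen (U : Set GQ) ∧ ∀ σ ∈ U, ∀ x, actM hM σ x = x) :
    HasFinOrder ℓ (actM hM) :=
  hasFinOrder_of_galFrame G (Fermat.Agent.GH.L.coordSpec_main H hn)
    (Fermat.Agent.GH.L.coordInj_main H n) (Fermat.Agent.GH.L.chartSupply_main H hn.le)
    (Fermat.Agent.GH.Add.addSpec_main H hn (Fermat.Agent.GH.Inst.harch R.A Fact.out hℓ))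
    hℓ hM hlev

end Fermat.Agent.GF.EFrame
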