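/-
GATE-F / E-side, node GF-EFINORD, file 1 (helper75): points of an elliptic curve over `ℚ̄` —
transport along an equality of curves, and the FINITE LEVEL of the `n`-torsion.

* `castPoint (h : E = E') : E.Point ≃+ E'.Point`, `castPoint_some`, `castPoint_zero`;
* `exists_level_torsion` : for `E` over `ℚ̄` with `Δ ≠ 0` and `n ≥ 1` there is an open subgroup of
  `G_ℚ` fixing the coordinates of every `n`-torsion point.
-/
import Mathlib
import Fermat.Agent.GE.Tors.Cor

set_option autoImplicit false
set_option linter.unusedSectionVars false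

noncomputable section

open WeierstrassCurve

namespace Fermat.Agent.GF.EFrame

section Cast

variable {K : Type*} [Field K] [DecidableEq K] {E E' : WeierstrassCurve.Affine K}

/-- transport of points along an equality of curves. -/
def castPoint (h : E = E') : E.Point ≃+ E'.Point := by
  subst h
  exact AddEquiv.refl _

theorem castPoint_zero (h : E = E') : castPoint h 0 = 0 := map_zero _

theorem castPoint_some (h : E = E') {x y : K} (hxy : E.Nonsingular x y) :
    castPoint h (Affine.Point.some x y hxy) = Affine.Point.some x y (h ▸ hxy) := by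
  subst h
  rfl

end Cast

section Level

local notation "Qb" => AlgebraicClosure ℚ
local notation "GQ" => (AlgebraicClosure ℚ ≃ₐ[ℚ] AlgebraicClosure ℚ)

variable [DecidableEq Qb] (E : WeierstrassCurve.Affine Qb)

/-- the coordinates of a point. -/
def coordSet : E.Point → Set Qb
  | .zero => ∅
  | .some x y _ => {x, y}

theorem finite_coordSet (P : E.Point) : (coordSet E P).Finite := by
  cases P with
  | zero => exact Set.finite_empty
  | some x y h => exact (Set.finite_singleton y).insert x

/-- **finite level**: an open subgroup of `G_ℚ` fixes the coordinates of all `n`-torsion points. -/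
theorem exists_level_torsion (hΔ : E.Δ ≠ 0) (n : ℕ) (hn : 1 ≤ n) :
    ∃ U : Subgroup GQ, IsOpen (U : Set GQ) ∧ ∀ σ ∈ U, ∀ (x y : Qb) (h : E.Nonsingular x y),
      (n : ℤ) • Affine.Point.some x y h = 0 → σ x = x ∧ σ y = y := by
  have hfin : Finite (Submodule.torsionBy ℤ E.Point (n : ℤ)) :=
    Fermat.Agent.GE.Tors.finite_torsionBy (W := E) hΔ n hn
  let S : Set Qb := ⋃ P : Submodule.torsionBy ℤ E.Point (n : ℤ), coordSet E P.1
  have hS : S.Finite := Set.finite_iUnion fun P => finite_coordSet E P.1
  let K₀ : IntermediateField ℚ Qb := IntermediateField.adjoin ℚ S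
  have hSf : Finite S := hS.to_subtype
  have halg : Algebra.IsAlgebraic ℚ Qb := AlgebraicClosure.isAlgebraic ℚ
  have : FiniteDimensional ℚ K₀ :=
    IntermediateField.finiteDimensional_adjoin (K := ℚ) (S := S)
      fun x _ => (Algebra.IsAlgebraic.isAlgebraic x).isIntegral
  refine ⟨K₀.fixingSubgroup, IntermediateField.fixingSubgroup_isOpen K₀, ?_⟩
  intro σ hσ x y h hP
  rw [IntermediateField.mem_fixingSubgroup_iff] at hσ
  have hmem : Affine.Point.some x y h ∈ Submodule.torsionBy ℤ E.Point (n : ℤ) :=
    (Submodule.mem_torsionBy_iff _ _).2 hP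
  have hx : x ∈ S := Set.mem_iUnion.2 ⟨⟨_, hmem⟩, Set.mem_insert _ _⟩
  have hy : y ∈ S := Set.mem_iUnion.2 ⟨⟨_, hmem⟩, Set.mem_insert_of_mem _ rfl⟩
  exact ⟨hσ x (IntermediateField.subset_adjoin ℚ S hx),
    hσ y (IntermediateField.subset_adjoin ℚ S hy)⟩

end Level

end Fermat.Agent.GF.EFrame
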