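/-
GATE-F / E-side, node GF-EFIXPL, file 1 (helper75): THE GAL CONTRACT FROM A GALOIS ACTION BY
`RedAut`s — the abstract form of helper18's `GH/Gal/Frame.galFrame` (which is written for the
Laurent model `laurentBaseChange L F₀`).

Abstract frame `R : RedData K F k Ft`, `H : LSpaceHyp R g c`; a group `Γ` acting on `K` by ring
automorphisms and on `Pic0 K F` additively, through a homomorphism `gal : Γ →* SemilinearAut K F`
(`hbase`, `hpic`); subgroups `I ≤ D` with `I` normalised by `D`; for every `σ ∈ D` a `RedAut R`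
with generic part `gal σ` (`ra`, `hra`), with trivial special part for `σ ∈ I` (`hb`).  Then the two
existence binders

* `hpl` : every residue disc contains an `I`-fixed place,
* `hch` : there is a chart whose centres and parameters are `I`-fixed,

give `GalFrame H n D I` (`GH/CoreAsm/GalFrame.lean`), the only frame-specific input of `core_asm`.
-/
import Mathlib
import Fermat.Agent.GH.CoreAsm.GalFrame
import Fermat.Agent.GH.Gal.ChartTransport
import Fermat.Agent.GH.L3.ShiftFix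

set_option autoImplicit false
set_option linter.unusedSectionVars false

noncomputable section

open AlgebraicCurve

namespace Fermat.Agent.GF.EFrame

open Fermat.Agent.RRh45 Fermat.Agent.GJ.S37MinDiv Fermat.Agent.GJ.J1 Fermat.Agent.GJ.S37LSpace
  Fermat.Agent.GJ.S37ROfSurj Fermat.Agent.GH Fermat.Agent.GH.Gal

variable {K F k Ft : Type} [Field K] [Field F] [Algebra K F] [Field k] [Field Ft] [Algebra k Ft]
variable {R : RedData K F k Ft} {g c : ℤ}
variable [FiniteResidues K F] [HasPrincipalDivisors K F] [Nonempty (Place K F)]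
variable [FiniteResidues k Ft] [HasPrincipalDivisors k Ft] [Nonempty (Place k Ft)]
variable [Infinite k]

/-- an automorphism acting trivially on the special fibre moves classes inside `KerRed`. -/
theorem smul_sub_mem_kerRed_of_b (φ : RedAut R) (H : LSpaceHyp R g c) (hb : φ.b = 1)
    (ξ : Pic0 K F) : φ.σ • ξ - ξ ∈ KerRed H := by
  obtain ⟨D, rfl⟩ := Pic0.mk_surjective ξ
  refine ⟨SemilinearAut.degZeroSMulHom φ.σ D - D, ?_, ?_⟩
  · rw [SemilinearAut.pic0_smul_mk]
    rfl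
  · have h1 := φ.mapDomain_rOf_smul H (D : Divisor K F)
    rw [hb, one_smul] at h1
    rw [AddSubgroup.coe_sub, SemilinearAut.coe_degZeroSMulHom, Finsupp.mapDomain_sub, h1,
      sub_self]
    exact (Divisor.principal (K := k) (F := Ft)).zero_mem

section Assembly

variable (H : LSpaceHyp R g c) (n : ℕ)
variable {Γ : Type} [Group Γ] [MulSemiringAction Γ K] [DistribMulAction Γ (Pic0 K F)]
variable (gal : Γ →* SemilinearAut K F)
variable (D I : Subgroup Γ)
variable (ra : ∀ σ : Γ, σ ∈ D → RedAut R)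

/-- the action on charts: transport for `σ ∈ D`, junk elsewhere. -/
def actCAbs (σ : Γ) (𝔠 : Chart H n) : Chart H n :=
  open Classical in
  if hσ : σ ∈ D then (ra σ hσ).chartSmul 𝔠 else 𝔠

theorem actCAbs_of_mem {σ : Γ} (hσ : σ ∈ D) (𝔠 : Chart H n) :
    actCAbs H n D ra σ 𝔠 = (ra σ hσ).chartSmul 𝔠 := by
  unfold actCAbs
  rw [dif_pos hσ]

/-- a chart with `I`-fixed centres and parameters. -/
def FixAbs (𝔠 : Chart H n) : Prop :=
  ∀ τ ∈ I, ∀ i, gal τ • (𝔠.pt i).P = (𝔠.pt i).P ∧ gal τ • (𝔠.pt i).t = (𝔠.pt i).t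

theorem smul_smul_eq_of_conj_fixed {X : Type*} [MulAction (SemilinearAut K F) X] {σ τ : Γ} (x : X)
    (hx : gal (σ⁻¹ * τ * σ) • x = x) : gal τ • (gal σ • x) = gal σ • x := by
  have h1 : τ * σ = σ * (σ⁻¹ * τ * σ) := by group
  rw [← mul_smul, ← map_mul, h1, map_mul, mul_smul, hx]

/-- **the GAL contract from a Galois action by `RedAut`s and the two existence binders.** -/
def galFrameAbs
    (hbase : ∀ (σ : Γ) (a : K), SemilinearAut.baseAut (gal σ) a = σ • a)
    (hpic : ∀ (σ : Γ) (ξ : Pic0 K F), σ • ξ = gal σ • ξ)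
    (hID : I ≤ D) (hnorm : ∀ σ ∈ D, ∀ τ ∈ I, σ⁻¹ * τ * σ ∈ I)
    (hra : ∀ (σ : Γ) (hσ : σ ∈ D), (ra σ hσ).σ = gal σ)
    (hb : ∀ (τ : Γ) (hτ : τ ∈ I), (ra τ (hID hτ)).b = 1)
    (hpl : ∀ Q : Place k Ft, ∃ P ∈ disc H Q, ∀ τ ∈ I, gal τ • P = P)
    (hch : ∃ 𝔠 : Chart H n, FixAbs H n gal I 𝔠) :
    GalFrame H n D I where
  hID := hID
  hnorm := hnorm
  ker_smul := fun σ hσ ξ hξ => by
    rw [hpic, ← hra σ hσ]
    exact (ra σ hσ).mem_kerRed_smul H hξ
  inertia_sub := fun τ hτ ξ => by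
    rw [hpic, ← hra τ (hID hτ)]
    exact smul_sub_mem_kerRed_of_b (ra τ (hID hτ)) H (hb τ hτ) ξ
  actC := actCAbs H n D ra
  isCoord_smul := by
    intro σ hσ 𝔠 ξ τ h
    rw [actCAbs_of_mem H n D ra hσ, hpic, ← hra σ hσ]
    have h1 := (ra σ hσ).isCoord_smul h
    have h2 : (fun i => SemilinearAut.baseAut (ra σ hσ).σ (τ i)) = fun i => σ • τ i := by
      funext i
      rw [hra σ hσ, hbase]
    rw [h2] at h1
    exact h1
  Fix := FixAbs H n gal I
  exists_fix := hch
  fix_inertia := by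
    intro 𝔠 h𝔠 τ hτ
    rw [actCAbs_of_mem H n D ra (hID hτ)]
    refine (ra τ (hID hτ)).chartSmul_eq_self fun i => ⟨?_, ?_, ?_⟩
    · rw [hb τ hτ, one_smul]
    · rw [hra]; exact (h𝔠 τ hτ i).1
    · rw [hra]; exact (h𝔠 τ hτ i).2
  fix_smul := by
    intro 𝔠 h𝔠 σ hσ τ hτ i
    rw [actCAbs_of_mem H n D ra hσ]
    have hc := hnorm σ hσ τ hτ
    constructor
    · show gal τ • ((ra σ hσ).σ • (𝔠.pt i).P) = (ra σ hσ).σ • (𝔠.pt i).P
      rw [hra]
      exact smul_smul_eq_of_conj_fixed gal (𝔠.pt i).P (h𝔠 _ hc i).1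
    · show gal τ • ((ra σ hσ).σ • (𝔠.pt i).t) = (ra σ hσ).σ • (𝔠.pt i).t
      rw [hra]
      exact smul_smul_eq_of_conj_fixed gal (𝔠.pt i).t (h𝔠 _ hc i).2
  exists_fixed_shift := by
    intro ξ
    obtain ⟨sh, h1, h2⟩ := Fermat.Agent.GH.L3.exists_fixed_shift_of_fixed_places H
      {φ | ∃ τ ∈ I, φ = gal τ}
      (fun Q => by
        obtain ⟨P, hP, hfix⟩ := hpl Q
        exact ⟨P, hP, fun φ ⟨τ, hτ, hφ⟩ => by rw [hφ]; exact hfix τ hτ⟩) ξ
    exact ⟨sh, fun τ hτ => by rw [hpic]; exact h1 _ ⟨τ, hτ, rfl⟩, h2⟩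

end Assembly

end Fermat.Agent.GF.EFrame
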