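/-
GATE-F / E-side, node GF-EFIXPL, file 2 (helper75): places of a Weierstrass frame under reduction,
and THE GAL CONTRACT of the frame (hypothesis form).

Abstract frame `R : RedData K F k Ft`, `H : LSpaceHyp R g c`; `t y ∈ R.Rw` (the Weierstrass
coordinates) with a "Weierstrass dictionary" `WDict` on BOTH fibres: a place `Pinf` with
`ord t = -2`, `ord y = -3`, `t y` regular elsewhere, and a place `≠ Pinf` is determined by the
values of `t` and `y` (helper85 `GF/EPoints` supplies this for the function field of an elliptic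
curve over an algebraically closed field).

* `rOf_Pinf`            : the place at infinity reduces to the place at infinity;
* `rOf_ne_Qinf`         : an affine place with INTEGRAL `t`-value does not reduce to infinity;
* `rOf_eq_of_values`    : an integral affine place `(a, b)` reduces to the affine place `(ā, b̄)`;
* `chartInf`            : the chart at infinity (`n = 1`): centre `Pinf`, parameter `t / y`;
* **`galFrameW`**       : `GalFrame H 1 D I` from a Galois action by `RedAut`s fixing `t`, `y`,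
  `Pinf`, and the lifting binder `hlift` (Hensel: every affine place of the special fibre is the
  reduction of an `I`-fixed integral affine place).
-/
import Mathlib
import Fermat.Agent.GF.EFrame.GalFrameAbs
import Fermat.Agent.GH.Disc.Values

set_option autoImplicit false
set_option linter.unusedSectionVars false

noncomputable section

open AlgebraicCurve

namespace Fermat.Agent.GF.EFrame

open Fermat.Agent.RRh45 Fermat.Agent.GJ.S37MinDiv Fermat.Agent.GJ.J1 Fermat.Agent.GJ.S37LSpace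
  Fermat.Agent.GJ.S37ROfSurj Fermat.Agent.S24 Fermat.Agent.GH Fermat.Agent.GH.Gal
  Fermat.Agent.GH.Disc

/-! ### One place -/

section OnePlace

variable {K F : Type*} [Field K] [Field F] [Algebra K F]

/-- subtracting a constant does not change a negative order. -/
theorem ord_sub_const_of_neg (v : Place K F) {f : F} (hf : v.ord f < 0) (a : K) :
    v.ord (f - algebraMap K F a) = v.ord f := by
  by_cases ha : a = 0
  · rw [ha, map_zero, sub_zero]
  have hf0 : f ≠ 0 := by
    rintro rfl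
    rw [Place.ord_zero] at hf
    exact lt_irrefl _ hf
  have ha0 : algebraMap K F a ≠ 0 := by simpa using ha
  have hna0 : -algebraMap K F a ≠ 0 := neg_ne_zero.2 ha0
  have hord_a : v.ord (algebraMap K F a) = 0 := PlaceB.ord_algebraMap v ha
  have hsub0 : f - algebraMap K F a ≠ 0 := by
    intro h0
    rw [sub_eq_zero] at h0
    rw [h0, hord_a] at hf
    exact lt_irrefl _ hf
  apply le_antisymm
  · -- `f = (f - a) + a`
    by_contra hlt
    push Not at hlt
    have h1 := PlaceB.ord_add_ge v hsub0 ha0 (by rw [sub_add_cancel]; exact hf0)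
    rw [sub_add_cancel, hord_a] at h1
    have h2 : v.ord f < min (v.ord (f - algebraMap K F a)) 0 := lt_min hlt hf
    exact absurd h1 (not_le.2 h2)
  · have h1 := PlaceB.ord_add_ge v hf0 hna0 (by rw [← sub_eq_add_neg]; exact hsub0)
    rw [← sub_eq_add_neg, PlaceB.ord_neg, hord_a, min_eq_left hf.le] at h1
    exact h1

theorem ne_zero_of_ord_ne_zero (v : Place K F) {f : F} (h : v.ord f ≠ 0) : f ≠ 0 := by
  rintro rfl
  exact h (Place.ord_zero v)

end OnePlace

/-- **the Weierstrass dictionary** of a function field `F / K` with coordinates `t`, `y`. -/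
structure WDict (K : Type*) {F : Type*} [Field K] [Field F] [Algebra K F] (t y : F) where
  /-- the place at infinity -/
  Pinf : Place K F
  ord_t : Pinf.ord t = -2
  ord_y : Pinf.ord y = -3
  reg : ∀ v : Place K F, v ≠ Pinf → t ∈ v.toValuationSubring ∧ y ∈ v.toValuationSubring
  uniq : ∀ v w : Place K F, v ≠ Pinf → w ≠ Pinf → ∀ a b : K,
    ValueAt v t a → ValueAt v y b → ValueAt w t a → ValueAt w y b → v = w

variable {K F k Ft : Type} [Field K] [Field F] [Algebra K F] [Field k] [Field Ft] [Algebra k Ft]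
variable {R : RedData K F k Ft} {g c : ℤ}
variable [FiniteResidues K F] [HasPrincipalDivisors K F] [Nonempty (Place K F)]
variable [FiniteResidues k Ft] [HasPrincipalDivisors k Ft] [Nonempty (Place k Ft)]
variable [Infinite k]

section Places

variable (H : LSpaceHyp R g c) {t y : F} (ht : t ∈ R.Rw) (hy : y ∈ R.Rw)
variable (dF : WDict K t y) (dT : WDict k (R.red ⟨t, ht⟩) (R.red ⟨y, hy⟩))

include ht in
/-- `t - a ∈ Rw` for `a ∈ A`. -/
theorem sub_const_mem_Rw (a : R.A) : t - algebraMap K F (a : K) ∈ R.Rw :=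
  sub_mem ht ((R.mem_A_iff a).1 a.2)

theorem red_sub_const (a : R.A) :
    R.red ⟨t - algebraMap K F (a : K), sub_const_mem_Rw ht a⟩ =
      R.red ⟨t, ht⟩ - algebraMap k Ft (R.res a) := by
  have h : (⟨t - algebraMap K F (a : K), sub_const_mem_Rw ht a⟩ : R.Rw) =
      ⟨t, ht⟩ - constRw R a := rfl
  rw [h, map_sub, red_constRw]

include dT in
theorem ord_Qinf_red_sub_const (a : R.A) :
    dT.Pinf.ord (R.red ⟨t - algebraMap K F (a : K), sub_const_mem_Rw ht a⟩) = -2 := by
  rw [red_sub_const ht a, ord_sub_const_of_neg dT.Pinf (by rw [dT.ord_t]; norm_num), dT.ord_t]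

include dT in
theorem red_sub_const_ne_zero (a : R.A) :
    R.red ⟨t - algebraMap K F (a : K), sub_const_mem_Rw ht a⟩ ≠ 0 := by
  intro h0
  have := ord_Qinf_red_sub_const ht hy dT a
  rw [h0, Place.ord_zero] at this
  norm_num at this

include dF in
theorem ord_Pinf_sub_const (a : K) : dF.Pinf.ord (t - algebraMap K F a) = -2 := by
  rw [ord_sub_const_of_neg dF.Pinf (by rw [dF.ord_t]; norm_num), dF.ord_t]

include dF in
theorem ord_sub_const_nonneg {v : Place K F} (hv : v ≠ dF.Pinf) (a : K) :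
    0 ≤ v.ord (t - algebraMap K F a) := by
  by_cases h0 : t - algebraMap K F a = 0
  · rw [h0, Place.ord_zero]
  · exact (PlaceB.ord_nonneg_iff v h0).2 (sub_mem (dF.reg v hv).1 (v.algebraMap_mem' a))

include dF dT in
/-- **the place at infinity reduces to the place at infinity.** -/
theorem rOf_Pinf : rOf H dF.Pinf = dT.Pinf := by
  classical
  by_contra hne
  have hred := red_sub_const_ne_zero ht hy dT 0
  have hy0 : (t - algebraMap K F ((0 : R.A) : K)) ≠ 0 :=
    coe_ne_zero_of_red_ne_zero (y := ⟨_, sub_const_mem_Rw ht 0⟩) hred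
  obtain ⟨Dy, hDy, -⟩ := HasPrincipalDivisors.exists_divisor (K := K) _ hy0
  have hsum := ord_red_eq_sum H (y := ⟨_, sub_const_mem_Rw ht 0⟩) hred hDy dT.Pinf
  rw [ord_Qinf_red_sub_const ht hy dT 0] at hsum
  have hnn : 0 ≤ ∑ P ∈ Dy.support.filter (fun P => rOf H P = dT.Pinf),
      P.ord (t - algebraMap K F ((0 : R.A) : K)) := by
    refine Finset.sum_nonneg fun P hP => ?_
    have hP' := (Finset.mem_filter.1 hP).2
    have hPne : P ≠ dF.Pinf := by
      rintro rfl
      exact hne hP'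
    exact ord_sub_const_nonneg dF hPne _
  rw [← hsum] at hnn
  norm_num at hnn

include dF dT in
/-- **an affine place with integral `t`-value does not reduce to infinity.** -/
theorem rOf_ne_Qinf {P₀ : Place K F} (hP₀ : P₀ ≠ dF.Pinf) (a : R.A) (hval : ValueAt P₀ t (a : K)) :
    rOf H P₀ ≠ dT.Pinf := by
  classical
  intro hP₀Q
  have hred := red_sub_const_ne_zero ht hy dT a
  have hy0 : (t - algebraMap K F (a : K)) ≠ 0 :=
    coe_ne_zero_of_red_ne_zero (y := ⟨_, sub_const_mem_Rw ht a⟩) hred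
  obtain ⟨Dy, hDy, -⟩ := HasPrincipalDivisors.exists_divisor (K := K) _ hy0
  have hsum := ord_red_eq_sum H (y := ⟨_, sub_const_mem_Rw ht a⟩) hred hDy dT.Pinf
  rw [ord_Qinf_red_sub_const ht hy dT a] at hsum
  set S := Dy.support.filter (fun P => rOf H P = dT.Pinf) with hS
  have hord₀ : 0 < P₀.ord (t - algebraMap K F (a : K)) := by
    rcases (valueAt_iff_ord P₀ t (a : K)).1 hval with h | h
    · exact absurd h hy0
    · exact h
  have hinf : dF.Pinf ∈ S := by
    rw [hS, Finset.mem_filter, Finsupp.mem_support_iff, hDy, ord_Pinf_sub_const dF]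
    exact ⟨by norm_num, rOf_Pinf H ht hy dF dT⟩
  have h0mem : P₀ ∈ S.erase dF.Pinf := by
    rw [Finset.mem_erase, hS, Finset.mem_filter, Finsupp.mem_support_iff, hDy]
    exact ⟨hP₀, hord₀.ne', hP₀Q⟩
  have hrest : P₀.ord (t - algebraMap K F (a : K)) ≤
      ∑ P ∈ S.erase dF.Pinf, P.ord (t - algebraMap K F (a : K)) := by
    refine Finset.single_le_sum (f := fun P : Place K F => P.ord (t - algebraMap K F (a : K)))
      (fun P hP => ?_) h0mem
    exact ord_sub_const_nonneg dF (Finset.mem_erase.1 hP).1 _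
  have htot := Finset.add_sum_erase S (fun P : Place K F => P.ord (t - algebraMap K F (a : K)))
    hinf
  rw [ord_Pinf_sub_const dF] at htot
  have : (-2 : ℤ) = ∑ P ∈ S, P.ord (t - algebraMap K F (a : K)) := hsum
  omega

include dF dT in
/-- `t` and `y` have no pole on the disc of an affine special place. -/
theorem t_y_mem_Odisc {Q : Place k Ft} (hQ : Q ≠ dT.Pinf) : t ∈ Odisc H Q ∧ y ∈ Odisc H Q := by
  have hne : ∀ P ∈ disc H Q, P ≠ dF.Pinf := by
    rintro P hP rfl
    apply hQ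
    rw [← rOf_Pinf H ht hy dF dT]
    exact hP.symm
  exact ⟨⟨ht, fun P hP => (dF.reg P (hne P hP)).1⟩, ⟨hy, fun P hP => (dF.reg P (hne P hP)).2⟩⟩

include dF dT in
/-- **an integral affine place `(a, b)` reduces to the affine place `(ā, b̄)`.** -/
theorem rOf_eq_of_values {P₀ : Place K F} (hP₀ : P₀ ≠ dF.Pinf) (a b : R.A)
    (hta : ValueAt P₀ t (a : K)) (hyb : ValueAt P₀ y (b : K))
    {Q : Place k Ft} (hQ : Q ≠ dT.Pinf) (hQt : ValueAt Q (R.red ⟨t, ht⟩) (R.res a))
    (hQy : ValueAt Q (R.red ⟨y, hy⟩) (R.res b)) : rOf H P₀ = Q := by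
  have hne := rOf_ne_Qinf H ht hy dF dT hP₀ a hta
  obtain ⟨h1, h2⟩ := t_y_mem_Odisc H ht hy dF dT hne
  have hP₀d : P₀ ∈ disc H (rOf H P₀) := rfl
  have v1 := valueAt_red h1 hP₀d hta
  have v2 := valueAt_red h2 hP₀d hyb
  exact dT.uniq _ _ hne hQ _ _ v1 v2 hQt hQy

end Places

/-! ### The chart at infinity -/

section ChartInf

variable (H : LSpaceHyp R g c) {t y : F} (ht : t ∈ R.Rw) (hy : y ∈ R.Rw)
variable (dF : WDict K t y) (dT : WDict k (R.red ⟨t, ht⟩) (R.red ⟨y, hy⟩))

include dT in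
theorem red_y_ne_zero : R.red ⟨y, hy⟩ ≠ 0 :=
  ne_zero_of_ord_ne_zero dT.Pinf (by rw [dT.ord_y]; norm_num)

include dT in
theorem red_t_ne_zero : R.red ⟨t, ht⟩ ≠ 0 :=
  ne_zero_of_ord_ne_zero dT.Pinf (by rw [dT.ord_t]; norm_num)

include dF in
theorem y_ne_zero : y ≠ 0 :=
  ne_zero_of_ord_ne_zero dF.Pinf (by rw [dF.ord_y]; norm_num)

include dF in
theorem t_ne_zero : t ≠ 0 :=
  ne_zero_of_ord_ne_zero dF.Pinf (by rw [dF.ord_t]; norm_num)

include dT in
/-- `y` is a unit of the Gauss ring. -/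
theorem exists_inv_y : ∃ u : R.Rw, (u : F) = y⁻¹ ∧ R.red u = (R.red ⟨y, hy⟩)⁻¹ := by
  have hred := red_y_ne_zero ht hy dT
  have hnm : (⟨y, hy⟩ : R.Rw) ∉ IsLocalRing.maximalIdeal R.Rw := fun h =>
    hred ((R.red_eq_zero_iff _).2 h)
  have hu : IsUnit (⟨y, hy⟩ : R.Rw) := IsLocalRing.notMem_maximalIdeal.1 hnm
  obtain ⟨u, hu⟩ := hu.exists_right_inv
  have h1 : y * (u : F) = 1 := by
    have := congrArg (fun z : R.Rw => (z : F)) hu
    simpa using this
  refine ⟨u, eq_inv_of_mul_eq_one_right h1, ?_⟩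
  have h2 : R.red ⟨y, hy⟩ * R.red u = 1 := by rw [← map_mul, hu, map_one]
  exact eq_inv_of_mul_eq_one_right h2

include dT in
theorem z_mem_Rw : t * y⁻¹ ∈ R.Rw := by
  obtain ⟨u, hu, -⟩ := exists_inv_y ht hy dT
  rw [← hu]
  exact mul_mem ht u.2

include dT in
theorem red_z : R.red ⟨t * y⁻¹, z_mem_Rw ht hy dT⟩ = R.red ⟨t, ht⟩ * (R.red ⟨y, hy⟩)⁻¹ := by
  obtain ⟨u, hu, hured⟩ := exists_inv_y ht hy dT
  have h : (⟨t * y⁻¹, z_mem_Rw ht hy dT⟩ : R.Rw) = ⟨t, ht⟩ * u := Subtype.ext (by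
    show t * y⁻¹ = t * (u : F)
    rw [hu])
  rw [h, map_mul, hured]

include dT in
theorem ord_Qinf_red_z : dT.Pinf.ord (R.red ⟨t * y⁻¹, z_mem_Rw ht hy dT⟩) = 1 := by
  rw [red_z ht hy dT, Place.ord_mul _ (red_t_ne_zero ht hy dT) (inv_ne_zero (red_y_ne_zero ht hy dT)),
    Place.ord_inv, dT.ord_t, dT.ord_y]
  norm_num

include dF in
theorem ord_Pinf_z : dF.Pinf.ord (t * y⁻¹) = 1 := by
  rw [Place.ord_mul _ (t_ne_zero dF) (inv_ne_zero (y_ne_zero dF)), Place.ord_inv, dF.ord_t,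
    dF.ord_y]
  norm_num

include dF dT in
/-- `t / y` has no pole on the disc of infinity. -/
theorem z_mem_Odisc
    (hy0 : ∀ P : Place K F, P ≠ dF.Pinf → ∀ a : K, ValueAt P t a → ValueAt P y 0 → a ∈ R.A) :
    t * y⁻¹ ∈ Odisc H dT.Pinf := by
  refine ⟨z_mem_Rw ht hy dT, fun P hP => ?_⟩
  have hz0 : t * y⁻¹ ≠ 0 := mul_ne_zero (t_ne_zero dF) (inv_ne_zero (y_ne_zero dF))
  by_cases hPinf : P = dF.Pinf
  · rw [hPinf, ← PlaceB.ord_nonneg_iff _ hz0, ord_Pinf_z dF]
    norm_num
  · obtain ⟨htP, hyP⟩ := dF.reg P hPinf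
    have hv0 : ¬ ValueAt P y 0 := by
      intro hv
      obtain ⟨a, ha⟩ := exists_valueAt (H.degF P) htP
      have haA := hy0 P hPinf a ha hv
      exact rOf_ne_Qinf H ht hy dF dT hPinf ⟨a, haA⟩ ha hP
    rw [valueAt_zero_iff] at hv0
    push Not at hv0
    have h1 : 0 ≤ P.ord y := (PlaceB.ord_nonneg_iff P (y_ne_zero dF)).2 hyP
    have h2 : P.ord y = 0 := le_antisymm hv0.2 h1
    have h3 : y⁻¹ ∈ P.toValuationSubring := by
      rw [← PlaceB.ord_nonneg_iff P (inv_ne_zero (y_ne_zero dF)), Place.ord_inv, h2]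
      norm_num
    exact mul_mem htP h3

/-- the chart point at infinity: centre `Pinf`, parameter `t / y`. -/
def chartPtInf
    (hy0 : ∀ P : Place K F, P ≠ dF.Pinf → ∀ a : K, ValueAt P t a → ValueAt P y 0 → a ∈ R.A) :
    ChartPt H dT.Pinf where
  P := dF.Pinf
  hP := rOf_Pinf H ht hy dF dT
  t := t * y⁻¹
  ht := z_mem_Odisc H ht hy dF dT hy0
  ht0 := (valueAt_zero_iff _ _).2 (Or.inr (by rw [ord_Pinf_z dF]; norm_num))
  hred := ord_Qinf_red_z ht hy dT

/-- **the chart at infinity** (`n = 1`). -/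
def chartInf
    (hy0 : ∀ P : Place K F, P ≠ dF.Pinf → ∀ a : K, ValueAt P t a → ValueAt P y 0 → a ∈ R.A)
    (hns : Module.finrank k (riemannRochSpace (Finsupp.single dT.Pinf (1 : ℤ))) = 1) :
    Chart H 1 where
  Q _ := dT.Pinf
  hQ := fun i j _ => Subsingleton.elim i j
  pt _ := chartPtInf H ht hy dF dT hy0
  hns := by
    rw [Fin.sum_univ_one]
    exact hns

end ChartInf

/-! ### The GAL contract of a Weierstrass frame -/

section GalW

variable (H : LSpaceHyp R g c) {t y : F} (ht : t ∈ R.Rw) (hy : y ∈ R.Rw)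
variable (dF : WDict K t y) (dT : WDict k (R.red ⟨t, ht⟩) (R.red ⟨y, hy⟩))
variable {Γ : Type} [Group Γ] [MulSemiringAction Γ K] [DistribMulAction Γ (Pic0 K F)]
variable (gal : Γ →* SemilinearAut K F) (D I : Subgroup Γ)
variable (ra : ∀ σ : Γ, σ ∈ D → RedAut R)

/-- **the GAL contract of a Weierstrass frame**: Galois action by `RedAut`s fixing `t`, `y` and the
place at infinity, and `I`-fixed integral lifts of the affine special places. -/
def galFrameW
    (hbase : ∀ (σ : Γ) (a : K), SemilinearAut.baseAut (gal σ) a = σ • a)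
    (hpic : ∀ (σ : Γ) (ξ : Pic0 K F), σ • ξ = gal σ • ξ)
    (hID : I ≤ D) (hnorm : ∀ σ ∈ D, ∀ τ ∈ I, σ⁻¹ * τ * σ ∈ I)
    (hra : ∀ (σ : Γ) (hσ : σ ∈ D), (ra σ hσ).σ = gal σ)
    (hb : ∀ (τ : Γ) (hτ : τ ∈ I), (ra τ (hID hτ)).b = 1)
    (hy0 : ∀ P : Place K F, P ≠ dF.Pinf → ∀ a : K, ValueAt P t a → ValueAt P y 0 → a ∈ R.A)
    (hns : Module.finrank k (riemannRochSpace (Finsupp.single dT.Pinf (1 : ℤ))) = 1)
    (hfixt : ∀ τ ∈ I, gal τ • t = t) (hfixy : ∀ τ ∈ I, gal τ • y = y)
    (hfixinf : ∀ τ ∈ I, gal τ • dF.Pinf = dF.Pinf)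
    (hlift : ∀ Q : Place k Ft, Q ≠ dT.Pinf → ∃ P : Place K F, P ≠ dF.Pinf ∧
      (∀ τ ∈ I, gal τ • P = P) ∧ ∃ a b : R.A, ValueAt P t (a : K) ∧ ValueAt P y (b : K) ∧
        ValueAt Q (R.red ⟨t, ht⟩) (R.res a) ∧ ValueAt Q (R.red ⟨y, hy⟩) (R.res b)) :
    GalFrame H 1 D I :=
  galFrameAbs H 1 gal D I ra hbase hpic hID hnorm hra hb
    (fun Q => by
      by_cases hQ : Q = dT.Pinf
      · exact ⟨dF.Pinf, by rw [hQ]; exact rOf_Pinf H ht hy dF dT, hfixinf⟩
      · obtain ⟨P, hP, hfix, a, b, h1, h2, h3, h4⟩ := hlift Q hQ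
        exact ⟨P, rOf_eq_of_values H ht hy dF dT hP a b h1 h2 hQ h3 h4, hfix⟩)
    ⟨chartInf H ht hy dF dT hy0 hns, fun τ hτ _ => ⟨hfixinf τ hτ, by
      show gal τ • (t * y⁻¹) = t * y⁻¹
      rw [smul_mul', smul_inv'', hfixt τ hτ, hfixy τ hτ]⟩⟩

end GalW

end Fermat.Agent.GF.EFrame
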