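/-
GATE-F / E-side, node GF-EFIXPL, file 3 (helper75): fixedness of places from the Weierstrass
dictionary, and integrality of the `t`-value at the zeros of `y`.

Abstract: `d : WDict K t y` (file `FixPl.lean`), `φ : SemilinearAut K F` fixing `t` and `y`.

* `valueAt_smul_iff_semilinear` : values are transported by any semilinear automorphism;
* `WDict.smul_Pinf`             : `φ • Pinf = Pinf` (the unique pole of `t`);
* `WDict.smul_eq_of_values`     : an affine place whose `(t, y)`-values are fixed by the base
  automorphism of `φ` is fixed by `φ`;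
* `value_mem_of_weierstrass`    : if `t y` satisfy a Weierstrass equation with coefficients in a
  valuation subring `A` of `K`, then at a place where `y` vanishes the value of `t` lies in `A`
  (a root of a monic cubic over `A`) — the binder `hy0` of `galFrameW`.
-/
import Mathlib
import Fermat.Agent.GF.EFrame.FixPl
import Fermat.Agent.GH.Gal.RedAut

set_option autoImplicit false
set_option linter.unusedSectionVars false

noncomputable section

open AlgebraicCurve

namespace Fermat.Agent.GF.EFrame

open Fermat.Agent.S24 Fermat.Agent.GH Fermat.Agent.GH.Gal Fermat.Agent.GH.Disc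

section FixW

variable {K F : Type} [Field K] [Field F] [Algebra K F]

/-- values are transported by a semilinear automorphism: `(φ e)(φ P) = φ (e(P))`. -/
theorem valueAt_smul_iff_semilinear (φ : SemilinearAut K F) (P : Place K F) (e : F) (a : K) :
    ValueAt (φ • P) (φ • e) (SemilinearAut.baseAut φ a) ↔ ValueAt P e a := by
  unfold ValueAt
  rw [SemilinearAut.smul_toValuationSubring, ← SemilinearAut.smul_algebraMap, ← smul_sub]
  exact valuation_smul_lt_one_iff φ _ _

variable {t y : F}

/-- an automorphism fixing `t` fixes the place at infinity (the unique pole of `t`). -/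
theorem WDict.smul_Pinf (d : WDict K t y) (φ : SemilinearAut K F) (ht : φ • t = t) :
    φ • d.Pinf = d.Pinf := by
  by_contra h
  have h1 : t ∈ (φ • d.Pinf).toValuationSubring := (d.reg _ h).1
  have h2 : (φ • d.Pinf).ord t = -2 := by
    have h := SemilinearAut.ord_smul φ d.Pinf t
    rw [ht, d.ord_t] at h
    exact h
  have ht0 : t ≠ 0 := ne_zero_of_ord_ne_zero d.Pinf (by rw [d.ord_t]; norm_num)
  have h3 : 0 ≤ (φ • d.Pinf).ord t := (PlaceB.ord_nonneg_iff _ ht0).2 h1
  omega

/-- an affine place with `φ`-fixed `(t, y)`-values is fixed by `φ`. -/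
theorem WDict.smul_eq_of_values (d : WDict K t y) (φ : SemilinearAut K F) (ht : φ • t = t)
    (hy : φ • y = y) {P : Place K F} (hP : P ≠ d.Pinf) {a b : K} (ha : ValueAt P t a)
    (hb : ValueAt P y b) (hfa : SemilinearAut.baseAut φ a = a)
    (hfb : SemilinearAut.baseAut φ b = b) : φ • P = P := by
  have hP' : φ • P ≠ d.Pinf := by
    intro h
    apply hP
    rw [← d.smul_Pinf φ ht] at h
    exact MulAction.injective φ h
  have h1 : ValueAt (φ • P) t a := by
    have := (valueAt_smul_iff_semilinear φ P t a).2 ha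
    rwa [ht, hfa] at this
  have h2 : ValueAt (φ • P) y b := by
    have := (valueAt_smul_iff_semilinear φ P y b).2 hb
    rwa [hy, hfb] at this
  exact d.uniq _ _ hP' hP a b h1 h2 ha hb

/-- **integrality of the `t`-value at a zero of `y`**: if `t`, `y` satisfy a Weierstrass equation
with coefficients in the valuation subring `A`, then `y(P) = 0` forces `t(P) ∈ A`. -/
theorem value_mem_of_weierstrass (A : ValuationSubring K) {a₁ a₂ a₃ a₄ a₆ : K}
    (h₂ : a₂ ∈ A) (h₄ : a₄ ∈ A) (h₆ : a₆ ∈ A)
    (heq : y ^ 2 + algebraMap K F a₁ * t * y + algebraMap K F a₃ * y =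
      t ^ 3 + algebraMap K F a₂ * t ^ 2 + algebraMap K F a₄ * t + algebraMap K F a₆)
    {P : Place K F} {a : K} (ha : ValueAt P t a) (hy : ValueAt P y 0) : a ∈ A := by
  have hL : ValueAt P (y ^ 2 + algebraMap K F a₁ * t * y + algebraMap K F a₃ * y)
      (0 ^ 2 + a₁ * a * 0 + a₃ * 0) :=
    valueAt_add (valueAt_add (valueAt_pow hy 2)
      (valueAt_mul (valueAt_mul (valueAt_const P a₁) ha) hy)) (valueAt_mul (valueAt_const P a₃) hy)
  have hR : ValueAt P (t ^ 3 + algebraMap K F a₂ * t ^ 2 + algebraMap K F a₄ * t +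
      algebraMap K F a₆) (a ^ 3 + a₂ * a ^ 2 + a₄ * a + a₆) :=
    valueAt_add (valueAt_add (valueAt_add (valueAt_pow ha 3)
      (valueAt_mul (valueAt_const P a₂) (valueAt_pow ha 2)))
      (valueAt_mul (valueAt_const P a₄) ha)) (valueAt_const P a₆)
  rw [heq] at hL
  have h0 : a ^ 3 + a₂ * a ^ 2 + a₄ * a + a₆ = 0 := by
    have := valueAt_unique hR hL
    rw [this]
    ring
  -- `a` is a root of a monic cubic over `A`
  by_contra hna
  have hv : 1 < A.valuation a := by
    rw [← not_le, A.valuation_le_one_iff]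
    exact hna
  have hv0 : A.valuation a ≠ 0 := (lt_trans zero_lt_one hv).ne'
  have h1 : A.valuation (a₂ * a ^ 2 + a₄ * a + a₆) < A.valuation (a ^ 3) := by
    have e2 : A.valuation a₂ ≤ 1 := (A.valuation_le_one_iff _).2 h₂
    have e4 : A.valuation a₄ ≤ 1 := (A.valuation_le_one_iff _).2 h₄
    have e6 : A.valuation a₆ ≤ 1 := (A.valuation_le_one_iff _).2 h₆
    have hpos : 0 < A.valuation a := lt_trans zero_lt_one hv
    have hsq : A.valuation a ^ 2 < A.valuation a ^ 3 := by
      rw [pow_succ (A.valuation a) 2]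
      exact lt_mul_of_one_lt_right (pow_pos hpos 2) hv
    have hone : A.valuation a < A.valuation a ^ 2 := by
      rw [pow_two]
      exact lt_mul_of_one_lt_right hpos hv
    have b2 : A.valuation (a₂ * a ^ 2) < A.valuation (a ^ 3) := by
      rw [map_mul, map_pow, map_pow]
      exact lt_of_le_of_lt (mul_le_of_le_one_left' e2) hsq
    have b4 : A.valuation (a₄ * a) < A.valuation (a ^ 3) := by
      rw [map_mul, map_pow]
      exact lt_of_le_of_lt (mul_le_of_le_one_left' e4) (lt_trans hone hsq)
    have b6 : A.valuation a₆ < A.valuation (a ^ 3) := by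
      rw [map_pow]
      exact lt_of_le_of_lt e6 (lt_trans hv (lt_trans hone hsq))
    exact lt_of_le_of_lt (A.valuation.map_add _ _)
      (max_lt (lt_of_le_of_lt (A.valuation.map_add _ _) (max_lt b2 b4)) b6)
  have h2 : A.valuation (a ^ 3 + (a₂ * a ^ 2 + a₄ * a + a₆)) = A.valuation (a ^ 3) :=
    Valuation.map_add_eq_of_lt_left _ h1
  have h3 : a ^ 3 + (a₂ * a ^ 2 + a₄ * a + a₆) = 0 := by rw [← h0]; ring
  rw [h3, map_zero, map_pow] at h2
  exact pow_ne_zero 3 hv0 h2.symm

end FixW

end Fermat.Agent.GF.EFrame
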