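/-
GATE-F / S40, node GF-EGAL part 2 (helper17): automorphisms of a FRACTION FRAME give automorphisms
of its reduction datum.

Abstract setting of helper82's `GJ27/Red/FracRed.lean`: `Φ : FracFrame K F k D` (order `O ⊆ F`,
reduction `ρ : O ↠ D`), `Ft` a fraction field of `D`, `R := Φ.redData Ft`.  Let `σ` be a semilinear
automorphism of `F / K` with `σ O ⊆ O`, `σ⁻¹ O ⊆ O`, let `bD : D →+* D` with `ρ (σ a) = bD (ρ a)` on
`O`, and `b` a semilinear automorphism of `Ft / k` extending `bD`.  Then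

* `smul_mem_Rw`, `mem_Rw_of_smul_mem` : `σ x ∈ Rw ↔ x ∈ Rw`;
* `red_smul` : `red (σ x) = b (red x)`;
* **`redAutOfFrame : RedAut (Φ.redData Ft)`** (`GH/Gal/RedAut.lean`) with `.σ = σ`, `.b = b`.

Twin of `GH/Gal/DecompAct.lean` (Laurent model) for fraction frames; used for the Weierstrass model
`GF/EFrame/Model.lean` in `GF/EFrame/GalERed.lean`.
-/
import Mathlib
import Fermat.Agent.GJ27.Red.FracRed
import Fermat.Agent.GH.Gal.RedAut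

set_option autoImplicit false
set_option linter.unusedSectionVars false

noncomputable section

namespace Fermat.Agent.GF.EFrame.FracAut

open AlgebraicCurve Fermat.Agent.GJ.J1 Fermat.Agent.GJ27.Red Fermat.Agent.GH.Gal

variable {K F k D Ft : Type*} [Field K] [Field F] [Algebra K F] [Field k] [CommRing D] [IsDomain D]
  [Algebra k D] [Field Ft] [Algebra D Ft] [IsFractionRing D Ft] [Algebra k Ft]
  [IsScalarTower k D Ft]

variable (Φ : FracFrame K F k D) (σ : SemilinearAut K F) (b : SemilinearAut k Ft) (bD : D →+* D)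
  (hO : ∀ x : F, x ∈ Φ.O → σ • x ∈ Φ.O)

/-- the image of a fraction is a fraction -/
theorem isFrac_smul
    (hρ : ∀ (x : F) (hx : x ∈ Φ.O), Φ.rho ⟨σ • x, hO x hx⟩ = bD (Φ.rho ⟨x, hx⟩))
    (hb : ∀ d : D, b • algebraMap D Ft d = algebraMap D Ft (bD d))
    {x : F} {a c : Φ.O} (h : Φ.IsFrac x a c) :
    Φ.IsFrac (σ • x) ⟨σ • (a : F), hO _ a.2⟩ ⟨σ • (c : F), hO _ c.2⟩ := by
  refine ⟨?_, ?_⟩
  · rw [hρ (c : F) c.2]
    intro h0
    have h1 := hb (Φ.rho ⟨(c : F), c.2⟩)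
    rw [h0, map_zero] at h1
    have h2 : algebraMap D Ft (Φ.rho ⟨(c : F), c.2⟩) = 0 := (smul_eq_zero_iff_eq b).1 h1
    rw [map_eq_zero_iff _ (IsFractionRing.injective D Ft)] at h2
    exact h.1 h2
  · show σ • x * σ • (c : F) = σ • (a : F)
    rw [← smul_mul', h.2]

/-- `σ` preserves the valuation ring of the frame -/
theorem smul_mem_Rw
    (hρ : ∀ (x : F) (hx : x ∈ Φ.O), Φ.rho ⟨σ • x, hO x hx⟩ = bD (Φ.rho ⟨x, hx⟩))
    (hb : ∀ d : D, b • algebraMap D Ft d = algebraMap D Ft (bD d))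
    (x : F) (hx : x ∈ Φ.Rw) : σ • x ∈ Φ.Rw := by
  obtain ⟨a, c, h⟩ := hx
  exact ⟨_, _, isFrac_smul Φ σ b bD hO hρ hb h⟩

/-- **reduction commutes with the automorphism**: `red (σ x) = b (red x)` -/
theorem red_smul
    (hρ : ∀ (x : F) (hx : x ∈ Φ.O), Φ.rho ⟨σ • x, hO x hx⟩ = bD (Φ.rho ⟨x, hx⟩))
    (hb : ∀ d : D, b • algebraMap D Ft d = algebraMap D Ft (bD d))
    (x : F) (hx : x ∈ Φ.Rw) :
    Φ.red Ft ⟨σ • x, smul_mem_Rw Φ σ b bD hO hρ hb x hx⟩ = b • Φ.red Ft ⟨x, hx⟩ := by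
  have hx' := hx
  obtain ⟨a, c, h⟩ := hx'
  have h' := isFrac_smul Φ σ b bD hO hρ hb h
  rw [Φ.red_eq ⟨σ • x, smul_mem_Rw Φ σ b bD hO hρ hb x hx⟩ h', Φ.red_eq ⟨x, hx⟩ h,
    hρ (a : F) a.2, hρ (c : F) c.2, ← hb, ← hb, SemilinearAut.smul_def, SemilinearAut.smul_def,
    SemilinearAut.smul_def, map_div₀]

/-- the converse stability, from the stability of the order under `σ⁻¹` -/
theorem mem_Rw_of_smul_mem (hO' : ∀ x : F, x ∈ Φ.O → σ⁻¹ • x ∈ Φ.O)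
    (hρ : ∀ (x : F) (hx : x ∈ Φ.O), Φ.rho ⟨σ • x, hO x hx⟩ = bD (Φ.rho ⟨x, hx⟩))
    (x : F) (hx : σ • x ∈ Φ.Rw) : x ∈ Φ.Rw := by
  obtain ⟨a, c, h⟩ := hx
  refine ⟨⟨σ⁻¹ • (a : F), hO' _ a.2⟩, ⟨σ⁻¹ • (c : F), hO' _ c.2⟩, ?_, ?_⟩
  · intro h0
    have h1 := hρ (σ⁻¹ • (c : F)) (hO' _ c.2)
    rw [h0, map_zero] at h1
    have h2 : (⟨σ • σ⁻¹ • (c : F), hO _ (hO' _ c.2)⟩ : Φ.O) = c :=
      Subtype.ext (smul_inv_smul σ (c : F))
    rw [h2] at h1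
    exact h.1 h1
  · show x * σ⁻¹ • (c : F) = σ⁻¹ • (a : F)
    rw [← h.2, smul_mul', inv_smul_smul]

/-- **an automorphism of a fraction frame is an automorphism of its reduction datum.** -/
def redAutOfFrame (hO' : ∀ x : F, x ∈ Φ.O → σ⁻¹ • x ∈ Φ.O)
    (hρ : ∀ (x : F) (hx : x ∈ Φ.O), Φ.rho ⟨σ • x, hO x hx⟩ = bD (Φ.rho ⟨x, hx⟩))
    (hb : ∀ d : D, b • algebraMap D Ft d = algebraMap D Ft (bD d)) :
    RedAut (Φ.redData Ft) where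
  σ := σ
  b := b
  mem_Rw := smul_mem_Rw Φ σ b bD hO hρ hb
  mem_Rw' := mem_Rw_of_smul_mem Φ σ bD hO hO' hρ
  red_smul := red_smul Φ σ b bD hO hρ hb

@[simp] theorem redAutOfFrame_σ (hO' : ∀ x : F, x ∈ Φ.O → σ⁻¹ • x ∈ Φ.O)
    (hρ : ∀ (x : F) (hx : x ∈ Φ.O), Φ.rho ⟨σ • x, hO x hx⟩ = bD (Φ.rho ⟨x, hx⟩))
    (hb : ∀ d : D, b • algebraMap D Ft d = algebraMap D Ft (bD d)) :
    (redAutOfFrame Φ σ b bD hO hO' hρ hb).σ = σ := rfl

@[simp] theorem redAutOfFrame_b (hO' : ∀ x : F, x ∈ Φ.O → σ⁻¹ • x ∈ Φ.O)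
    (hρ : ∀ (x : F) (hx : x ∈ Φ.O), Φ.rho ⟨σ • x, hO x hx⟩ = bD (Φ.rho ⟨x, hx⟩))
    (hb : ∀ d : D, b • algebraMap D Ft d = algebraMap D Ft (bD d)) :
    (redAutOfFrame Φ σ b bD hO hO' hρ hb).b = b := rfl

end Fermat.Agent.GF.EFrame.FracAut
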