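/-
GATE-F / S40, node GF-EGAL part 1 (helper17): the GENERIC Galois action on the coordinate ring and
on the function field of a Weierstrass curve — [E-GAL] of helper75's E-side graph (board 5703),
model-independent core.

RING LEVEL.  `R` a commutative ring, `W : WeierstrassCurve.Affine R`, `τ : R →+* R` with
`W.map τ = W` (all `a_i` fixed).  Then `τ` acts coefficientwise on `R[X][Y]`, fixes the Weierstrass
polynomial, hence acts on the coordinate ring `R[W]`:

* `coordHom W τ hτ`, `coordHom_mk`, `coordHom_comp`, `coordHom_id`, `coordEquiv W τ hτ`;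
* `map_eq_of_comm`, **`map_coordHom`** : for `f : R →+* S`, `τ' : S →+* S` with `τ' ∘ f = f ∘ τ`,
  `CoordinateRing.map W f ∘ coordHom W τ = coordHom (W.map f) τ' ∘ CoordinateRing.map W f`
  (base change / reduction squares).

FIELD LEVEL.  `K` a field, `W : WeierstrassCurve.Affine K`:

* `funEquiv W τ hτ : W.FunctionField ≃+* W.FunctionField`, `funEquiv_algebraMap_coord`,
  `funEquiv_algebraMap` (semilinearity over `τ`), `funEquiv_tX`, `funEquiv_tY`;
* `stab W : Subgroup (K ≃+* K)` and **`galStab W : stab W →* SemilinearAut K W.FunctionField`**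
  with `baseAut (galStab W τ) = τ`;
* for a group `G` acting on `K` through `ρ : G →* (K ≃+* K)` fixing `W`:
  **`galOfAction W ρ hρ : G →* SemilinearAut K W.FunctionField`**.

Mathlib + Prelude `SemilinearAut` only.
-/
import Mathlib
import Fermat.Prelude.Def_AlgebraicCurve_BaseChangeGalois

set_option autoImplicit false

noncomputable section

namespace Fermat.Agent.GF.EFrame.GalE

open Polynomial AlgebraicCurve WeierstrassCurve WeierstrassCurve.Affine
open scoped Polynomial.Bivariate

/-! ### Ring level: the coordinate ring -/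

section Ring

variable {R : Type*} [CommRing R] (W : WeierstrassCurve.Affine R)

/-- the coefficientwise endomorphism of the coordinate ring induced by a ring endomorphism of `R`
fixing the curve -/
def coordHom (τ : R →+* R) (hτ : W.map τ = W) : W.CoordinateRing →+* W.CoordinateRing :=
  AdjoinRoot.lift ((AdjoinRoot.of _).comp <| mapRingHom τ) (AdjoinRoot.root W.polynomial) (by
    rw [← eval₂_map, ← map_polynomial, hτ, AdjoinRoot.eval₂_root])

theorem coordHom_mk (τ : R →+* R) (hτ : W.map τ = W) (x : R[X][Y]) :
    coordHom W τ hτ (CoordinateRing.mk W x) = CoordinateRing.mk W (x.map <| mapRingHom τ) := by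
  rw [coordHom, AdjoinRoot.lift_mk, ← eval₂_map]
  exact AdjoinRoot.aeval_eq <| x.map <| mapRingHom τ

theorem coordHom_comp (τ τ' : R →+* R) (hτ : W.map τ = W) (hτ' : W.map τ' = W)
    (h : W.map (τ.comp τ') = W) :
    coordHom W (τ.comp τ') h = (coordHom W τ hτ).comp (coordHom W τ' hτ') := by
  refine RingHom.ext fun z => ?_
  obtain ⟨x, rfl⟩ := AdjoinRoot.mk_surjective z
  show coordHom W _ h (CoordinateRing.mk W x) =
    coordHom W τ hτ (coordHom W τ' hτ' (CoordinateRing.mk W x))
  rw [coordHom_mk, coordHom_mk, coordHom_mk, Polynomial.map_map, mapRingHom_comp]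

theorem coordHom_id (h : W.map (RingHom.id R) = W) :
    coordHom W (RingHom.id R) h = RingHom.id _ := by
  refine RingHom.ext fun z => ?_
  obtain ⟨x, rfl⟩ := AdjoinRoot.mk_surjective z
  show coordHom W _ h (CoordinateRing.mk W x) = CoordinateRing.mk W x
  rw [coordHom_mk, mapRingHom_id, Polynomial.map_id]

/-- an endomorphism acting trivially on `R` acts trivially on the coordinate ring -/
theorem coordHom_of_eq_id (τ : R →+* R) (hτ : W.map τ = W) (h : ∀ a, τ a = a)
    (z : W.CoordinateRing) : coordHom W τ hτ z = z := by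
  have h1 : τ = RingHom.id R := RingHom.ext h
  subst h1
  exact RingHom.congr_fun (coordHom_id W hτ) z

/-- the coordinate functions are fixed -/
theorem coordHom_mk_CX (τ : R →+* R) (hτ : W.map τ = W) :
    coordHom W τ hτ (CoordinateRing.mk W (C X)) = CoordinateRing.mk W (C X) := by
  rw [coordHom_mk, Polynomial.map_C, coe_mapRingHom, Polynomial.map_X]

theorem coordHom_mk_Y (τ : R →+* R) (hτ : W.map τ = W) :
    coordHom W τ hτ (CoordinateRing.mk W Y) = CoordinateRing.mk W Y := by
  rw [coordHom_mk, Polynomial.map_X]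

/-- constants are moved by `τ` -/
theorem coordHom_mk_CC (τ : R →+* R) (hτ : W.map τ = W) (a : R) :
    coordHom W τ hτ (CoordinateRing.mk W (C (C a))) = CoordinateRing.mk W (C (C (τ a))) := by
  rw [coordHom_mk, Polynomial.map_C, coe_mapRingHom, Polynomial.map_C]

/-- if `τ' ∘ f = f ∘ τ` and `τ` fixes `W`, then `τ'` fixes `W.map f` -/
theorem map_eq_of_comm {S : Type*} [CommRing S] (f : R →+* S) (τ : R →+* R) (τ' : S →+* S)
    (hc : τ'.comp f = f.comp τ) (hτ : W.map τ = W) : (W.map f).map τ' = W.map f := by
  have h1 : (W.map f).map τ' = W.map (τ'.comp f) := rfl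
  have h2 : (W.map τ).map f = W.map (f.comp τ) := rfl
  rw [h1, hc, ← h2, hτ]

/-- **base change square**: `CoordinateRing.map W f` intertwines `coordHom W τ` and
`coordHom (W.map f) τ'` when `τ' ∘ f = f ∘ τ`. -/
theorem map_coordHom {S : Type*} [CommRing S] (f : R →+* S) (τ : R →+* R) (τ' : S →+* S)
    (hc : τ'.comp f = f.comp τ) (hτ : W.map τ = W) (hτ' : (W.map f).map τ' = W.map f)
    (z : W.CoordinateRing) :
    CoordinateRing.map W f (coordHom W τ hτ z) =
      coordHom (W.map f) τ' hτ' (CoordinateRing.map W f z) := by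
  obtain ⟨x, rfl⟩ := AdjoinRoot.mk_surjective z
  show CoordinateRing.map W f (coordHom W τ hτ (CoordinateRing.mk W x)) =
    coordHom (W.map f) τ' hτ' (CoordinateRing.map W f (CoordinateRing.mk W x))
  rw [coordHom_mk, CoordinateRing.map_mk, CoordinateRing.map_mk, coordHom_mk, Polynomial.map_map,
    Polynomial.map_map, mapRingHom_comp, mapRingHom_comp, hc]

theorem map_symm_eq (τ : R ≃+* R) (hτ : W.map (τ : R →+* R) = W) :
    W.map (τ.symm : R →+* R) = W := by
  have h1 : (W.map (τ : R →+* R)).map (τ.symm : R →+* R) =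
      W.map ((τ.symm : R →+* R).comp (τ : R →+* R)) := rfl
  have h2 : (τ.symm : R →+* R).comp (τ : R →+* R) = RingHom.id R := by ext; simp
  have h3 : W.map (RingHom.id R) = W := rfl
  rw [hτ, h2, h3] at h1
  exact h1

/-- the automorphism of the coordinate ring -/
def coordEquiv (τ : R ≃+* R) (hτ : W.map (τ : R →+* R) = W) :
    W.CoordinateRing ≃+* W.CoordinateRing :=
  RingEquiv.ofRingHom (coordHom W τ hτ) (coordHom W τ.symm (map_symm_eq W τ hτ))
    (by
      have hc : (τ : R →+* R).comp (τ.symm : R →+* R) = RingHom.id R := by ext; simp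
      have h : W.map ((τ : R →+* R).comp (τ.symm : R →+* R)) = W := by
        rw [hc]; rfl
      rw [← coordHom_comp W _ _ hτ (map_symm_eq W τ hτ) h]
      have hid : W.map (RingHom.id R) = W := WeierstrassCurve.map_id W
      rw [← coordHom_id W hid]
      congr 1)
    (by
      have hc : (τ.symm : R →+* R).comp (τ : R →+* R) = RingHom.id R := by ext; simp
      have h : W.map ((τ.symm : R →+* R).comp (τ : R →+* R)) = W := by
        rw [hc]; rfl
      rw [← coordHom_comp W _ _ (map_symm_eq W τ hτ) hτ h]
      have hid : W.map (RingHom.id R) = W := WeierstrassCurve.map_id W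
      rw [← coordHom_id W hid]
      congr 1)

theorem coordEquiv_apply (τ : R ≃+* R) (hτ : W.map (τ : R →+* R) = W) (z : W.CoordinateRing) :
    coordEquiv W τ hτ z = coordHom W τ hτ z := rfl

theorem coordEquiv_symm_apply (τ : R ≃+* R) (hτ : W.map (τ : R →+* R) = W)
    (z : W.CoordinateRing) :
    (coordEquiv W τ hτ).symm z = coordHom W τ.symm (map_symm_eq W τ hτ) z := rfl

theorem coordHom_injective (τ : R ≃+* R) (hτ : W.map (τ : R →+* R) = W) :
    Function.Injective (coordHom W τ hτ) := (coordEquiv W τ hτ).injective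

end Ring

/-! ### Field level: the function field -/

section Field

variable {K : Type*} [Field K] (W : WeierstrassCurve.Affine K)

/-- the automorphism of the function field -/
def funEquiv (τ : K ≃+* K) (hτ : W.map (τ : K →+* K) = W) :
    W.FunctionField ≃+* W.FunctionField :=
  IsFractionRing.ringEquivOfRingEquiv (coordEquiv W τ hτ)

theorem funEquiv_algebraMap_coord (τ : K ≃+* K) (hτ : W.map (τ : K →+* K) = W)
    (z : W.CoordinateRing) :
    funEquiv W τ hτ (algebraMap W.CoordinateRing W.FunctionField z) =
      algebraMap W.CoordinateRing W.FunctionField (coordHom W τ hτ z) := by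
  rw [funEquiv, IsFractionRing.ringEquivOfRingEquiv_algebraMap]
  rfl

/-- semilinearity over `τ` -/
theorem funEquiv_algebraMap (τ : K ≃+* K) (hτ : W.map (τ : K →+* K) = W) (a : K) :
    funEquiv W τ hτ (algebraMap K W.FunctionField a) = algebraMap K W.FunctionField (τ a) := by
  have h1 : ∀ b : K, algebraMap K W.FunctionField b =
      algebraMap W.CoordinateRing W.FunctionField (CoordinateRing.mk W (C (C b))) := fun b => rfl
  rw [h1, h1, funEquiv_algebraMap_coord, coordHom_mk_CC]
  rfl

/-- the coordinate function `x` -/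
def tX : W.FunctionField := algebraMap W.CoordinateRing W.FunctionField (CoordinateRing.mk W (C X))

/-- the coordinate function `y` -/
def tY : W.FunctionField := algebraMap W.CoordinateRing W.FunctionField (CoordinateRing.mk W Y)

theorem funEquiv_tX (τ : K ≃+* K) (hτ : W.map (τ : K →+* K) = W) :
    funEquiv W τ hτ (tX W) = tX W := by
  rw [tX, funEquiv_algebraMap_coord, coordHom_mk_CX]

theorem funEquiv_tY (τ : K ≃+* K) (hτ : W.map (τ : K →+* K) = W) :
    funEquiv W τ hτ (tY W) = tY W := by
  rw [tY, funEquiv_algebraMap_coord, coordHom_mk_Y]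

/-- two ring homomorphisms out of the function field agreeing on the coordinate ring agree -/
theorem funField_hom_ext {S : Type*} [Semiring S] {f g : W.FunctionField →+* S}
    (h : ∀ z : W.CoordinateRing, f (algebraMap _ _ z) = g (algebraMap _ _ z)) : f = g :=
  IsLocalization.ringHom_ext (nonZeroDivisors W.CoordinateRing) (RingHom.ext h)

/-- an automorphism acting trivially on `K` acts trivially on the function field -/
theorem funEquiv_of_eq_id (τ : K ≃+* K) (hτ : W.map (τ : K →+* K) = W) (h : ∀ a, τ a = a)
    (x : W.FunctionField) : funEquiv W τ hτ x = x := by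
  have h1 : (funEquiv W τ hτ : W.FunctionField →+* W.FunctionField) = RingHom.id _ := by
    refine funField_hom_ext W fun z => ?_
    show funEquiv W τ hτ (algebraMap _ _ z) = algebraMap _ _ z
    rw [funEquiv_algebraMap_coord, coordHom_of_eq_id W _ hτ h z]
  exact RingHom.congr_fun h1 x

/-- the stabiliser of the curve in `Aut K` -/
def stab : Subgroup (K ≃+* K) where
  carrier := {τ | W.map (τ : K →+* K) = W}
  one_mem' := WeierstrassCurve.map_id W
  mul_mem' := by
    intro τ τ' hτ hτ'
    show W.map ((τ * τ' : K ≃+* K) : K →+* K) = W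
    have h1 : W.map ((τ * τ' : K ≃+* K) : K →+* K) =
        (W.map (τ' : K →+* K)).map (τ : K →+* K) := rfl
    rw [h1, hτ', hτ]
  inv_mem' := by
    intro τ hτ
    exact map_symm_eq W τ hτ

theorem mem_stab {τ : K ≃+* K} : τ ∈ stab W ↔ W.map (τ : K →+* K) = W := Iff.rfl

theorem stab_prop (τ : stab W) : W.map ((τ : K ≃+* K) : K →+* K) = W := τ.2

/-- **The Galois action on the function field of a Weierstrass curve** as a homomorphism into the
semilinear automorphisms. -/
def galStab : stab W →* SemilinearAut K W.FunctionField where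
  toFun τ := ⟨(funEquiv W τ.1 (stab_prop W τ), τ.1), fun a => funEquiv_algebraMap W τ.1 _ a⟩
  map_one' := by
    refine Subtype.ext (Prod.ext (RingEquiv.ext fun x => ?_) rfl)
    have : (funEquiv W (1 : stab W).1 (stab_prop W 1) : W.FunctionField →+* W.FunctionField) =
        RingHom.id _ := by
      refine funField_hom_ext W fun z => ?_
      show funEquiv W _ (stab_prop W 1) (algebraMap _ _ z) = algebraMap _ _ z
      rw [funEquiv_algebraMap_coord]
      congr 1
      exact RingHom.congr_fun (coordHom_id W (stab_prop W 1)) z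
    exact RingHom.congr_fun this x
  map_mul' τ τ' := by
    refine Subtype.ext (Prod.ext (RingEquiv.ext fun x => ?_) rfl)
    have : (funEquiv W (τ * τ').1 (stab_prop W (τ * τ')) : W.FunctionField →+* W.FunctionField) =
        (funEquiv W τ.1 (stab_prop W τ) : W.FunctionField →+* W.FunctionField).comp
          (funEquiv W τ'.1 (stab_prop W τ') : W.FunctionField →+* W.FunctionField) := by
      refine funField_hom_ext W fun z => ?_
      show funEquiv W _ (stab_prop W (τ * τ')) (algebraMap _ _ z) =
        funEquiv W τ.1 (stab_prop W τ) (funEquiv W τ'.1 (stab_prop W τ') (algebraMap _ _ z))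
      rw [funEquiv_algebraMap_coord, funEquiv_algebraMap_coord, funEquiv_algebraMap_coord]
      congr 1
      exact RingHom.congr_fun
        (coordHom_comp W _ _ (stab_prop W τ) (stab_prop W τ') (stab_prop W (τ * τ'))) z
    exact RingHom.congr_fun this x

theorem toRingAut_galStab (τ : stab W) :
    SemilinearAut.toRingAut (galStab W τ) = funEquiv W τ.1 (stab_prop W τ) := rfl

theorem baseAut_galStab (τ : stab W) : SemilinearAut.baseAut (galStab W τ) = τ.1 := rfl

theorem galStab_smul (τ : stab W) (x : W.FunctionField) :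
    galStab W τ • x = funEquiv W τ.1 (stab_prop W τ) x := rfl

theorem galStab_smul_tX (τ : stab W) : galStab W τ • tX W = tX W := funEquiv_tX W τ.1 _

theorem galStab_smul_tY (τ : stab W) : galStab W τ • tY W = tY W := funEquiv_tY W τ.1 _

/-- a group acting on `K` and fixing the curve acts on the function field -/
def galOfAction {G : Type*} [Group G] (ρ : G →* (K ≃+* K))
    (hρ : ∀ g, W.map ((ρ g : K ≃+* K) : K →+* K) = W) : G →* SemilinearAut K W.FunctionField :=
  (galStab W).comp (ρ.codRestrict (stab W) hρ)

theorem baseAut_galOfAction {G : Type*} [Group G] (ρ : G →* (K ≃+* K))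
    (hρ : ∀ g, W.map ((ρ g : K ≃+* K) : K →+* K) = W) (g : G) :
    SemilinearAut.baseAut (galOfAction W ρ hρ g) = ρ g := rfl

theorem galOfAction_smul {G : Type*} [Group G] (ρ : G →* (K ≃+* K))
    (hρ : ∀ g, W.map ((ρ g : K ≃+* K) : K →+* K) = W) (g : G) (x : W.FunctionField) :
    galOfAction W ρ hρ g • x = funEquiv W (ρ g) (hρ g) x := rfl

theorem galOfAction_smul_coord {G : Type*} [Group G] (ρ : G →* (K ≃+* K))
    (hρ : ∀ g, W.map ((ρ g : K ≃+* K) : K →+* K) = W) (g : G) (z : W.CoordinateRing) :
    galOfAction W ρ hρ g • algebraMap W.CoordinateRing W.FunctionField z =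
      algebraMap W.CoordinateRing W.FunctionField (coordHom W (ρ g) (hρ g) z) :=
  funEquiv_algebraMap_coord W (ρ g) (hρ g) z

theorem galOfAction_smul_tX {G : Type*} [Group G] (ρ : G →* (K ≃+* K))
    (hρ : ∀ g, W.map ((ρ g : K ≃+* K) : K →+* K) = W) (g : G) :
    galOfAction W ρ hρ g • tX W = tX W := funEquiv_tX W _ _

theorem galOfAction_smul_tY {G : Type*} [Group G] (ρ : G →* (K ≃+* K))
    (hρ : ∀ g, W.map ((ρ g : K ≃+* K) : K →+* K) = W) (g : G) :
    galOfAction W ρ hρ g • tY W = tY W := funEquiv_tY W _ _

end Field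

end Fermat.Agent.GF.EFrame.GalE
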