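/-
GATE-F / E-side, node GF-EFRAME, file 1 (helper75): THE MODEL.

`A` a valuation subring of a field `K` (in the gate `K = ℚ̄`), `WA : WeierstrassCurve.Affine A` a
Weierstrass equation with coefficients in `A`.  Put

* `EK A WA := WA.map A.subtype`   (the curve over `K`),   `FE A WA := (EK A WA).FunctionField`,
* `Ek A WA := WA.map (residue A)` (the curve over `k = ResidueField A`),
  `FtE A WA := (Ek A WA).FunctionField`,
* `tE, yE : FE`, `ttE, ytE : FtE` the classes of `X`, `Y`.

The order `O := ι(WA.CoordinateRing) ⊆ FE` (`ι = iotaF`, injective), with the reduction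
`ρ := CoordinateRing.map WA (residue A)`, has the CONTENT property (coefficient of maximal valuation
in the basis `{1, Y}` over `A[X]`), so helper82's fraction construction (`GJ27/Red/FracRed`) gives

  `redDataE A WA : RedData K (FE A WA) (ResidueField A) (FtE A WA)`,   `(redDataE A WA).A = A` (rfl),
  `red (ι z) = ρ z` for `z ∈ WA.CoordinateRing`,  in particular `red tE = ttE`, `red yE = ytE`.

No hypothesis on the discriminant is needed here (the coordinate ring of ANY Weierstrass equation
over a domain is a domain).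
-/
import Mathlib
import Fermat.Agent.GJ27.Red.FracRed

set_option autoImplicit false

noncomputable section

open Polynomial WeierstrassCurve
open scoped Polynomial.Bivariate

namespace Fermat.Agent.GF.EFrame

open Fermat.Agent.GJ.J1 Fermat.Agent.GJ27.Red

/-! ### Content of a pair of polynomials over a valued field -/

section Content

variable {K : Type*} [Field K] (A : ValuationSubring K)

/-- a polynomial with coefficients in `A`, as a polynomial over `A`. -/
def liftPoly (f : K[X]) (hf : ∀ i, f.coeff i ∈ A) : A[X] :=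
  ∑ i ∈ f.support, monomial i (⟨f.coeff i, hf i⟩ : A)

theorem coeff_liftPoly (f : K[X]) (hf : ∀ i, f.coeff i ∈ A) (n : ℕ) :
    (liftPoly A f hf).coeff n = ⟨f.coeff n, hf n⟩ := by
  classical
  rw [liftPoly, finsetSum_coeff]
  simp only [coeff_monomial]
  rw [Finset.sum_ite_eq' f.support n]
  split_ifs with h
  · rfl
  · apply Subtype.ext
    rw [mem_support_iff, not_not] at h
    simp [h]

theorem map_liftPoly (f : K[X]) (hf : ∀ i, f.coeff i ∈ A) :
    (liftPoly A f hf).map A.subtype = f := by
  ext n
  rw [coeff_map, coeff_liftPoly]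
  rfl

/-- **content**: a nonzero pair of polynomials is a constant times an `A`-integral pair with nonzero
reduction. -/
theorem exists_content_pair (p q : K[X]) (h : p ≠ 0 ∨ q ≠ 0) :
    ∃ (c : K) (p' q' : A[X]), c ≠ 0 ∧ p = C c * p'.map A.subtype ∧ q = C c * q'.map A.subtype ∧
      (p'.map (IsLocalRing.residue A) ≠ 0 ∨ q'.map (IsLocalRing.residue A) ≠ 0) := by
  classical
  set S : Finset K := p.support.image p.coeff ∪ q.support.image q.coeff with hS
  have hne : S.Nonempty := by
    rcases h with h | h
    · obtain ⟨i, hi⟩ := (support_nonempty.2 h)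
      exact ⟨p.coeff i, Finset.mem_union_left _ (Finset.mem_image_of_mem _ hi)⟩
    · obtain ⟨i, hi⟩ := (support_nonempty.2 h)
      exact ⟨q.coeff i, Finset.mem_union_right _ (Finset.mem_image_of_mem _ hi)⟩
  obtain ⟨c, hcS, hmax⟩ := Finset.exists_max_image S A.valuation hne
  have hc0 : c ≠ 0 := by
    rcases Finset.mem_union.1 hcS with hc | hc
    · obtain ⟨i, hi, rfl⟩ := Finset.mem_image.1 hc
      exact mem_support_iff.1 hi
    · obtain ⟨i, hi, rfl⟩ := Finset.mem_image.1 hc
      exact mem_support_iff.1 hi
  have hvc : A.valuation c ≠ 0 := (Valuation.ne_zero_iff _).2 hc0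
  have hmem : ∀ a : K, (a = 0 ∨ a ∈ S) → c⁻¹ * a ∈ A := by
    intro a ha
    rw [← A.valuation_le_one_iff, map_mul, map_inv₀]
    rcases ha with rfl | ha
    · simp
    · rw [inv_mul_le_iff₀ (zero_lt_iff.2 hvc), mul_one]
      exact hmax a ha
  have hp : ∀ i, (C c⁻¹ * p).coeff i ∈ A := by
    intro i
    rw [coeff_C_mul]
    apply hmem
    by_cases hi : i ∈ p.support
    · exact Or.inr (Finset.mem_union_left _ (Finset.mem_image_of_mem _ hi))
    · exact Or.inl (notMem_support_iff.1 hi)
  have hq : ∀ i, (C c⁻¹ * q).coeff i ∈ A := by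
    intro i
    rw [coeff_C_mul]
    apply hmem
    by_cases hi : i ∈ q.support
    · exact Or.inr (Finset.mem_union_right _ (Finset.mem_image_of_mem _ hi))
    · exact Or.inl (notMem_support_iff.1 hi)
  have hcc : C c * C c⁻¹ = (1 : K[X]) := by
    rw [← C_mul, mul_inv_cancel₀ hc0, C_1]
  refine ⟨c, liftPoly A _ hp, liftPoly A _ hq, hc0, ?_, ?_, ?_⟩
  · rw [map_liftPoly, ← mul_assoc, hcc, one_mul]
  · rw [map_liftPoly, ← mul_assoc, hcc, one_mul]
  · -- the coefficient `c` becomes `1`
    have hone : ∀ (f : K[X]) (hf : ∀ i, (C c⁻¹ * f).coeff i ∈ A) (i : ℕ), f.coeff i = c →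
        (liftPoly A _ hf).map (IsLocalRing.residue A) ≠ 0 := by
      intro f hf i hi h0
      have h1 := congrArg (fun g : (IsLocalRing.ResidueField A)[X] => g.coeff i) h0
      simp only [coeff_map, coeff_zero, coeff_liftPoly] at h1
      have h2 : (⟨(C c⁻¹ * f).coeff i, hf i⟩ : A) = 1 := by
        apply Subtype.ext
        show (C c⁻¹ * f).coeff i = 1
        rw [coeff_C_mul, hi, inv_mul_cancel₀ hc0]
      rw [h2, map_one] at h1
      exact one_ne_zero h1
    rcases Finset.mem_union.1 hcS with hc | hc
    · obtain ⟨i, -, hi⟩ := Finset.mem_image.1 hc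
      exact Or.inl (hone p hp i hi)
    · obtain ⟨i, -, hi⟩ := Finset.mem_image.1 hc
      exact Or.inr (hone q hq i hi)

end Content

/-! ### The model -/

section Model

variable {K : Type} [Field K] (A : ValuationSubring K) (WA : WeierstrassCurve.Affine A)

/-- the residue field of `A`. -/
abbrev kA : Type := IsLocalRing.ResidueField A

/-- the curve over `K`. -/
abbrev EK : WeierstrassCurve.Affine K := WA.map A.subtype

/-- the curve over the residue field. -/
abbrev Ek : WeierstrassCurve.Affine (kA A) := WA.map (IsLocalRing.residue A)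

/-- the function field of the generic fibre. -/
abbrev FE : Type := (EK A WA).FunctionField

/-- the function field of the special fibre. -/
abbrev FtE : Type := (Ek A WA).FunctionField

/-- the coordinate function `X` on the generic fibre. -/
def tE : FE A WA :=
  algebraMap (EK A WA).CoordinateRing (FE A WA) (Affine.CoordinateRing.mk (EK A WA) (C X))

/-- the coordinate function `Y` on the generic fibre. -/
def yE : FE A WA :=
  algebraMap (EK A WA).CoordinateRing (FE A WA) (Affine.CoordinateRing.mk (EK A WA) Y)

/-- the coordinate function `X` on the special fibre. -/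
def ttE : FtE A WA :=
  algebraMap (Ek A WA).CoordinateRing (FtE A WA) (Affine.CoordinateRing.mk (Ek A WA) (C X))

/-- the coordinate function `Y` on the special fibre. -/
def ytE : FtE A WA :=
  algebraMap (Ek A WA).CoordinateRing (FtE A WA) (Affine.CoordinateRing.mk (Ek A WA) Y)

/-- the integral coordinate ring inside the coordinate ring over `K`. -/
def iotaC : WA.CoordinateRing →+* (EK A WA).CoordinateRing :=
  Affine.CoordinateRing.map WA A.subtype

theorem iotaC_injective : Function.Injective (iotaC A WA) :=
  Affine.CoordinateRing.map_injective (W' := WA) Subtype.val_injective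

/-- the integral coordinate ring inside the function field. -/
def iotaF : WA.CoordinateRing →+* FE A WA :=
  (algebraMap (EK A WA).CoordinateRing (FE A WA)).comp (iotaC A WA)

theorem iotaF_injective : Function.Injective (iotaF A WA) := fun _ _ h =>
  iotaC_injective A WA (IsFractionRing.injective (EK A WA).CoordinateRing (FE A WA) h)

/-- the reduction of the integral coordinate ring. -/
def rhoA : WA.CoordinateRing →+* (Ek A WA).CoordinateRing :=
  Affine.CoordinateRing.map WA (IsLocalRing.residue A)

theorem rhoA_surjective : Function.Surjective (rhoA A WA) := by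
  intro z
  obtain ⟨p, q, rfl⟩ := Affine.CoordinateRing.exists_smul_basis_eq z
  obtain ⟨p', rfl⟩ := Polynomial.map_surjective _ IsLocalRing.residue_surjective p
  obtain ⟨q', rfl⟩ := Polynomial.map_surjective _ IsLocalRing.residue_surjective q
  refine ⟨p' • 1 + q' • Affine.CoordinateRing.mk WA Y, ?_⟩
  rw [rhoA, map_add, Affine.CoordinateRing.map_smul, Affine.CoordinateRing.map_smul, map_one,
    Affine.CoordinateRing.map_mk, Polynomial.map_X]

theorem iotaC_smul_basis (p q : A[X]) :
    iotaC A WA (p • 1 + q • Affine.CoordinateRing.mk WA Y) =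
      p.map A.subtype • 1 + q.map A.subtype • Affine.CoordinateRing.mk (EK A WA) Y := by
  rw [iotaC, map_add, Affine.CoordinateRing.map_smul, Affine.CoordinateRing.map_smul, map_one,
    Affine.CoordinateRing.map_mk, Polynomial.map_X]

theorem rhoA_smul_basis (p q : A[X]) :
    rhoA A WA (p • 1 + q • Affine.CoordinateRing.mk WA Y) =
      p.map (IsLocalRing.residue A) • 1 +
        q.map (IsLocalRing.residue A) • Affine.CoordinateRing.mk (Ek A WA) Y := by
  rw [rhoA, map_add, Affine.CoordinateRing.map_smul, Affine.CoordinateRing.map_smul, map_one,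
    Affine.CoordinateRing.map_mk, Polynomial.map_X]

/-- **content in the coordinate ring**: a nonzero element is a constant times the image of an
integral element with nonzero reduction. -/
theorem exists_content_coord (z : (EK A WA).CoordinateRing) (hz : z ≠ 0) :
    ∃ (c : K) (z' : WA.CoordinateRing), c ≠ 0 ∧ rhoA A WA z' ≠ 0 ∧
      z = algebraMap K (EK A WA).CoordinateRing c * iotaC A WA z' := by
  obtain ⟨p, q, rfl⟩ := Affine.CoordinateRing.exists_smul_basis_eq z
  have hpq : p ≠ 0 ∨ q ≠ 0 := by
    by_contra h
    push Not at h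
    apply hz
    rw [h.1, h.2, zero_smul, zero_smul, add_zero]
  obtain ⟨c, p', q', hc, hp, hq, hred⟩ := exists_content_pair A p q hpq
  refine ⟨c, p' • 1 + q' • Affine.CoordinateRing.mk WA Y, hc, ?_, ?_⟩
  · rw [rhoA_smul_basis]
    intro h0
    obtain ⟨h1, h2⟩ := Affine.CoordinateRing.smul_basis_eq_zero h0
    rcases hred with h | h
    · exact h h1
    · exact h h2
  · rw [iotaC_smul_basis, hp, hq, mul_add]
    have hcs : ∀ (f : K[X]) (w : (EK A WA).CoordinateRing),
        (C c * f) • w = algebraMap K (EK A WA).CoordinateRing c * (f • w) := by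
      intro f w
      rw [mul_smul, Algebra.algebraMap_eq_smul_one, smul_mul_assoc, one_mul]
      rw [← Polynomial.algebraMap_eq, algebraMap_smul]
    rw [hcs, hcs]

/-- the order as a subring of the function field. -/
def orderE : Subring (FE A WA) := (iotaF A WA).range

/-- the integral coordinate ring is the order. -/
def orderEquiv : WA.CoordinateRing ≃+* orderE A WA :=
  RingEquiv.ofBijective (iotaF A WA).rangeRestrict
    ⟨fun _ _ h => iotaF_injective A WA (congrArg Subtype.val h),
      (iotaF A WA).rangeRestrict_surjective⟩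

@[simp] theorem coe_orderEquiv (z : WA.CoordinateRing) :
    ((orderEquiv A WA z : orderE A WA) : FE A WA) = iotaF A WA z := rfl

/-- the reduction of the order. -/
def rhoO : orderE A WA →+* (Ek A WA).CoordinateRing :=
  (rhoA A WA).comp (orderEquiv A WA).symm.toRingHom

theorem rhoO_orderEquiv (z : WA.CoordinateRing) :
    rhoO A WA (orderEquiv A WA z) = rhoA A WA z := by
  show rhoA A WA ((orderEquiv A WA).symm (orderEquiv A WA z)) = _
  rw [RingEquiv.symm_apply_apply]

theorem iotaF_algebraMap (a : A) :
    iotaF A WA (algebraMap A WA.CoordinateRing a) = algebraMap K (FE A WA) (a : K) := by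
  have h1 : algebraMap A WA.CoordinateRing a = Affine.CoordinateRing.mk WA (C (C a)) := rfl
  have h2 : algebraMap K (EK A WA).CoordinateRing (a : K) =
      Affine.CoordinateRing.mk (EK A WA) (C (C (a : K))) := rfl
  rw [iotaF, RingHom.comp_apply, iotaC, h1, Affine.CoordinateRing.map_mk, Polynomial.map_C,
    Polynomial.coe_mapRingHom, Polynomial.map_C,
    IsScalarTower.algebraMap_apply K (EK A WA).CoordinateRing (FE A WA), h2]
  rfl

theorem rhoA_algebraMap (a : A) :
    rhoA A WA (algebraMap A WA.CoordinateRing a) =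
      algebraMap (kA A) (Ek A WA).CoordinateRing (IsLocalRing.residue A a) := by
  have h1 : algebraMap A WA.CoordinateRing a = Affine.CoordinateRing.mk WA (C (C a)) := rfl
  have h2 : algebraMap (kA A) (Ek A WA).CoordinateRing (IsLocalRing.residue A a) =
      Affine.CoordinateRing.mk (Ek A WA) (C (C (IsLocalRing.residue A a))) := rfl
  rw [rhoA, h1, Affine.CoordinateRing.map_mk, Polynomial.map_C,
    Polynomial.coe_mapRingHom, Polynomial.map_C, h2]

/-- **content in the function field.** -/
theorem exists_content (x : FE A WA) (hx : x ≠ 0) :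
    ∃ (c : K) (a b : orderE A WA), c ≠ 0 ∧ rhoO A WA a ≠ 0 ∧ rhoO A WA b ≠ 0 ∧
      x * (b : FE A WA) = algebraMap K (FE A WA) c * (a : FE A WA) := by
  obtain ⟨n, d, hd, rfl⟩ := IsFractionRing.div_surjective (A := (EK A WA).CoordinateRing) x
  have hd0 : d ≠ 0 := nonZeroDivisors.ne_zero hd
  have hdF : algebraMap (EK A WA).CoordinateRing (FE A WA) d ≠ 0 := by
    rw [ne_eq, map_eq_zero_iff _ (IsFractionRing.injective (EK A WA).CoordinateRing (FE A WA))]
    exact hd0
  have hn0 : n ≠ 0 := by
    rintro rfl
    rw [map_zero, zero_div] at hx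
    exact hx rfl
  obtain ⟨cn, n', hcn, hn', hn⟩ := exists_content_coord A WA n hn0
  obtain ⟨cd, d', hcd, hd', hdd⟩ := exists_content_coord A WA d hd0
  refine ⟨cn / cd, orderEquiv A WA n', orderEquiv A WA d', div_ne_zero hcn hcd, ?_, ?_, ?_⟩
  · rw [rhoO_orderEquiv]; exact hn'
  · rw [rhoO_orderEquiv]; exact hd'
  · rw [coe_orderEquiv, coe_orderEquiv]
    have hcdF : algebraMap K (FE A WA) cd ≠ 0 := by
      rw [ne_eq, map_eq_zero]; exact hcd
    have e1 : algebraMap (EK A WA).CoordinateRing (FE A WA) n =
        algebraMap K (FE A WA) cn * iotaF A WA n' := by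
      rw [hn, map_mul, ← IsScalarTower.algebraMap_apply]
      rfl
    have e2 : algebraMap (EK A WA).CoordinateRing (FE A WA) d =
        algebraMap K (FE A WA) cd * iotaF A WA d' := by
      rw [hdd, map_mul, ← IsScalarTower.algebraMap_apply]
      rfl
    have hd'F : iotaF A WA d' ≠ 0 := by
      intro h0
      rw [e2, h0, mul_zero] at hdF
      exact hdF rfl
    rw [e1, e2, map_div₀]
    field_simp

/-- **the fraction frame of the Weierstrass model.** -/
def fracFrameE : FracFrame K (FE A WA) (kA A) (Ek A WA).CoordinateRing where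
  A := A
  res := IsLocalRing.residue A
  res_surjective := IsLocalRing.residue_surjective
  O := orderE A WA
  algebraMap_mem a := ⟨algebraMap A WA.CoordinateRing a, iotaF_algebraMap A WA a⟩
  rho := rhoO A WA
  rho_surjective := by
    intro z
    obtain ⟨w, rfl⟩ := rhoA_surjective A WA z
    exact ⟨orderEquiv A WA w, rhoO_orderEquiv A WA w⟩
  rho_algebraMap a := by
    have h : (⟨algebraMap K (FE A WA) (a : K),
        ⟨algebraMap A WA.CoordinateRing a, iotaF_algebraMap A WA a⟩⟩ : orderE A WA) =
        orderEquiv A WA (algebraMap A WA.CoordinateRing a) :=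
      Subtype.ext (iotaF_algebraMap A WA a).symm
    rw [h, rhoO_orderEquiv, rhoA_algebraMap]
  content := exists_content A WA

/-- **the reduction datum of the Weierstrass model.** -/
def redDataE : RedData K (FE A WA) (kA A) (FtE A WA) := (fracFrameE A WA).redData (FtE A WA)

@[simp] theorem redDataE_A : (redDataE A WA).A = A := rfl

theorem iotaF_mem_Rw (z : WA.CoordinateRing) : iotaF A WA z ∈ (redDataE A WA).Rw :=
  (fracFrameE A WA).mem_Rw_of_mem (orderEquiv A WA z).2

/-- the reduction of an integral coordinate function. -/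
theorem red_iotaF (z : WA.CoordinateRing) :
    (redDataE A WA).red ⟨iotaF A WA z, iotaF_mem_Rw A WA z⟩ =
      algebraMap (Ek A WA).CoordinateRing (FtE A WA) (rhoA A WA z) := by
  have h := (fracFrameE A WA).redData_red_of_mem (Ft := FtE A WA) (orderEquiv A WA z)
  rw [← rhoO_orderEquiv A WA z]
  exact h

theorem iotaF_X : iotaF A WA (Affine.CoordinateRing.mk WA (C X)) = tE A WA := by
  rw [iotaF, RingHom.comp_apply, iotaC, Affine.CoordinateRing.map_mk, Polynomial.map_C,
    Polynomial.coe_mapRingHom, Polynomial.map_X]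
  rfl

theorem iotaF_Y : iotaF A WA (Affine.CoordinateRing.mk WA Y) = yE A WA := by
  rw [iotaF, RingHom.comp_apply, iotaC, Affine.CoordinateRing.map_mk, Polynomial.map_X]
  rfl

theorem rhoA_X : rhoA A WA (Affine.CoordinateRing.mk WA (C X)) =
    Affine.CoordinateRing.mk (Ek A WA) (C X) := by
  rw [rhoA, Affine.CoordinateRing.map_mk, Polynomial.map_C,
    Polynomial.coe_mapRingHom, Polynomial.map_X]

theorem rhoA_Y : rhoA A WA (Affine.CoordinateRing.mk WA Y) =
    Affine.CoordinateRing.mk (Ek A WA) Y := by
  rw [rhoA, Affine.CoordinateRing.map_mk, Polynomial.map_X]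

theorem tE_mem_Rw : tE A WA ∈ (redDataE A WA).Rw := by
  rw [← iotaF_X]; exact iotaF_mem_Rw A WA _

theorem yE_mem_Rw : yE A WA ∈ (redDataE A WA).Rw := by
  rw [← iotaF_Y]; exact iotaF_mem_Rw A WA _

theorem red_tE : (redDataE A WA).red ⟨tE A WA, tE_mem_Rw A WA⟩ = ttE A WA := by
  have h := red_iotaF A WA (Affine.CoordinateRing.mk WA (C X))
  rw [rhoA_X] at h
  unfold ttE
  rw [← h]
  congr 1
  exact Subtype.ext (iotaF_X A WA).symm

theorem red_yE : (redDataE A WA).red ⟨yE A WA, yE_mem_Rw A WA⟩ = ytE A WA := by
  have h := red_iotaF A WA (Affine.CoordinateRing.mk WA Y)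
  rw [rhoA_Y] at h
  unfold ytE
  rw [← h]
  congr 1
  exact Subtype.ext (iotaF_Y A WA).symm

end Model

end Fermat.Agent.GF.EFrame
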