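/-
GATE-F / S40, node GF-EGAL part 3 (helper17): the Galois action on helper75's WEIERSTRASS MODEL
(`GF/EFrame/Model.lean`) and the decomposition group as automorphisms of its reduction datum —
[E-GAL] of the E-side graph (board 5703).  Twin of `GH/Gal/DecompAct.lean` (Laurent model).

`L / ℚ` a field, `A` a valuation subring of `L`, `WA : WeierstrassCurve.Affine A`,
`EK = WA.map A.subtype`, `Ek = WA.map (residue A)`, `FE`, `FtE`, `redDataE A WA`.

* `HRat A WA` : every `σ ∈ Aut(L/ℚ)` fixes the coefficients of `EK`; `hrat_of_int` : true when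
  `WA = W.map (Int.castRingHom A)` for a `W : WeierstrassCurve ℤ`;
* **`galE A WA hrat : (L ≃ₐ[ℚ] L) →* SemilinearAut L (FE A WA)`**, `baseAut_galE`,
  `galE_smul_tE`, `galE_smul_yE` (the coordinate functions are fixed), `galE_smul_iotaF`;
* for `σ` in the decomposition group of `A`: `map_resA`, `map_resAut` (the restriction to `A` and the
  induced automorphism of the residue field fix `WA`, `Ek`), `bE A WA hrat σ hσ` the induced
  semilinear automorphism of the special fibre, and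
  **`decompRedAutE A WA hrat σ hσ : RedAut (redDataE A WA)`** with `.σ = galE σ`, `.b = bE σ`;
* inertia acts trivially on the special fibre: `bE_of_inertia`, `decompRedAutE_b_of_inertia`;
* `rOf_smul_of_decomp`, **`rOf_smul_of_inertia`** : inertia preserves every residue disc.
-/
import Mathlib
import Fermat.Agent.GF.EFrame.Model
import Fermat.Agent.GF.EFrame.GalE
import Fermat.Agent.GF.EFrame.FracAut
import Fermat.Agent.GH.Gal.DecompAct

set_option autoImplicit false
set_option linter.unusedSectionVars false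

noncomputable section

open Polynomial AlgebraicCurve WeierstrassCurve IsLocalRing
open scoped Polynomial.Bivariate

namespace Fermat.Agent.GF.EFrame.GalERed

open Fermat.Agent.GJ.J1 Fermat.Agent.GJ27.Red Fermat.Agent.GH.Gal Fermat.Agent.GJ.Kum
  Fermat.Agent.GF.EFrame Fermat.Agent.GF.EFrame.GalE Fermat.Agent.GF.EFrame.FracAut
  Fermat.Agent.GJ.S37LSpace Fermat.Agent.RRh45

variable {L : Type} [Field L] [Algebra ℚ L] (A : ValuationSubring L)
  (WA : WeierstrassCurve.Affine A)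

/-- `Aut(L/ℚ) → Aut(L)` -/
def toRingEquivHom : (L ≃ₐ[ℚ] L) →* (L ≃+* L) where
  toFun σ := σ.toRingEquiv
  map_one' := rfl
  map_mul' _ _ := rfl

@[simp] theorem toRingEquivHom_apply (σ : L ≃ₐ[ℚ] L) (a : L) :
    (toRingEquivHom σ : L ≃+* L) a = σ a := rfl

/-- the coefficients of the generic fibre are fixed by `Aut(L/ℚ)` -/
def HRat : Prop :=
  ∀ σ : L ≃ₐ[ℚ] L, (EK A WA).map ((toRingEquivHom σ : L ≃+* L) : L →+* L) = EK A WA

/-- coefficientwise form of `HRat` -/
theorem hrat_of_coeff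
    (h : ∀ σ : L ≃ₐ[ℚ] L, σ (WA.a₁ : L) = WA.a₁ ∧ σ (WA.a₂ : L) = WA.a₂ ∧
      σ (WA.a₃ : L) = WA.a₃ ∧ σ (WA.a₄ : L) = WA.a₄ ∧ σ (WA.a₆ : L) = WA.a₆) : HRat A WA := by
  intro σ
  obtain ⟨h1, h2, h3, h4, h6⟩ := h σ
  exact WeierstrassCurve.ext h1 h2 h3 h4 h6

/-- a curve defined over `ℤ` has rational coefficients -/
theorem hrat_of_int (W : WeierstrassCurve ℤ) (h : WA = W.map (Int.castRingHom A)) :
    HRat A WA := by
  subst h
  refine hrat_of_coeff A _ fun σ => ?_
  refine ⟨?_, ?_, ?_, ?_, ?_⟩ <;> simp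

variable {A WA}

/-- **the Galois action on the function field of the Weierstrass model.** -/
def galE (hrat : HRat A WA) : (L ≃ₐ[ℚ] L) →* SemilinearAut L (FE A WA) :=
  galOfAction (EK A WA) toRingEquivHom hrat

@[simp] theorem baseAut_galE (hrat : HRat A WA) (σ : L ≃ₐ[ℚ] L) :
    SemilinearAut.baseAut (galE hrat σ) = σ.toRingEquiv := rfl

theorem galE_smul_algebraMap (hrat : HRat A WA) (σ : L ≃ₐ[ℚ] L) (a : L) :
    galE hrat σ • algebraMap L (FE A WA) a = algebraMap L (FE A WA) (σ a) :=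
  SemilinearAut.smul_algebraMap (galE hrat σ) a

theorem galE_smul_tE (hrat : HRat A WA) (σ : L ≃ₐ[ℚ] L) : galE hrat σ • tE A WA = tE A WA :=
  galOfAction_smul_tX (EK A WA) toRingEquivHom hrat σ

theorem galE_smul_yE (hrat : HRat A WA) (σ : L ≃ₐ[ℚ] L) : galE hrat σ • yE A WA = yE A WA :=
  galOfAction_smul_tY (EK A WA) toRingEquivHom hrat σ

theorem galE_smul_coord (hrat : HRat A WA) (σ : L ≃ₐ[ℚ] L) (z : (EK A WA).CoordinateRing) :
    galE hrat σ • algebraMap (EK A WA).CoordinateRing (FE A WA) z =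
      algebraMap (EK A WA).CoordinateRing (FE A WA)
        (coordHom (EK A WA) ((toRingEquivHom σ : L ≃+* L) : L →+* L) (hrat σ) z) :=
  galOfAction_smul_coord (EK A WA) toRingEquivHom hrat σ z

/-! ### The decomposition group -/

theorem subtype_comp_resA (σ : L ≃ₐ[ℚ] L) (hσ : σ ∈ A.decompositionSubgroup ℚ) :
    (((toRingEquivHom σ : L ≃+* L) : L →+* L)).comp A.subtype = A.subtype.comp (resA A σ hσ) :=
  RingHom.ext fun _ => rfl

/-- the restriction of `σ ∈ D_A` to `A` fixes the integral model -/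
theorem map_resA (hrat : HRat A WA) (σ : L ≃ₐ[ℚ] L) (hσ : σ ∈ A.decompositionSubgroup ℚ) :
    WA.map (resA A σ hσ) = WA := by
  have hinj : Function.Injective (A.subtype : A →+* L) := Subtype.val_injective
  apply WeierstrassCurve.map_injective hinj
  have h1 : (WA.map (resA A σ hσ)).map A.subtype = WA.map (A.subtype.comp (resA A σ hσ)) := rfl
  have h2 : (EK A WA).map ((toRingEquivHom σ : L ≃+* L) : L →+* L) =
      WA.map ((((toRingEquivHom σ : L ≃+* L) : L →+* L)).comp A.subtype) := rfl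
  show (WA.map (resA A σ hσ)).map A.subtype = WA.map A.subtype
  rw [h1, ← subtype_comp_resA σ hσ, ← h2, hrat σ]

theorem resAut_comp_residue (σ : L ≃ₐ[ℚ] L) (hσ : σ ∈ A.decompositionSubgroup ℚ) :
    ((resAut A σ hσ : ResidueField A ≃+* ResidueField A) : ResidueField A →+* ResidueField A).comp
      (residue A) = (residue A).comp (resA A σ hσ) :=
  RingHom.ext fun x => (residue_resA A σ hσ x).symm

/-- the induced automorphism of the residue field fixes the special fibre -/
theorem map_resAut (hrat : HRat A WA) (σ : L ≃ₐ[ℚ] L) (hσ : σ ∈ A.decompositionSubgroup ℚ) :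
    (Ek A WA).map ((resAut A σ hσ : ResidueField A ≃+* ResidueField A) :
      ResidueField A →+* ResidueField A) = Ek A WA :=
  map_eq_of_comm WA (residue A) (resA A σ hσ) _ (resAut_comp_residue σ hσ) (map_resA hrat σ hσ)

/-- `σ ∈ D_A` preserves the order, acting coefficientwise through its restriction to `A` -/
theorem galE_smul_iotaF (hrat : HRat A WA) (σ : L ≃ₐ[ℚ] L) (hσ : σ ∈ A.decompositionSubgroup ℚ)
    (z : WA.CoordinateRing) :
    galE hrat σ • iotaF A WA z =
      iotaF A WA (coordHom WA (resA A σ hσ) (map_resA hrat σ hσ) z) := by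
  have h := galE_smul_coord hrat σ (iotaC A WA z)
  have h2 : iotaC A WA (coordHom WA (resA A σ hσ) (map_resA hrat σ hσ) z) =
      coordHom (EK A WA) ((toRingEquivHom σ : L ≃+* L) : L →+* L) (hrat σ) (iotaC A WA z) :=
    map_coordHom WA A.subtype (resA A σ hσ) _ (subtype_comp_resA σ hσ)
      (map_resA hrat σ hσ) (hrat σ) z
  rw [iotaF, RingHom.comp_apply, RingHom.comp_apply, h, h2]

/-- reduction of the integral coordinate ring commutes with the action -/
theorem rhoA_coordHom (hrat : HRat A WA) (σ : L ≃ₐ[ℚ] L) (hσ : σ ∈ A.decompositionSubgroup ℚ)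
    (z : WA.CoordinateRing) :
    rhoA A WA (coordHom WA (resA A σ hσ) (map_resA hrat σ hσ) z) =
      coordHom (Ek A WA) ((resAut A σ hσ : ResidueField A ≃+* ResidueField A) :
        ResidueField A →+* ResidueField A) (map_resAut hrat σ hσ) (rhoA A WA z) :=
  map_coordHom WA (residue A) (resA A σ hσ) _ (resAut_comp_residue σ hσ)
    (map_resA hrat σ hσ) (map_resAut hrat σ hσ) z

/-- the induced semilinear automorphism of the special fibre -/
def bE (hrat : HRat A WA) (σ : L ≃ₐ[ℚ] L) (hσ : σ ∈ A.decompositionSubgroup ℚ) :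
    SemilinearAut (kA A) (FtE A WA) :=
  ⟨(funEquiv (Ek A WA) (resAut A σ hσ) (map_resAut hrat σ hσ), resAut A σ hσ),
    fun a => funEquiv_algebraMap (Ek A WA) (resAut A σ hσ) (map_resAut hrat σ hσ) a⟩

theorem bE_smul (hrat : HRat A WA) (σ : L ≃ₐ[ℚ] L) (hσ : σ ∈ A.decompositionSubgroup ℚ)
    (x : FtE A WA) :
    bE hrat σ hσ • x = funEquiv (Ek A WA) (resAut A σ hσ) (map_resAut hrat σ hσ) x := rfl

@[simp] theorem baseAut_bE (hrat : HRat A WA) (σ : L ≃ₐ[ℚ] L)
    (hσ : σ ∈ A.decompositionSubgroup ℚ) :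
    SemilinearAut.baseAut (bE hrat σ hσ) = resAut A σ hσ := rfl

theorem bE_smul_coord (hrat : HRat A WA) (σ : L ≃ₐ[ℚ] L) (hσ : σ ∈ A.decompositionSubgroup ℚ)
    (d : (Ek A WA).CoordinateRing) :
    bE hrat σ hσ • algebraMap (Ek A WA).CoordinateRing (FtE A WA) d =
      algebraMap (Ek A WA).CoordinateRing (FtE A WA)
        (coordHom (Ek A WA) ((resAut A σ hσ : ResidueField A ≃+* ResidueField A) :
          ResidueField A →+* ResidueField A) (map_resAut hrat σ hσ) d) :=
  funEquiv_algebraMap_coord (Ek A WA) (resAut A σ hσ) (map_resAut hrat σ hσ) d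

theorem bE_smul_ttE (hrat : HRat A WA) (σ : L ≃ₐ[ℚ] L) (hσ : σ ∈ A.decompositionSubgroup ℚ) :
    bE hrat σ hσ • ttE A WA = ttE A WA :=
  funEquiv_tX (Ek A WA) (resAut A σ hσ) (map_resAut hrat σ hσ)

theorem bE_smul_ytE (hrat : HRat A WA) (σ : L ≃ₐ[ℚ] L) (hσ : σ ∈ A.decompositionSubgroup ℚ) :
    bE hrat σ hσ • ytE A WA = ytE A WA :=
  funEquiv_tY (Ek A WA) (resAut A σ hσ) (map_resAut hrat σ hσ)

theorem smul_mem_orderE (hrat : HRat A WA) (σ : L ≃ₐ[ℚ] L) (hσ : σ ∈ A.decompositionSubgroup ℚ)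
    (x : FE A WA) (hx : x ∈ (fracFrameE A WA).O) : galE hrat σ • x ∈ (fracFrameE A WA).O := by
  obtain ⟨z, rfl⟩ := hx
  exact ⟨_, (galE_smul_iotaF hrat σ hσ z).symm⟩

theorem inv_smul_mem_orderE (hrat : HRat A WA) (σ : L ≃ₐ[ℚ] L)
    (hσ : σ ∈ A.decompositionSubgroup ℚ)
    (x : FE A WA) (hx : x ∈ (fracFrameE A WA).O) : (galE hrat σ)⁻¹ • x ∈ (fracFrameE A WA).O := by
  rw [← map_inv]
  exact smul_mem_orderE hrat σ⁻¹ (inv_mem hσ) x hx

theorem rho_smul (hrat : HRat A WA) (σ : L ≃ₐ[ℚ] L) (hσ : σ ∈ A.decompositionSubgroup ℚ)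
    (x : FE A WA) (hx : x ∈ (fracFrameE A WA).O) :
    (fracFrameE A WA).rho ⟨galE hrat σ • x, smul_mem_orderE hrat σ hσ x hx⟩ =
      coordHom (Ek A WA) ((resAut A σ hσ : ResidueField A ≃+* ResidueField A) :
        ResidueField A →+* ResidueField A) (map_resAut hrat σ hσ)
        ((fracFrameE A WA).rho ⟨x, hx⟩) := by
  obtain ⟨z, rfl⟩ := hx
  have h1 : (⟨iotaF A WA z, ⟨z, rfl⟩⟩ : (fracFrameE A WA).O) = orderEquiv A WA z := rfl
  have h2 : (⟨galE hrat σ • iotaF A WA z, smul_mem_orderE hrat σ hσ _ ⟨z, rfl⟩⟩ :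
      (fracFrameE A WA).O) =
      orderEquiv A WA (coordHom WA (resA A σ hσ) (map_resA hrat σ hσ) z) :=
    Subtype.ext (galE_smul_iotaF hrat σ hσ z)
  rw [h2, h1]
  show rhoO A WA _ = coordHom _ _ _ (rhoO A WA _)
  rw [rhoO_orderEquiv, rhoO_orderEquiv, rhoA_coordHom hrat σ hσ]

/-- **the decomposition group acts on the reduction datum of the Weierstrass model.** -/
def decompRedAutE (hrat : HRat A WA) (σ : L ≃ₐ[ℚ] L) (hσ : σ ∈ A.decompositionSubgroup ℚ) :
    RedAut (redDataE A WA) :=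
  redAutOfFrame (fracFrameE A WA) (galE hrat σ) (bE hrat σ hσ)
    (coordHom (Ek A WA) ((resAut A σ hσ : ResidueField A ≃+* ResidueField A) :
      ResidueField A →+* ResidueField A) (map_resAut hrat σ hσ))
    (smul_mem_orderE hrat σ hσ) (inv_smul_mem_orderE hrat σ hσ) (rho_smul hrat σ hσ)
    (bE_smul_coord hrat σ hσ)

@[simp] theorem decompRedAutE_σ (hrat : HRat A WA) (σ : L ≃ₐ[ℚ] L)
    (hσ : σ ∈ A.decompositionSubgroup ℚ) : (decompRedAutE hrat σ hσ).σ = galE hrat σ := rfl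

@[simp] theorem decompRedAutE_b (hrat : HRat A WA) (σ : L ≃ₐ[ℚ] L)
    (hσ : σ ∈ A.decompositionSubgroup ℚ) : (decompRedAutE hrat σ hσ).b = bE hrat σ hσ := rfl

/-- inertia acts trivially on the special fibre -/
theorem bE_of_inertia (hrat : HRat A WA) {σ : L ≃ₐ[ℚ] L} (hσ : σ ∈ A.inertiaSubgroupIn ℚ) :
    bE hrat σ (Fermat.Agent.S05.mem_decompositionSubgroup_of_mem_inertiaSubgroupIn hσ) = 1 := by
  refine Subtype.ext (Prod.ext (RingEquiv.ext fun y => ?_) (RingEquiv.ext fun r => ?_))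
  · exact funEquiv_of_eq_id (Ek A WA) _ _ (fun r => resAut_of_inertia A hσ r) y
  · exact resAut_of_inertia A hσ r

theorem decompRedAutE_b_of_inertia (hrat : HRat A WA) {σ : L ≃ₐ[ℚ] L}
    (hσ : σ ∈ A.inertiaSubgroupIn ℚ) :
    (decompRedAutE hrat σ
      (Fermat.Agent.S05.mem_decompositionSubgroup_of_mem_inertiaSubgroupIn hσ)).b = 1 :=
  bE_of_inertia hrat hσ

/-! ### Equivariance of the place reduction map -/

variable {g c : ℤ}
variable [FiniteResidues L (FE A WA)] [HasPrincipalDivisors L (FE A WA)]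
  [Nonempty (Place L (FE A WA))]
variable [FiniteResidues (kA A) (FtE A WA)] [HasPrincipalDivisors (kA A) (FtE A WA)]
  [Nonempty (Place (kA A) (FtE A WA))]
variable [Infinite (kA A)]

/-- the place reduction map is equivariant for the decomposition group -/
theorem rOf_smul_of_decomp (hrat : HRat A WA) (H : LSpaceHyp (redDataE A WA) g c)
    (σ : L ≃ₐ[ℚ] L) (hσ : σ ∈ A.decompositionSubgroup ℚ) (P : Place L (FE A WA)) :
    rOf H (galE hrat σ • P) = bE hrat σ hσ • rOf H P :=
  (decompRedAutE hrat σ hσ).rOf_smul H P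

/-- **inertia preserves every residue disc**: `r (σ P) = r P` for `σ` in the inertia group. -/
theorem rOf_smul_of_inertia (hrat : HRat A WA) (H : LSpaceHyp (redDataE A WA) g c)
    {σ : L ≃ₐ[ℚ] L} (hσ : σ ∈ A.inertiaSubgroupIn ℚ) (P : Place L (FE A WA)) :
    rOf H (galE hrat σ • P) = rOf H P := by
  rw [rOf_smul_of_decomp hrat H σ
    (Fermat.Agent.S05.mem_decompositionSubgroup_of_mem_inertiaSubgroupIn hσ) P,
    bE_of_inertia hrat hσ, one_smul]

end Fermat.Agent.GF.EFrame.GalERed
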