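/-
GATE-F / E-side, node GF-EFRAME, file 2 (helper75): Mathlib's function field of a Weierstrass
equation over a field, as a function field in one variable.

`K` a field, `E : WeierstrassCurve.Affine K` (NO hypothesis on the discriminant), `F := E.FunctionField`
(`FractionRing` of `E.CoordinateRing`), `genX E`, `genY E : F` the classes of `X`, `Y`.

* `toFF_eq`, `equation_gen` : the generic point satisfies the Weierstrass equation over `F`;
* `algebraMap_C_eq_aeval`, `algebraMap_smul_basis` : `p • 1 + q • Y ↦ p(x) + q(x) y`;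
* `rep_eq_zero` : `p(x) + q(x) y = 0 ⟹ p = q = 0`;  `transcendental_genX`;
* `conj_mul`, `exists_rep` : every `f ∈ F` satisfies `f · c(x) = a(x) + b(x) y` with `c ≠ 0`;
* `finrank_genX : finrank K⟮x⟯ F = 2`, `isGen_genX : IsGen K (genX E)`;
* `isSeparable_genX` : `F / K(x)` is separable if `2 ≠ 0` in `K`.
-/
import Mathlib
import Fermat.Agent.S24.Gen

set_option autoImplicit false

noncomputable section

open Polynomial WeierstrassCurve IntermediateField
open scoped Polynomial.Bivariate

namespace Fermat.Agent.GF.EFrame

open Fermat.Agent.S24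

variable {K : Type*} [Field K] (E : WeierstrassCurve.Affine K)

/-- the coordinate function `X`. -/
def genX : E.FunctionField :=
  algebraMap E.CoordinateRing E.FunctionField (Affine.CoordinateRing.mk E (C X))

/-- the coordinate function `Y`. -/
def genY : E.FunctionField :=
  algebraMap E.CoordinateRing E.FunctionField (Affine.CoordinateRing.mk E Y)

/-- the canonical map `K[X][Y] → F` is evaluation at the generic point. -/
theorem toFF_eq (p : K[X][Y]) :
    algebraMap E.CoordinateRing E.FunctionField (Affine.CoordinateRing.mk E p) =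
      (p.map (mapRingHom (algebraMap K E.FunctionField))).evalEval (genX E) (genY E) := by
  rw [← eval₂_eval₂RingHom_apply]
  have h : (algebraMap E.CoordinateRing E.FunctionField).comp (Affine.CoordinateRing.mk E) =
      eval₂RingHom (eval₂RingHom (algebraMap K E.FunctionField) (genX E)) (genY E) := by
    ext a
    · simp only [RingHom.coe_comp, Function.comp_apply, coe_eval₂RingHom, eval₂_C]
      rw [IsScalarTower.algebraMap_apply K E.CoordinateRing E.FunctionField]
      rfl
    · simp only [RingHom.coe_comp, Function.comp_apply, coe_eval₂RingHom, eval₂_C, eval₂_X]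
      rfl
    · simp only [RingHom.coe_comp, Function.comp_apply, coe_eval₂RingHom, eval₂_X]
      rfl
  exact congr($h p)

/-- **the generic point satisfies the Weierstrass equation over the function field.** -/
theorem equation_gen : (E⁄E.FunctionField).toAffine.Equation (genX E) (genY E) := by
  have h1 : (E⁄E.FunctionField).toAffine.polynomial =
      E.polynomial.map (mapRingHom (algebraMap K E.FunctionField)) :=
    Affine.baseChange_polynomial E (Algebra.ofId K E.FunctionField)
  rw [Affine.Equation, h1, ← toFF_eq, AdjoinRoot.mk_self, map_zero]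

/-- polynomials in `x`. -/
theorem algebraMap_C_eq_aeval (p : K[X]) :
    algebraMap E.CoordinateRing E.FunctionField (Affine.CoordinateRing.mk E (C p)) =
      aeval (genX E) p := by
  rw [toFF_eq, Polynomial.map_C, evalEval_C, coe_mapRingHom, eval_map, ← aeval_def]

theorem algebraMap_smul_basis (p q : K[X]) :
    algebraMap E.CoordinateRing E.FunctionField
      (p • (1 : E.CoordinateRing) + q • Affine.CoordinateRing.mk E Y) =
      aeval (genX E) p + aeval (genX E) q * genY E := by
  rw [Affine.CoordinateRing.smul, Affine.CoordinateRing.smul, mul_one, map_add, map_mul,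
    algebraMap_C_eq_aeval, algebraMap_C_eq_aeval]
  rfl

/-- **`{1, y}` is free over `K[x]`.** -/
theorem rep_eq_zero {p q : K[X]} (h : aeval (genX E) p + aeval (genX E) q * genY E = 0) :
    p = 0 ∧ q = 0 := by
  rw [← algebraMap_smul_basis,
    map_eq_zero_iff _ (IsFractionRing.injective E.CoordinateRing E.FunctionField)] at h
  exact Affine.CoordinateRing.smul_basis_eq_zero h

theorem aeval_genX_injective : Function.Injective (aeval (R := K) (genX E)) := by
  rw [injective_iff_map_eq_zero]
  intro p hp
  have h : aeval (genX E) p + aeval (genX E) (0 : K[X]) * genY E = 0 := by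
    rw [hp, map_zero, zero_mul, add_zero]
  exact (rep_eq_zero E h).1

/-- **`x` is transcendental over `K`.** -/
theorem transcendental_genX : Transcendental K (genX E) :=
  (transcendental_iff_injective).2 (aeval_genX_injective E)

/-- the linear polynomial `a₁X + a₃`. -/
def linP : K[X] := C E.a₁ * X + C E.a₃

/-- the cubic polynomial `X³ + a₂X² + a₄X + a₆`. -/
def cubP : K[X] := X ^ 3 + C E.a₂ * X ^ 2 + C E.a₄ * X + C E.a₆

/-- the norm form. -/
def normP (p q : K[X]) : K[X] := p ^ 2 - p * q * linP E - q ^ 2 * cubP E

/-- `(p + qY)(p - q·lin - qY) = N(p, q)`. -/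
theorem conj_mul (p q : K[X]) :
    (p • (1 : E.CoordinateRing) + q • Affine.CoordinateRing.mk E Y) *
      ((p - q * linP E) • (1 : E.CoordinateRing) + (-q) • Affine.CoordinateRing.mk E Y) =
      normP E p q • (1 : E.CoordinateRing) := by
  have h1 : ((p - q * linP E) • (1 : E.CoordinateRing) + (-q) • Affine.CoordinateRing.mk E Y) =
      Affine.CoordinateRing.mk E (C (p - q * linP E)) +
        Affine.CoordinateRing.mk E (C (-q)) * Affine.CoordinateRing.mk E Y := by
    rw [Affine.CoordinateRing.smul, Affine.CoordinateRing.smul, mul_one]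
  rw [h1, mul_add, ← mul_assoc, Affine.CoordinateRing.smul_basis_mul_C,
    Affine.CoordinateRing.smul_basis_mul_C, Affine.CoordinateRing.smul_basis_mul_Y]
  have e1 : q * (p - q * linP E) + (p * -q - q * -q * (C E.a₁ * X + C E.a₃)) = 0 := by
    unfold linP; ring
  have e2 : p * (p - q * linP E) +
      q * -q * (X ^ 3 + C E.a₂ * X ^ 2 + C E.a₄ * X + C E.a₆) = normP E p q := by
    unfold normP cubP; ring
  rw [add_add_add_comm, ← add_smul, ← add_smul, e1, e2, zero_smul, add_zero]

theorem normP_ne_zero {p q : K[X]} (h : p ≠ 0 ∨ q ≠ 0) : normP E p q ≠ 0 := by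
  intro h0
  have h1 := conj_mul E p q
  rw [h0, zero_smul] at h1
  rcases mul_eq_zero.1 h1 with h2 | h2
  · obtain ⟨hp, hq⟩ := Affine.CoordinateRing.smul_basis_eq_zero h2
    rcases h with h | h
    · exact h hp
    · exact h hq
  · obtain ⟨hp, hq⟩ := Affine.CoordinateRing.smul_basis_eq_zero h2
    rw [neg_eq_zero] at hq
    rw [hq, zero_mul, sub_zero] at hp
    rcases h with h | h
    · exact h hp
    · exact h hq

/-- **every function is `(a(x) + b(x) y) / c(x)`.** -/
theorem exists_rep (f : E.FunctionField) :
    ∃ a b c : K[X], c ≠ 0 ∧ f * aeval (genX E) c = aeval (genX E) a + aeval (genX E) b * genY E := by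
  obtain ⟨n, d, hd, rfl⟩ := IsFractionRing.div_surjective (A := E.CoordinateRing) f
  have hd0 : d ≠ 0 := nonZeroDivisors.ne_zero hd
  have hdF : algebraMap E.CoordinateRing E.FunctionField d ≠ 0 := by
    rw [ne_eq, map_eq_zero_iff _ (IsFractionRing.injective E.CoordinateRing E.FunctionField)]
    exact hd0
  obtain ⟨p, q, rfl⟩ := Affine.CoordinateRing.exists_smul_basis_eq d
  have hpq : p ≠ 0 ∨ q ≠ 0 := by
    by_contra h
    push Not at h
    apply hd0
    rw [h.1, h.2, zero_smul, zero_smul, add_zero]
  set dbar : E.CoordinateRing :=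
    (p - q * linP E) • (1 : E.CoordinateRing) + (-q) • Affine.CoordinateRing.mk E Y with hdbar
  obtain ⟨a, b, hab⟩ := Affine.CoordinateRing.exists_smul_basis_eq (n * dbar)
  refine ⟨a, b, normP E p q, normP_ne_zero E hpq, ?_⟩
  rw [← algebraMap_smul_basis, hab, map_mul]
  have h1 : aeval (genX E) (normP E p q) =
      algebraMap E.CoordinateRing E.FunctionField
        (p • (1 : E.CoordinateRing) + q • Affine.CoordinateRing.mk E Y) *
        algebraMap E.CoordinateRing E.FunctionField dbar := by
    rw [← map_mul, hdbar, conj_mul, Affine.CoordinateRing.smul, mul_one, algebraMap_C_eq_aeval]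
  rw [h1]
  field_simp

/-! ### The degree over `K(x)` -/

/-- elements of `K(x)`. -/
theorem aeval_mem_adjoin (p : K[X]) : aeval (genX E) p ∈ K⟮genX E⟯ :=
  IntermediateField.algebra_adjoin_le_adjoin K {genX E} (Polynomial.aeval_mem_adjoin_singleton K _)

theorem aeval_genX_ne_zero {c : K[X]} (hc : c ≠ 0) : aeval (genX E) c ≠ 0 := fun h =>
  hc (aeval_genX_injective E (by rw [h, map_zero]))

/-- `{1, y}` spans `F` over `K(x)`. -/
theorem span_one_genY :
    Submodule.span K⟮genX E⟯ (Set.range ![(1 : E.FunctionField), genY E]) = ⊤ := by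
  rw [eq_top_iff]
  intro f _
  obtain ⟨a, b, c, hc, h⟩ := exists_rep E f
  have hc0 := aeval_genX_ne_zero E hc
  have hf : f = (⟨aeval (genX E) a / aeval (genX E) c,
      div_mem (aeval_mem_adjoin E a) (aeval_mem_adjoin E c)⟩ : K⟮genX E⟯) • (1 : E.FunctionField) +
      (⟨aeval (genX E) b / aeval (genX E) c,
        div_mem (aeval_mem_adjoin E b) (aeval_mem_adjoin E c)⟩ : K⟮genX E⟯) • genY E := by
    rw [IntermediateField.smul_def, IntermediateField.smul_def]
    show f = aeval (genX E) a / aeval (genX E) c * 1 + aeval (genX E) b / aeval (genX E) c * genY E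
    rw [mul_one, div_mul_eq_mul_div, ← add_div, ← h, mul_div_assoc, div_self hc0, mul_one]
  rw [hf]
  refine Submodule.add_mem _ (Submodule.smul_mem _ _ (Submodule.subset_span ⟨0, rfl⟩))
    (Submodule.smul_mem _ _ (Submodule.subset_span ⟨1, rfl⟩))

/-- `{1, y}` is free over `K(x)`. -/
theorem linearIndependent_one_genY :
    LinearIndependent K⟮genX E⟯ ![(1 : E.FunctionField), genY E] := by
  rw [LinearIndependent.pair_iff]
  intro s t hst
  obtain ⟨r₁, s₁, hs⟩ := (IntermediateField.mem_adjoin_simple_iff K _).1 s.2
  obtain ⟨r₂, s₂, ht⟩ := (IntermediateField.mem_adjoin_simple_iff K _).1 t.2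
  rw [IntermediateField.smul_def, IntermediateField.smul_def, smul_eq_mul, smul_eq_mul, mul_one]
    at hst
  by_cases h1 : aeval (genX E) s₁ = 0
  · -- `s = 0`
    have hs0 : (s : E.FunctionField) = 0 := by rw [hs, h1, div_zero]
    rw [hs0, zero_add] at hst
    have ht0 : (t : E.FunctionField) = 0 := by
      rcases mul_eq_zero.1 hst with h | h
      · exact h
      · exfalso
        have := rep_eq_zero E (p := 0) (q := 1) (by rw [map_zero, map_one, one_mul, zero_add, h])
        exact one_ne_zero this.2
    exact ⟨Subtype.ext hs0, Subtype.ext ht0⟩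
  by_cases h2 : aeval (genX E) s₂ = 0
  · have ht0 : (t : E.FunctionField) = 0 := by rw [ht, h2, div_zero]
    rw [ht0, zero_mul, add_zero] at hst
    exact ⟨Subtype.ext hst, Subtype.ext ht0⟩
  -- clear denominators
  have h3 : aeval (genX E) (r₁ * s₂) + aeval (genX E) (r₂ * s₁) * genY E = 0 := by
    rw [map_mul, map_mul]
    have : (s : E.FunctionField) * (aeval (genX E) s₁ * aeval (genX E) s₂) +
        (t : E.FunctionField) * (aeval (genX E) s₁ * aeval (genX E) s₂) * genY E = 0 := by
      have := congrArg (fun z => z * (aeval (genX E) s₁ * aeval (genX E) s₂)) hst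
      simp only [zero_mul, add_mul] at this
      rw [← this]
      ring
    rw [hs, ht] at this
    rw [← this]
    field_simp
  obtain ⟨e1, e2⟩ := rep_eq_zero E h3
  have hs₁ : s₁ ≠ 0 := fun h => h1 (by rw [h, map_zero])
  have hs₂ : s₂ ≠ 0 := fun h => h2 (by rw [h, map_zero])
  have hr₁ : r₁ = 0 := (mul_eq_zero.1 e1).resolve_right hs₂
  have hr₂ : r₂ = 0 := (mul_eq_zero.1 e2).resolve_right hs₁
  refine ⟨Subtype.ext ?_, Subtype.ext ?_⟩
  · show (s : E.FunctionField) = 0
    rw [hs, hr₁, map_zero, zero_div]
  · show (t : E.FunctionField) = 0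
    rw [ht, hr₂, map_zero, zero_div]

/-- the basis `{1, y}` of `F` over `K(x)`. -/
def basisGen : Module.Basis (Fin 2) K⟮genX E⟯ E.FunctionField :=
  Module.Basis.mk (linearIndependent_one_genY E) (span_one_genY E).ge

/-- **`[F : K(x)] = 2`.** -/
theorem finrank_genX : Module.finrank K⟮genX E⟯ E.FunctionField = 2 := by
  rw [Module.finrank_eq_card_basis (basisGen E), Fintype.card_fin]

instance finiteDimensional_genX : FiniteDimensional K⟮genX E⟯ E.FunctionField :=
  Module.Finite.of_basis (basisGen E)

/-- **`x` is a generator of the function field in one variable.** -/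
instance isGen_genX : IsGen K (genX E) := ⟨transcendental_genX E, finiteDimensional_genX E⟩

end Fermat.Agent.GF.EFrame
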