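/-
GATE-F / E-side, node GF-EFRAME, file 3 (helper75): THE L-SPACE HYPOTHESES of the Weierstrass frame.

`K` algebraically closed, `A` a valuation subring with algebraically closed residue field `k`,
`WA : WeierstrassCurve.Affine A`, `R := redDataE A WA : RedData K F k Ft` (file 1).

* function-field instances on BOTH fibres (as theorems): `finiteResidues_*`, `hasPrincipalDivisors_*`,
  `nonempty_place_*` from `IsGen` (file 2);
* `red_tE` Gauss chart: `ttE` transcendental, `[F : K(t)] = 2 = [Ft : k(t~)]`;
* **`lSpaceHypE`** : `LSpaceHyp (redDataE A WA) 1 1` from the TWO Riemann binders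
    `hrrF  : ∀ D : Divisor K F,  1 ≤ deg D → finrank K L(D) = deg D`,
    `hrrFt : ∀ D : Divisor k Ft, 1 ≤ deg D → finrank k L(D) = deg D`
  (genus one on both fibres: helper45 `GF/EGenus`, needs `Δ ≠ 0` on both fibres);  `orth` is
  `S37.orth_of_finrank_le` (degree preservation `2 ≤ 2`), `poleDeg` is `S37PoleDeg.poleDeg_of_isGen`.
  NO genus inequality / branch data are needed.
-/
import Mathlib
import Fermat.Agent.GF.EFrame.Model
import Fermat.Agent.GF.EFrame.Generic
import Fermat.Agent.GJ.S37.LSpaceRed
import Fermat.Agent.GJ.S37.OrthAdapter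
import Fermat.Agent.GJ.S37.PoleDeg
import Fermat.Agent.S24.DegOne
import Fermat.Agent.GJ.FF.PrincipalGen

set_option autoImplicit false

noncomputable section

open Polynomial WeierstrassCurve IntermediateField AlgebraicCurve Module

namespace Fermat.Agent.GF.EFrame

open Fermat.Agent.S24 Fermat.Agent.RRh45 Fermat.Agent.GJ.J1 Fermat.Agent.GJ.S37LSpace

section Fibre

variable {K : Type*} [Field K] (E : WeierstrassCurve.Affine K)

theorem finiteResidues_ff : FiniteResidues K E.FunctionField :=
  Fermat.Agent.GJ.FF.finiteResidues (K := K) (genX E)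

theorem hasPrincipalDivisors_ff : HasPrincipalDivisors K E.FunctionField :=
  Fermat.Agent.GJ.FF.PrincipalOf.hasPrincipalDivisors_gen (genX E)

theorem nonempty_place_ff : Nonempty (Place K E.FunctionField) :=
  Fermat.Agent.GJ.FF.nonempty_place (K := K) (genX E)

end Fibre

section Frame

variable {K : Type} [Field K] (A : ValuationSubring K) (WA : WeierstrassCurve.Affine A)

theorem tE_eq_genX : tE A WA = genX (EK A WA) := rfl

theorem yE_eq_genY : yE A WA = genY (EK A WA) := rfl

theorem ttE_eq_genX : ttE A WA = genX (Ek A WA) := rfl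

theorem ytE_eq_genY : ytE A WA = genY (Ek A WA) := rfl

/-- `t = X` is a Gauss chart of the Weierstrass frame. -/
theorem transcendental_red_tE :
    Transcendental (kA A) ((redDataE A WA).red ⟨tE A WA, tE_mem_Rw A WA⟩) := by
  rw [red_tE]
  exact transcendental_genX (Ek A WA)

/-- `[Ft : k(red t)] = 2`. -/
theorem finrank_red_tE :
    finrank (kA A)⟮(redDataE A WA).red ⟨tE A WA, tE_mem_Rw A WA⟩⟯ (FtE A WA) = 2 := by
  have h : ∀ z : FtE A WA, z = ttE A WA → finrank (kA A)⟮z⟯ (FtE A WA) = 2 := by
    rintro z rfl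
    exact finrank_genX (Ek A WA)
  exact h _ (red_tE A WA)

instance isGen_tE : IsGen K (tE A WA) := isGen_genX (EK A WA)

instance isGen_ttE : IsGen (kA A) (ttE A WA) := isGen_genX (Ek A WA)

instance finiteDimensional_tE : FiniteDimensional K⟮tE A WA⟯ (FE A WA) :=
  finiteDimensional_genX (EK A WA)

/-- degree preservation along the chart `t`. -/
theorem finrank_tE_le :
    finrank K⟮tE A WA⟯ (FE A WA) ≤
      finrank (kA A)⟮(redDataE A WA).red ⟨tE A WA, tE_mem_Rw A WA⟩⟯ (FtE A WA) := by
  rw [finrank_red_tE]
  exact (finrank_genX (EK A WA)).le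

variable [IsAlgClosed K] [IsAlgClosed (kA A)]

/-- **the L-space hypotheses of the Weierstrass frame**, genus one, from the two Riemann binders. -/
theorem lSpaceHypE
    (hrrF : ∀ D : Divisor K (FE A WA), 1 ≤ Divisor.degree D →
      (finrank K (riemannRochSpace D) : ℤ) = Divisor.degree D)
    (hrrFt : ∀ D : Divisor (kA A) (FtE A WA), 1 ≤ Divisor.degree D →
      (finrank (kA A) (riemannRochSpace D) : ℤ) = Divisor.degree D) :
    LSpaceHyp (redDataE A WA) 1 1 := by
  have := finiteResidues_ff (EK A WA)
  have := hasPrincipalDivisors_ff (EK A WA)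
  have := nonempty_place_ff (EK A WA)
  exact
    { c_nonneg := zero_le_one
      degF := fun P => PlaceB.deg_eq_one P (tE A WA)
      degFt := fun Q => PlaceB.deg_eq_one Q (ttE A WA)
      rrF := fun D hD => by rw [hrrF D hD]; ring
      rrFt := fun D hD => by rw [hrrFt D hD]; ring
      orth := orth_of_finrank_le (redDataE A WA) (tE A WA) (tE_mem_Rw A WA)
        (transcendental_red_tE A WA) (finrank_tE_le A WA)
      poleDeg := Fermat.Agent.GJ.S37PoleDeg.poleDeg_of_isGen (redDataE A WA) (tE A WA) (ttE A WA) }

end Frame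

end Fermat.Agent.GF.EFrame
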