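/-
GATE-F / E-side, node GF-EFIXPL, file 4 (helper75): THE GAL CONTRACT OF THE WEIERSTRASS FRAME
(assembly).

`L / ℚ` algebraically closed, `A` a valuation subring of `L`, `WA` a Weierstrass curve over `A`
with rational coefficients (`HRat`, helper17).  From

* the Weierstrass dictionaries `dF`, `dT` of the two fibres (helper85 `GF/EPoints`),
* the two Riemann binders `hrrF`, `hrrFt` (helper45 `GF/EGenus/Inst`),
* the Hensel binder `hlift` (helper62 `GF/EFrame/Hensel` + helper17 `GF/EFrame/HLift`): every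
  affine place of the special fibre is the reduction of an affine place of the generic fibre with
  inertia-fixed integral coordinates,

we get `GalFrame (lSpaceHypE A WA hrrF hrrFt) 1 D_A I_A` for the action of `Aut(L/ℚ)` on
`Pic0 L (FE A WA)` through `galE` (`pic0ActionE`).  This is the only frame-specific input of
`GH/CoreAsm/Main.core_asm`.
-/
import Mathlib
import Fermat.Agent.GF.EFrame.FixW
import Fermat.Agent.GF.EFrame.LSH
import Fermat.Agent.GF.EFrame.GalERed
import Fermat.Agent.GH.Gal.Frame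

set_option autoImplicit false
set_option linter.unusedSectionVars false

noncomputable section

open AlgebraicCurve WeierstrassCurve IsLocalRing

namespace Fermat.Agent.GF.EFrame

open Fermat.Agent.RRh45 Fermat.Agent.GJ.S37MinDiv Fermat.Agent.GJ.J1 Fermat.Agent.GJ.S37LSpace
  Fermat.Agent.GJ.S37ROfSurj Fermat.Agent.S24 Fermat.Agent.GH Fermat.Agent.GH.Gal
  Fermat.Agent.GH.Disc Fermat.Agent.GF.EFrame.GalERed

variable {L : Type} [Field L] [Algebra ℚ L] {A : ValuationSubring L}
  {WA : WeierstrassCurve.Affine A}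

/-- the action of `Aut(L/ℚ)` on `Pic0` of the generic fibre, through `galE`. -/
@[reducible] def pic0ActionE (hrat : HRat A WA) :
    DistribMulAction (L ≃ₐ[ℚ] L) (Pic0 L (FE A WA)) :=
  DistribMulAction.compHom _ (galE hrat)

theorem pic0ActionE_smul (hrat : HRat A WA) (σ : L ≃ₐ[ℚ] L) (ξ : Pic0 L (FE A WA)) :
    (letI := pic0ActionE hrat; σ • ξ) = galE hrat σ • ξ := rfl

/-- the Weierstrass equation of the generic fibre, expanded. -/
theorem equation_tE_yE (A : ValuationSubring L) (WA : WeierstrassCurve.Affine A) :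
    yE A WA ^ 2 + algebraMap L (FE A WA) (WA.a₁ : L) * tE A WA * yE A WA +
        algebraMap L (FE A WA) (WA.a₃ : L) * yE A WA =
      tE A WA ^ 3 + algebraMap L (FE A WA) (WA.a₂ : L) * tE A WA ^ 2 +
        algebraMap L (FE A WA) (WA.a₄ : L) * tE A WA + algebraMap L (FE A WA) (WA.a₆ : L) := by
  have h := equation_gen (EK A WA)
  rw [Affine.equation_iff] at h
  simp only [map_a₁, map_a₂, map_a₃, map_a₄, map_a₆, ValuationSubring.subtype_apply,
    baseChange] at h
  exact h

variable [IsAlgClosed L] [IsAlgClosed (kA A)]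
variable [FiniteResidues L (FE A WA)] [HasPrincipalDivisors L (FE A WA)]
  [Nonempty (Place L (FE A WA))]
variable [FiniteResidues (kA A) (FtE A WA)] [HasPrincipalDivisors (kA A) (FtE A WA)]
  [Nonempty (Place (kA A) (FtE A WA))]
variable [Infinite (kA A)]

/-- **the GAL contract of the Weierstrass frame.** -/
def galFrameE (hrat : HRat A WA)
    (hrrF : ∀ D : Divisor L (FE A WA), 1 ≤ Divisor.degree D →
      (Module.finrank L (riemannRochSpace D) : ℤ) = Divisor.degree D)
    (hrrFt : ∀ D : Divisor (kA A) (FtE A WA), 1 ≤ Divisor.degree D →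
      (Module.finrank (kA A) (riemannRochSpace D) : ℤ) = Divisor.degree D)
    (dF : WDict L (tE A WA) (yE A WA))
    (dT : WDict (kA A) ((redDataE A WA).red ⟨tE A WA, tE_mem_Rw A WA⟩)
      ((redDataE A WA).red ⟨yE A WA, yE_mem_Rw A WA⟩))
    (hlift : ∀ Q : Place (kA A) (FtE A WA), Q ≠ dT.Pinf → ∃ P : Place L (FE A WA),
      P ≠ dF.Pinf ∧ ∃ a b : A, (∀ τ ∈ A.inertiaSubgroupIn ℚ, τ (a : L) = a) ∧
        (∀ τ ∈ A.inertiaSubgroupIn ℚ, τ (b : L) = b) ∧
        ValueAt P (tE A WA) (a : L) ∧ ValueAt P (yE A WA) (b : L) ∧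
        ValueAt Q ((redDataE A WA).red ⟨tE A WA, tE_mem_Rw A WA⟩) (residue A a) ∧
        ValueAt Q ((redDataE A WA).red ⟨yE A WA, yE_mem_Rw A WA⟩) (residue A b)) :
    letI := pic0ActionE hrat
    GalFrame (lSpaceHypE A WA hrrF hrrFt) 1 (A.decompositionSubgroup ℚ)
      (A.inertiaSubgroupIn ℚ) :=
  letI := pic0ActionE hrat
  galFrameW (lSpaceHypE A WA hrrF hrrFt) (tE_mem_Rw A WA) (yE_mem_Rw A WA) dF dT (galE hrat)
    (A.decompositionSubgroup ℚ) (A.inertiaSubgroupIn ℚ)
    (fun σ hσ => decompRedAutE hrat σ hσ)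
    (fun _ _ => rfl) (fun _ _ => rfl)
    (Frame.inertia_le_decomp A) (fun σ hσ τ hτ => Frame.conj_mem_inertia A hσ hτ)
    (fun _ _ => rfl) (fun τ hτ => decompRedAutE_b_of_inertia hrat hτ)
    (fun P _ a ha hy => value_mem_of_weierstrass A WA.a₂.2 WA.a₄.2 WA.a₆.2
      (equation_tE_yE A WA) ha hy)
    (by
      have hdeg : Divisor.degree (Finsupp.single dT.Pinf (1 : ℤ)) = 1 := by
        rw [Divisor.degree_single, (lSpaceHypE A WA hrrF hrrFt).degFt dT.Pinf]
        simp
      have h := hrrFt (Finsupp.single dT.Pinf (1 : ℤ)) hdeg.ge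
      rw [hdeg] at h
      exact_mod_cast h)
    (fun τ _ => galE_smul_tE hrat τ) (fun τ _ => galE_smul_yE hrat τ)
    (fun τ _ => dF.smul_Pinf (galE hrat τ) (galE_smul_tE hrat τ))
    (fun Q hQ => by
      obtain ⟨P, hP, a, b, hfa, hfb, h1, h2, h3, h4⟩ := hlift Q hQ
      exact ⟨P, hP, fun τ hτ => dF.smul_eq_of_values (galE hrat τ) (galE_smul_tE hrat τ)
        (galE_smul_yE hrat τ) hP h1 h2 (hfa τ hτ) (hfb τ hτ), a, b, h1, h2, h3, h4⟩)

end Fermat.Agent.GF.EFrame
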