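/-
GATE-F / [E-HENSEL] (helper62).  Galois-theoretic Hensel lemma in an algebraically closed valued
field and the lifting of nonsingular points of a Weierstrass curve.

* (H1) `existsUnique_root` : `L` algebraically closed, `A : ValuationSubring L`, `f : A[X]` monic,
  `α` a SIMPLE root of `f mod 𝔪_A` ⟹ `∃! a : A, f(a) = 0 ∧ a ≡ α`.
* (H2) `apply_eq_of_root` : an automorphism `σ ∈ I_A` fixing the coefficients of `f` fixes that root.
* (H3) `exists_lift_of_nonsingular` : Weierstrass curve `WA` over `A`, `I ⊆ I_A` fixing the `aᵢ`,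
  the `I`-fixed elements of `A` surject onto the residue field ⟹ every nonsingular point of the
  special fibre lifts to an `I`-fixed point of `WA` with coordinates in `A`.
* (H4) `exists_lift_inertiaField` : the instance `L = ℚ̄`, `I = I_A`, fixed field `K₀`.
* (H5) `exists_lift_inertiaField_int` : the same for `WA = W.map (Int.castRingHom A)`.
-/
import Mathlib
import Fermat.Agent.S05.Inertia
import Fermat.Agent.GL.Local.InertiaFieldBase

set_option autoImplicit false

open Polynomial IsLocalRing

namespace Fermat.Agent.GF.EFrame.Hensel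

/-! ### (H1) the core -/

section Core

variable {L : Type*} [Field L] (A : ValuationSubring L)

/-- a product of elements of `A` lying in `𝔪_A` has a factor in `𝔪_A`. -/
theorem exists_mem_nonunits_of_prod (m : Multiset L) (hm : ∀ a ∈ m, a ∈ A)
    (h : m.prod ∈ A.nonunits) : ∃ a ∈ m, a ∈ A.nonunits := by
  induction m using Multiset.induction_on with
  | empty =>
    exfalso
    rw [Multiset.prod_zero, A.mem_nonunits_iff, map_one] at h
    exact lt_irrefl _ h
  | cons a s ih =>
    rw [Multiset.prod_cons] at h
    by_cases ha : a ∈ A.nonunits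
    · exact ⟨a, Multiset.mem_cons_self a s, ha⟩
    · have haA : a ∈ A := hm a (Multiset.mem_cons_self a s)
      have hva : A.valuation a = 1 := by
        rw [A.mem_nonunits_iff, not_lt] at ha
        exact le_antisymm ((A.valuation_le_one_iff _).mpr haA) ha
      have hs : s.prod ∈ A.nonunits := by
        rw [A.mem_nonunits_iff, map_mul, hva, one_mul] at h
        exact (A.mem_nonunits_iff).mpr h
      obtain ⟨b, hb, hb'⟩ := ih (fun b hb => hm b (Multiset.mem_cons_of_mem hb)) hs
      exact ⟨b, Multiset.mem_cons_of_mem hb, hb'⟩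

/-- roots in `L` of a monic polynomial over `A` lie in `A`. -/
theorem mem_of_isRoot_map {f : A[X]} (hf : f.Monic) {r : L}
    (hr : (f.map A.subtype).IsRoot r) : r ∈ A := by
  have hint : IsIntegral A r := by
    refine ⟨f, hf, ?_⟩
    have : (f.map A.subtype).eval r = 0 := hr
    rwa [eval_map] at this
  obtain ⟨y, hy⟩ := IsIntegrallyClosed.isIntegral_iff.mp hint
  rw [← hy]
  exact y.2

theorem residue_eq_iff {a b : A} : residue A a = residue A b ↔ ((a : L) - b) ∈ A.nonunits := by
  rw [← sub_eq_zero, ← map_sub, residue_eq_zero_iff,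
    ValuationSubring.mem_nonunits_iff_exists_mem_maximalIdeal]
  constructor
  · intro h
    exact ⟨(a - b).2, h⟩
  · rintro ⟨h1, h2⟩
    exact h2

/-- uniqueness half of (H1): two roots of `f` in the same residue class coincide as soon as the
derivative of the reduction does not vanish there. -/
theorem root_unique {f : A[X]} {α : ResidueField A}
    (hα' : (f.map (residue A)).derivative.eval α ≠ 0) {a b : A}
    (ha : f.IsRoot a) (hb : f.IsRoot b) (hra : residue A a = α) (hrb : residue A b = α) :
    a = b := by
  by_contra hab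
  obtain ⟨k, hk⟩ := binomExpansion f a (b - a)
  have hy0 : b - a ≠ 0 := sub_ne_zero.mpr (Ne.symm hab)
  rw [add_sub_cancel] at hk
  have hk' : f.eval b = 0 := hb
  have ha' : f.eval a = 0 := ha
  rw [hk', ha', zero_add] at hk
  have h1 : (f.derivative.eval a + k * (b - a)) * (b - a) = 0 := by
    rw [hk]; ring
  have h2 : f.derivative.eval a + k * (b - a) = 0 := by
    rcases mul_eq_zero.mp h1 with h | h
    · exact h
    · exact absurd h hy0
  have h3 : residue A (b - a) = 0 := by rw [map_sub, hra, hrb, sub_self]
  have h4 : residue A (f.derivative.eval a) = 0 := by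
    have := congrArg (residue A) h2
    rwa [map_add, map_mul, h3, mul_zero, add_zero, map_zero] at this
  apply hα'
  rw [← hra, derivative_map, eval_map_apply, h4]

variable [IsAlgClosed L]

/-- existence half of (H1); only needs a root of the reduction, not simplicity. -/
theorem exists_root {f : A[X]} (hf : f.Monic) {α : ResidueField A}
    (hα : (f.map (residue A)).IsRoot α) :
    ∃ a : A, f.IsRoot a ∧ residue A a = α := by
  obtain ⟨a₀, ha₀⟩ := residue_surjective (R := A) α
  set g : L[X] := f.map A.subtype with hg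
  have hgm : g.Monic := hf.map _
  have hsp : g.Splits := IsAlgClosed.splits g
  -- `f(a₀) ∈ 𝔪_A`
  have h0 : residue A (f.eval a₀) = 0 := by
    have : (f.map (residue A)).eval (residue A a₀) = 0 := by rw [ha₀]; exact hα
    rwa [eval_map_apply] at this
  have h1 : ((f.eval a₀ : A) : L) ∈ A.nonunits := by
    rw [residue_eq_zero_iff] at h0
    rw [ValuationSubring.mem_nonunits_iff_exists_mem_maximalIdeal]
    exact ⟨(f.eval a₀).2, h0⟩
  have h2 : ((f.eval a₀ : A) : L) = (g.roots.map fun r => (a₀ : L) - r).prod := by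
    rw [← hsp.eval_eq_prod_roots_of_monic hgm, hg]
    exact (eval_map_apply A.subtype a₀).symm
  rw [h2] at h1
  obtain ⟨d, hd, hdnu⟩ := exists_mem_nonunits_of_prod A _ (by
    intro d hd
    obtain ⟨r, hr, rfl⟩ := Multiset.mem_map.mp hd
    have hrA : r ∈ A := mem_of_isRoot_map A hf (isRoot_of_mem_roots hr)
    exact sub_mem a₀.2 hrA) h1
  obtain ⟨r, hr, rfl⟩ := Multiset.mem_map.mp hd
  have hrroot : g.IsRoot r := isRoot_of_mem_roots hr
  have hrA : r ∈ A := mem_of_isRoot_map A hf hrroot
  refine ⟨⟨r, hrA⟩, ?_, ?_⟩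
  · have h3 : g.eval (A.subtype ⟨r, hrA⟩) = 0 := hrroot
    rw [hg, eval_map_apply] at h3
    exact Subtype.ext h3
  · rw [← ha₀]
    exact ((residue_eq_iff A).mpr hdnu).symm

/-- **(H1)** Hensel's lemma in an algebraically closed valued field. -/
theorem existsUnique_root {f : A[X]} (hf : f.Monic) {α : ResidueField A}
    (hα : (f.map (residue A)).IsRoot α) (hα' : (f.map (residue A)).derivative.eval α ≠ 0) :
    ∃! a : A, f.IsRoot a ∧ residue A a = α := by
  obtain ⟨a, ha, hra⟩ := exists_root A hf hα
  exact ⟨a, ⟨ha, hra⟩, fun b hb => (root_unique A hα' ha hb.1 hra hb.2).symm⟩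

end Core

/-! ### (H2) Galois invariance of the Hensel root -/

section Galois

variable {K L : Type*} [Field K] [Field L] [Algebra K L] {A : ValuationSubring L}

/-- **(H2)** an element of the inertia group fixing the coefficients of `f` fixes every root of `f`
in `A` at which the reduction of `f` has non-vanishing derivative. -/
theorem apply_eq_of_root {σ : L ≃ₐ[K] L} (hσ : σ ∈ A.inertiaSubgroupIn K) {f : A[X]}
    (hfσ : (f.map A.subtype).map (σ : L →+* L) = f.map A.subtype) {α : ResidueField A}
    (hα' : (f.map (residue A)).derivative.eval α ≠ 0) {a : A} (ha : f.IsRoot a)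
    (hra : residue A a = α) : σ (a : L) = a := by
  have hσa : σ (a : L) ∈ A :=
    (Fermat.Agent.S05.apply_mem_iff_of_mem_inertiaSubgroupIn hσ _).mpr a.2
  set b : A := ⟨σ a, hσa⟩ with hbdef
  have hb : f.IsRoot b := by
    have h0 : (f.map A.subtype).eval (a : L) = 0 := by
      have : (f.map A.subtype).eval (A.subtype a) = A.subtype (f.eval a) := eval_map_apply _ _
      rw [ha.eq_zero, map_zero] at this
      exact this
    have h1 : (f.map A.subtype).eval (σ (a : L)) = 0 := by
      have : ((f.map A.subtype).map (σ : L →+* L)).eval ((σ : L →+* L) (a : L)) =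
          (σ : L →+* L) ((f.map A.subtype).eval (a : L)) := eval_map_apply _ _
      rw [hfσ, h0, map_zero] at this
      exact this
    have h2 : (f.map A.subtype).eval (A.subtype b) = A.subtype (f.eval b) := eval_map_apply _ _
    have h3 : A.subtype (f.eval b) = 0 := by rw [← h2]; exact h1
    exact Subtype.ext h3
  have hrb : residue A b = α := by
    rw [← hra]
    exact (residue_eq_iff A).mpr
      (Fermat.Agent.S05.apply_sub_mem_nonunits_of_mem_inertiaSubgroupIn hσ a.2)
  have := root_unique A hα' ha hb hra hrb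
  exact (congrArg Subtype.val this).symm

end Galois

/-! ### (H3) lifting nonsingular points of a Weierstrass curve -/

section Weierstrass

variable {K L : Type*} [Field K] [Field L] [Algebra K L] [IsAlgClosed L] (A : ValuationSubring L)

theorem monic_quad {R : Type*} [CommRing R] [Nontrivial R] (b c : R) :
    (X ^ 2 + (C b * X + C c) : R[X]).Monic :=
  monic_X_pow_add (lt_of_le_of_lt (degree_linear_le) (by norm_num))

theorem monic_cub {R : Type*} [CommRing R] [Nontrivial R] (a b c : R) :
    (X ^ 3 + (C a * X ^ 2 + C b * X + C c) : R[X]).Monic :=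
  monic_X_pow_add (lt_of_le_of_lt (degree_quadratic_le) (by norm_num))

section Generic

variable {R S T : Type*} [CommRing R] [CommRing S] [CommRing T] (φ : R →+* S) (ψ : S →+* T)

theorem eval_quad (b c s : R) : (X ^ 2 + (C b * X + C c) : R[X]).eval s = s ^ 2 + (b * s + c) := by
  simp

theorem eval_cub (a b c s : R) :
    (X ^ 3 + (C a * X ^ 2 + C b * X + C c) : R[X]).eval s = s ^ 3 + (a * s ^ 2 + b * s + c) := by
  simp

theorem map_quad (b c : R) :
    (X ^ 2 + (C b * X + C c) : R[X]).map φ = X ^ 2 + (C (φ b) * X + C (φ c)) := by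
  simp

theorem map_cub (a b c : R) :
    (X ^ 3 + (C a * X ^ 2 + C b * X + C c) : R[X]).map φ =
      X ^ 3 + (C (φ a) * X ^ 2 + C (φ b) * X + C (φ c)) := by
  simp

theorem eval_derivative_quad (b c s : R) :
    (derivative (X ^ 2 + (C b * X + C c) : R[X])).eval s = 2 * s + b := by
  simp
  ring

theorem eval_derivative_cub (a b c s : R) :
    (derivative (X ^ 3 + (C a * X ^ 2 + C b * X + C c) : R[X])).eval s =
      3 * s ^ 2 + (a * (2 * s) + b) := by
  simp
  ring

end Generic

/-- **(H3)** every nonsingular point of the special fibre of a Weierstrass curve over `A` lifts to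
an `I`-fixed point with coordinates in `A`, provided `I ⊆ I_A` fixes the coefficients and the
`I`-fixed elements of `A` surject onto the residue field. -/
theorem exists_lift_of_nonsingular (I : Set (L ≃ₐ[K] L))
    (hI : ∀ σ ∈ I, σ ∈ A.inertiaSubgroupIn K)
    (hsurj : ∀ α : ResidueField A, ∃ b : A, residue A b = α ∧ ∀ σ ∈ I, σ (b : L) = b)
    (WA : WeierstrassCurve A)
    (hrat : ∀ σ ∈ I, σ (WA.a₁ : L) = WA.a₁ ∧ σ (WA.a₂ : L) = WA.a₂ ∧ σ (WA.a₃ : L) = WA.a₃ ∧
      σ (WA.a₄ : L) = WA.a₄ ∧ σ (WA.a₆ : L) = WA.a₆)
    {x' y' : ResidueField A} (h : (WA.map (residue A)).toAffine.Nonsingular x' y') :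
    ∃ x y : A, WA.toAffine.Equation x y ∧ residue A x = x' ∧ residue A y = y' ∧
      ∀ σ ∈ I, σ (x : L) = x ∧ σ (y : L) = y := by
  rw [WeierstrassCurve.Affine.nonsingular_iff', WeierstrassCurve.Affine.equation_iff'] at h
  obtain ⟨heq, hns⟩ := h
  simp only [WeierstrassCurve.map_a₁, WeierstrassCurve.map_a₂, WeierstrassCurve.map_a₃,
    WeierstrassCurve.map_a₄, WeierstrassCurve.map_a₆] at heq hns
  rcases hns with hX | hY
  · -- lift `y`, solve the monic cubic in `X`
    obtain ⟨y, hy, hyfix⟩ := hsurj y'
    set b : A := WA.a₄ - WA.a₁ * y with hb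
    set c : A := WA.a₆ - y ^ 2 - WA.a₃ * y with hc
    have hbr : residue A b = residue A WA.a₄ - residue A WA.a₁ * y' := by
      rw [hb, map_sub, map_mul, hy]
    have hcr : residue A c = residue A WA.a₆ - y' ^ 2 - residue A WA.a₃ * y' := by
      rw [hc, map_sub, map_sub, map_mul, map_pow, hy]
    have hfm : (X ^ 3 + (C WA.a₂ * X ^ 2 + C b * X + C c) : A[X]).Monic := monic_cub _ _ _
    have hroot : ((X ^ 3 + (C WA.a₂ * X ^ 2 + C b * X + C c) : A[X]).map (residue A)).IsRoot x' := by
      rw [IsRoot, map_cub, eval_cub, hbr, hcr]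
      linear_combination -heq
    have hder : ((X ^ 3 + (C WA.a₂ * X ^ 2 + C b * X + C c) : A[X]).map
        (residue A)).derivative.eval x' ≠ 0 := by
      rw [map_cub, eval_derivative_cub, hbr]
      intro h0
      apply hX
      linear_combination -h0
    obtain ⟨x, ⟨hxroot, hxres⟩, -⟩ := existsUnique_root A hfm hroot hder
    refine ⟨x, y, ?_, hxres, hy, ?_⟩
    · rw [WeierstrassCurve.Affine.equation_iff']
      have h1 := hxroot
      rw [IsRoot, eval_cub, hb, hc] at h1
      linear_combination -h1
    · intro σ hσ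
      refine ⟨?_, hyfix σ hσ⟩
      obtain ⟨h1, h2, h3, h4, h6⟩ := hrat σ hσ
      have hyσ := hyfix σ hσ
      refine apply_eq_of_root (hI σ hσ) ?_ hder hxroot hxres
      rw [map_cub, map_cub]
      have e2 : (σ : L →+* L) (A.subtype WA.a₂) = A.subtype WA.a₂ := h2
      have eb : (σ : L →+* L) (A.subtype b) = A.subtype b := by
        change σ ((b : A) : L) = ((b : A) : L)
        rw [hb]
        push_cast
        rw [map_sub, map_mul, h4, h1, hyσ]
      have ec : (σ : L →+* L) (A.subtype c) = A.subtype c := by
        change σ ((c : A) : L) = ((c : A) : L)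
        rw [hc]
        push_cast
        rw [map_sub, map_sub, map_mul, map_pow, h6, h3, hyσ]
      rw [e2, eb, ec]
  · -- lift `x`, solve the monic quadratic in `Y`
    obtain ⟨x, hx, hxfix⟩ := hsurj x'
    set b : A := WA.a₁ * x + WA.a₃ with hb
    set c : A := -(x ^ 3 + WA.a₂ * x ^ 2 + WA.a₄ * x + WA.a₆) with hc
    have hbr : residue A b = residue A WA.a₁ * x' + residue A WA.a₃ := by
      rw [hb, map_add, map_mul, hx]
    have hcr : residue A c = -(x' ^ 3 + residue A WA.a₂ * x' ^ 2 + residue A WA.a₄ * x' +
        residue A WA.a₆) := by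
      rw [hc, map_neg, map_add, map_add, map_add, map_mul, map_mul, map_pow, map_pow, hx]
    have hfm : (X ^ 2 + (C b * X + C c) : A[X]).Monic := monic_quad _ _
    have hroot : ((X ^ 2 + (C b * X + C c) : A[X]).map (residue A)).IsRoot y' := by
      rw [IsRoot, map_quad, eval_quad, hbr, hcr]
      linear_combination heq
    have hder : ((X ^ 2 + (C b * X + C c) : A[X]).map (residue A)).derivative.eval y' ≠ 0 := by
      rw [map_quad, eval_derivative_quad, hbr]
      intro h0
      apply hY
      linear_combination h0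
    obtain ⟨y, ⟨hyroot, hyres⟩, -⟩ := existsUnique_root A hfm hroot hder
    refine ⟨x, y, ?_, hx, hyres, ?_⟩
    · rw [WeierstrassCurve.Affine.equation_iff']
      have h1 := hyroot
      rw [IsRoot, eval_quad, hb, hc] at h1
      linear_combination h1
    · intro σ hσ
      refine ⟨hxfix σ hσ, ?_⟩
      obtain ⟨h1, h2, h3, h4, h6⟩ := hrat σ hσ
      have hxσ := hxfix σ hσ
      refine apply_eq_of_root (hI σ hσ) ?_ hder hyroot hyres
      rw [map_quad, map_quad]
      have eb : (σ : L →+* L) (A.subtype b) = A.subtype b := by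
        change σ ((b : A) : L) = ((b : A) : L)
        rw [hb]
        push_cast
        rw [map_add, map_mul, h1, h3, hxσ]
      have ec : (σ : L →+* L) (A.subtype c) = A.subtype c := by
        change σ ((c : A) : L) = ((c : A) : L)
        rw [hc]
        push_cast
        rw [map_neg, map_add, map_add, map_add, map_mul, map_mul, map_pow, map_pow, h2, h4, h6,
          hxσ]
      rw [eb, ec]

end Weierstrass

/-! ### nonsingularity is detected on the special fibre -/

section Nonsing

variable {R S : Type*} [CommRing R] [CommRing S] (φ : R →+* S)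

/-- a point of `W` whose image on `W.map φ` is nonsingular is nonsingular. -/
theorem nonsingular_of_map {W : WeierstrassCurve R} {x y : R} (he : W.toAffine.Equation x y)
    (h : (W.map φ).toAffine.Nonsingular (φ x) (φ y)) : W.toAffine.Nonsingular x y := by
  refine ⟨he, ?_⟩
  rcases h.2 with hX | hY
  · left
    intro h0
    apply hX
    rw [WeierstrassCurve.Affine.map_polynomialX, map_mapRingHom_evalEval, h0, map_zero]
  · right
    intro h0
    apply hY
    rw [WeierstrassCurve.Affine.map_polynomialY, map_mapRingHom_evalEval, h0, map_zero]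

end Nonsing

/-! ### (H4), (H5): the instance `ℚ̄`, `I = I_A` -/

section Qbar

open Fermat.Agent.Common_helper32 Fermat.Agent.GL.Local.InertiaField

variable (A : ValuationSubring Qb) {q : ℕ} (hq : q.Prime) (hA : (q : Qb) ∈ A.nonunits)

include hq hA in
/-- (U2) of GATE-L in residue-field form: the `I_A`-fixed elements of `A` surject onto the residue
field. -/
theorem exists_fixed_residue (α : ResidueField A) :
    ∃ b : A, residue A b = α ∧ ∀ σ ∈ A.inertiaSubgroupIn ℚ, σ (b : Qb) = b := by
  obtain ⟨a₀, ha₀⟩ := residue_surjective (R := A) α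
  obtain ⟨b, hb⟩ := exists_baseRing_sub_mem_nonunits A hq hA (a₀ : Qb) a₀.2
  refine ⟨⟨((b : inertiaField A) : Qb), b.2⟩, ?_, ?_⟩
  · rw [← ha₀]
    exact ((residue_eq_iff A).mpr hb).symm
  · intro σ hσ
    exact (mem_inertiaField_iff A _).mp (b : inertiaField A).2 σ hσ

include hq hA in
/-- **(H4)** every nonsingular point of the special fibre lifts to a point of `WA` with coordinates
in `A ∩ K₀`, `K₀` the inertia field; the lift is a nonsingular point of the generic fibre. -/
theorem exists_lift_inertiaField (WA : WeierstrassCurve A)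
    (hrat : (WA.a₁ : Qb) ∈ inertiaField A ∧ (WA.a₂ : Qb) ∈ inertiaField A ∧
      (WA.a₃ : Qb) ∈ inertiaField A ∧ (WA.a₄ : Qb) ∈ inertiaField A ∧
      (WA.a₆ : Qb) ∈ inertiaField A)
    {x' y' : ResidueField A} (h : (WA.map (residue A)).toAffine.Nonsingular x' y') :
    ∃ x y : A, WA.toAffine.Equation x y ∧
      (WA.map A.subtype).toAffine.Nonsingular (x : Qb) (y : Qb) ∧
      residue A x = x' ∧ residue A y = y' ∧
      (x : Qb) ∈ inertiaField A ∧ (y : Qb) ∈ inertiaField A := by
  obtain ⟨h1, h2, h3, h4, h6⟩ := hrat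
  obtain ⟨x, y, he, hx, hy, hfix⟩ := exists_lift_of_nonsingular (K := ℚ) A
    (A.inertiaSubgroupIn ℚ : Set GQ) (fun σ hσ => hσ) (exists_fixed_residue A hq hA) WA
    (fun σ hσ => ⟨(mem_inertiaField_iff A _).mp h1 σ hσ, (mem_inertiaField_iff A _).mp h2 σ hσ,
      (mem_inertiaField_iff A _).mp h3 σ hσ, (mem_inertiaField_iff A _).mp h4 σ hσ,
      (mem_inertiaField_iff A _).mp h6 σ hσ⟩) h
  refine ⟨x, y, he, ?_, hx, hy, ?_, ?_⟩
  · have hns : WA.toAffine.Nonsingular x y := by
      apply nonsingular_of_map (residue A) he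
      rw [hx, hy]
      exact h
    exact (WeierstrassCurve.Affine.map_nonsingular (W := WA) (f := A.subtype)
      Subtype.val_injective x y).mpr hns
  · exact (mem_inertiaField_iff A _).mpr fun σ hσ => (hfix σ hσ).1
  · exact (mem_inertiaField_iff A _).mpr fun σ hσ => (hfix σ hσ).2

include hq hA in
/-- **(H5)** the same for a curve with integer coefficients. -/
theorem exists_lift_inertiaField_int (W : WeierstrassCurve ℤ)
    {x' y' : ResidueField A}
    (h : ((W.map (Int.castRingHom A)).map (residue A)).toAffine.Nonsingular x' y') :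
    ∃ x y : A, (W.map (Int.castRingHom A)).toAffine.Equation x y ∧
      ((W.map (Int.castRingHom A)).map A.subtype).toAffine.Nonsingular (x : Qb) (y : Qb) ∧
      residue A x = x' ∧ residue A y = y' ∧
      (x : Qb) ∈ inertiaField A ∧ (y : Qb) ∈ inertiaField A := by
  refine exists_lift_inertiaField A hq hA (W.map (Int.castRingHom A)) ?_ h
  simp only [WeierstrassCurve.map_a₁, WeierstrassCurve.map_a₂, WeierstrassCurve.map_a₃,
    WeierstrassCurve.map_a₄, WeierstrassCurve.map_a₆, eq_intCast]
  push_cast
  exact ⟨intCast_mem _ _, intCast_mem _ _, intCast_mem _ _, intCast_mem _ _, intCast_mem _ _⟩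

end Qbar

end Fermat.Agent.GF.EFrame.Hensel
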