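/-
GATE-F / E-side, node [E-HLIFT] of helper75 5872 (b) (helper17): AFFINE SPECIAL PLACES LIFT TO
INTEGRAL AFFINE PLACES WITH INERTIA-FIXED COORDINATES.

Frame of `GF/EFrame/Model.lean` over `ℚ̄`: `A` a valuation subring of `ℚ̄` over a prime `q`,
`WA : WeierstrassCurve.Affine A` with coefficients in the inertia field, good reduction
(`(Ek A WA).Δ ≠ 0`), Weierstrass dictionaries `dF`, `dT` (`GF/EFrame/FixPl.lean`) on both fibres as
VARIABLES, and the existence binder `hex` (every point of `EK` is the `(t, y)`-value of an affine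
place).

* `equation_of_values` : (generic, any field) the `(t, y)`-values of a place of the function
  field of a Weierstrass curve satisfy the Weierstrass equation;
* **`exists_lift_place`** : for every `Q ≠ dT.Pinf` there are `P ≠ dF.Pinf` and `a b : A` with
  `a, b ∈ inertiaField A`, `P ↦ (a, b)` under `(tE, yE)` and `Q ↦ (ā, b̄)` under `(red tE, red yE)`
  — the value half of the binder `hlift` of `galFrameW`;
* `exists_lift_place_int` : the same for `WA = W.map (Int.castRingHom A)`.

Steps: values `(x', y')` of `Q` (degree one) — Weierstrass equation on `Ek` by `equation_gen` —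
nonsingular since `Δ ≠ 0` — helper62's Hensel lift (H4) to `A ∩ K₀` — `hex`.
-/
import Mathlib
import Fermat.Agent.GF.EFrame.Model
import Fermat.Agent.GF.EFrame.Generic
import Fermat.Agent.GF.EFrame.FixPl
import Fermat.Agent.GF.EFrame.Hensel

set_option autoImplicit false
set_option linter.unusedSectionVars false

noncomputable section

open Polynomial AlgebraicCurve WeierstrassCurve IsLocalRing

namespace Fermat.Agent.GF.EFrame.HLift

open Fermat.Agent.GJ.J1 Fermat.Agent.GH Fermat.Agent.GH.Disc Fermat.Agent.GF.EFrame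
  Fermat.Agent.Common_helper32 Fermat.Agent.GL.Local.InertiaField

/-! ### The values of a place satisfy the Weierstrass equation -/

section Generic

variable {K : Type*} [Field K] (E : WeierstrassCurve.Affine K)

/-- **the `(x, y)`-values of a place of the function field lie on the curve.** -/
theorem equation_of_values {v : Place K E.FunctionField} {a b : K}
    (ha : ValueAt v (genX E) a) (hb : ValueAt v (genY E) b) : E.Equation a b := by
  have heq := equation_gen E
  rw [Affine.equation_iff] at heq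
  have hc : ∀ c : K, ValueAt v (algebraMap K E.FunctionField c) c := fun c => valueAt_const v c
  have hL : ValueAt v (genY E ^ 2 + algebraMap K E.FunctionField E.a₁ * genX E * genY E +
      algebraMap K E.FunctionField E.a₃ * genY E) (b ^ 2 + E.a₁ * a * b + E.a₃ * b) :=
    valueAt_add (valueAt_add (valueAt_pow hb 2) (valueAt_mul (valueAt_mul (hc _) ha) hb))
      (valueAt_mul (hc _) hb)
  have hR : ValueAt v (genX E ^ 3 + algebraMap K E.FunctionField E.a₂ * genX E ^ 2 +
      algebraMap K E.FunctionField E.a₄ * genX E + algebraMap K E.FunctionField E.a₆)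
      (a ^ 3 + E.a₂ * a ^ 2 + E.a₄ * a + E.a₆) :=
    valueAt_add (valueAt_add (valueAt_add (valueAt_pow ha 3) (valueAt_mul (hc _) (valueAt_pow ha 2)))
      (valueAt_mul (hc _) ha)) (hc _)
  have heq' : genY E ^ 2 + algebraMap K E.FunctionField E.a₁ * genX E * genY E +
      algebraMap K E.FunctionField E.a₃ * genY E =
      genX E ^ 3 + algebraMap K E.FunctionField E.a₂ * genX E ^ 2 +
      algebraMap K E.FunctionField E.a₄ * genX E + algebraMap K E.FunctionField E.a₆ := heq
  rw [heq'] at hL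
  rw [Affine.equation_iff]
  exact valueAt_unique hL hR

end Generic

/-! ### The lifting -/

section Lift

variable (A : ValuationSubring Qb) (WA : WeierstrassCurve.Affine A)
variable (dF : WDict Qb (tE A WA) (yE A WA))
variable (dT : WDict (kA A) ((redDataE A WA).red ⟨tE A WA, tE_mem_Rw A WA⟩)
  ((redDataE A WA).red ⟨yE A WA, yE_mem_Rw A WA⟩))

/-- **[E-HLIFT]**: every affine place of the special fibre is the reduction-in-values of an
integral affine place of the generic fibre whose coordinates lie in the inertia field. -/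
theorem exists_lift_place {q : ℕ} (hq : q.Prime) (hA : (q : Qb) ∈ A.nonunits)
    (hrat : (WA.a₁ : Qb) ∈ inertiaField A ∧ (WA.a₂ : Qb) ∈ inertiaField A ∧
      (WA.a₃ : Qb) ∈ inertiaField A ∧ (WA.a₄ : Qb) ∈ inertiaField A ∧
      (WA.a₆ : Qb) ∈ inertiaField A)
    (hΔ : (Ek A WA).Δ ≠ 0)
    (hdeg : ∀ Q : Place (kA A) (FtE A WA), Q.deg = 1)
    (hex : ∀ x y : Qb, (EK A WA).Equation x y →
      ∃ P : Place Qb (FE A WA), P ≠ dF.Pinf ∧ ValueAt P (tE A WA) x ∧ ValueAt P (yE A WA) y)
    (Q : Place (kA A) (FtE A WA)) (hQ : Q ≠ dT.Pinf) :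
    ∃ P : Place Qb (FE A WA), P ≠ dF.Pinf ∧ ∃ a b : A,
      (a : Qb) ∈ inertiaField A ∧ (b : Qb) ∈ inertiaField A ∧
      ValueAt P (tE A WA) (a : Qb) ∧ ValueAt P (yE A WA) (b : Qb) ∧
      ValueAt Q ((redDataE A WA).red ⟨tE A WA, tE_mem_Rw A WA⟩) (residue A a) ∧
      ValueAt Q ((redDataE A WA).red ⟨yE A WA, yE_mem_Rw A WA⟩) (residue A b) := by
  obtain ⟨hQt, hQy⟩ := dT.reg Q hQ
  obtain ⟨x', hx'⟩ := exists_valueAt (hdeg Q) hQt
  obtain ⟨y', hy'⟩ := exists_valueAt (hdeg Q) hQy
  have hx'' : ValueAt Q (genX (Ek A WA)) x' := by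
    have h := hx'
    rw [red_tE] at h
    exact h
  have hy'' : ValueAt Q (genY (Ek A WA)) y' := by
    have h := hy'
    rw [red_yE] at h
    exact h
  have heq : (Ek A WA).Equation x' y' := equation_of_values (Ek A WA) hx'' hy''
  have hns : (Ek A WA).Nonsingular x' y' :=
    ((Ek A WA).equation_iff_nonsingular_of_Δ_ne_zero hΔ).1 heq
  obtain ⟨x, y, -, hnsK, hx, hy, hxK, hyK⟩ :=
    Hensel.exists_lift_inertiaField A hq hA WA hrat hns
  obtain ⟨P, hP, hPt, hPy⟩ := hex (x : Qb) (y : Qb) hnsK.1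
  refine ⟨P, hP, x, y, hxK, hyK, hPt, hPy, ?_, ?_⟩
  · rw [hx]; exact hx'
  · rw [hy]; exact hy'

/-- the same for a curve with integer coefficients. -/
theorem exists_lift_place_int {q : ℕ} (hq : q.Prime) (hA : (q : Qb) ∈ A.nonunits)
    (W : WeierstrassCurve ℤ) (hW : WA = W.map (Int.castRingHom A))
    (hΔ : (Ek A WA).Δ ≠ 0)
    (hdeg : ∀ Q : Place (kA A) (FtE A WA), Q.deg = 1)
    (hex : ∀ x y : Qb, (EK A WA).Equation x y →
      ∃ P : Place Qb (FE A WA), P ≠ dF.Pinf ∧ ValueAt P (tE A WA) x ∧ ValueAt P (yE A WA) y)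
    (Q : Place (kA A) (FtE A WA)) (hQ : Q ≠ dT.Pinf) :
    ∃ P : Place Qb (FE A WA), P ≠ dF.Pinf ∧ ∃ a b : A,
      (a : Qb) ∈ inertiaField A ∧ (b : Qb) ∈ inertiaField A ∧
      ValueAt P (tE A WA) (a : Qb) ∧ ValueAt P (yE A WA) (b : Qb) ∧
      ValueAt Q ((redDataE A WA).red ⟨tE A WA, tE_mem_Rw A WA⟩) (residue A a) ∧
      ValueAt Q ((redDataE A WA).red ⟨yE A WA, yE_mem_Rw A WA⟩) (residue A b) := by
  refine exists_lift_place A WA dF dT hq hA ?_ hΔ hdeg hex Q hQ
  subst hW
  simp only [WeierstrassCurve.map_a₁, WeierstrassCurve.map_a₂, WeierstrassCurve.map_a₃,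
    WeierstrassCurve.map_a₄, WeierstrassCurve.map_a₆, eq_intCast]
  push_cast
  exact ⟨intCast_mem _ _, intCast_mem _ _, intCast_mem _ _, intCast_mem _ _, intCast_mem _ _⟩

end Lift

end Fermat.Agent.GF.EFrame.HLift
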