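/-
GATE-F / E-side, node GF-EFIXPL, file 5 (helper75): THE WEIERSTRASS DICTIONARY of an elliptic
function field (from helper85 `GF/EPoints/{Infty,Places}`), and its transport.

`k` algebraically closed, `W` elliptic, `F = W.FunctionField`.

* `valueAt_placeAt_genX`, `valueAt_placeAt_genY` : the place of the point `(x, y)` has
  `(t, y)`-values `(x, y)`;
* `wDictFF W : WDict k (genX W) (genY W)` with `Pinf = placeInfty` (by `rfl`);
* `exists_place_of_equation` : the [exist] binder of helper17's `HLift.exists_lift_place`;
* `WDict.congr` : transport along equalities of the coordinate functions (`Pinf` unchanged).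
-/
import Mathlib
import Fermat.Agent.GF.EFrame.FixPl
import Fermat.Agent.GF.EFrame.Generic
import Fermat.Agent.GF.EPoints.Places

set_option autoImplicit false
set_option linter.unusedSectionVars false

noncomputable section

open AlgebraicCurve Polynomial WeierstrassCurve

namespace Fermat.Agent.GF.EFrame

open Fermat.Agent.S24 Fermat.Agent.GH Fermat.Agent.GH.Disc Fermat.Agent.GF.EPoints
  Fermat.Agent.S24_helper6

section Congr

variable {K F : Type*} [Field K] [Field F] [Algebra K F] {t y t' y' : F}

/-- transport of a Weierstrass dictionary along equalities of the coordinates. -/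
def WDict.congr (d : WDict K t y) (ht : t = t') (hy : y = y') : WDict K t' y' where
  Pinf := d.Pinf
  ord_t := ht ▸ d.ord_t
  ord_y := hy ▸ d.ord_y
  reg := by subst ht; subst hy; exact d.reg
  uniq := by subst ht; subst hy; exact d.uniq

@[simp] theorem WDict.congr_Pinf (d : WDict K t y) (ht : t = t') (hy : y = y') :
    (d.congr ht hy).Pinf = d.Pinf := rfl

end Congr

section FF

variable {k : Type} [Field k] [IsAlgClosed k] (W : WeierstrassCurve.Affine k) [W.IsElliptic]

theorem genX_eq_tF : genX W = tF W W.FunctionField := rfl

theorem genY_eq_yF : genY W = yF W W.FunctionField := rfl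

/-- the value of `t` at the place of `(x, y)` is `x`. -/
theorem valueAt_placeAt_genX {x y : k} (h : W.Equation x y) :
    ValueAt (placeAt W W.FunctionField h) (genX W) x := by
  rw [valueAt_iff_ord]
  have he : genX W - algebraMap k W.FunctionField x =
      algebraMap W.CoordinateRing W.FunctionField (Affine.CoordinateRing.XClass W x) := by
    rw [Affine.CoordinateRing.XClass, genX, algebraMap_const W W.FunctionField x, ← map_sub,
      ← map_sub, ← map_sub]
  by_cases h0 : Affine.CoordinateRing.XClass W x = 0
  · left
    rw [he, h0, map_zero]
  · right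
    rw [he]
    refine (placeOfPrime_ord_algebraMap_pos_iff (K := k) (F := W.FunctionField)
      (pointPrime W h) h0).2 ?_
    rw [pointPrime_asIdeal, Affine.CoordinateRing.XYIdeal]
    exact Ideal.subset_span (Set.mem_insert _ _)

/-- the value of `y` at the place of `(x, y)` is `y`. -/
theorem valueAt_placeAt_genY {x y : k} (h : W.Equation x y) :
    ValueAt (placeAt W W.FunctionField h) (genY W) y := by
  rw [valueAt_iff_ord]
  have he : genY W - algebraMap k W.FunctionField y =
      algebraMap W.CoordinateRing W.FunctionField (Affine.CoordinateRing.YClass W (C y)) := by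
    rw [Affine.CoordinateRing.YClass, genY, algebraMap_const W W.FunctionField y, ← map_sub,
      ← map_sub]
  by_cases h0 : Affine.CoordinateRing.YClass W (C y) = 0
  · left
    rw [he, h0, map_zero]
  · right
    rw [he]
    refine (placeOfPrime_ord_algebraMap_pos_iff (K := k) (F := W.FunctionField)
      (pointPrime W h) h0).2 ?_
    rw [pointPrime_asIdeal, Affine.CoordinateRing.XYIdeal]
    exact Ideal.subset_span (Set.mem_insert_of_mem _ (Set.mem_singleton _))

/-- **the Weierstrass dictionary of an elliptic function field.** -/
def wDictFF : WDict k (genX W) (genY W) where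
  Pinf := placeInfty W W.FunctionField
  ord_t := ord_placeInfty_tF W W.FunctionField
  ord_y := ord_placeInfty_yF W W.FunctionField
  reg v hv :=
    ⟨tF_mem_of_ne_placeInfty W W.FunctionField hv,
      yF_mem_of_tF_mem W W.FunctionField v.toValuationSubring v.algebraMap_mem'
        (tF_mem_of_ne_placeInfty W W.FunctionField hv)⟩
  uniq v w hv hw a b h1 h2 h3 h4 := by
    obtain ⟨x, y, h, rfl⟩ := exists_placeAt_eq W W.FunctionField v hv
    obtain ⟨x', y', h', rfl⟩ := exists_placeAt_eq W W.FunctionField w hw
    have e1 : a = x := valueAt_unique h1 (valueAt_placeAt_genX W h)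
    have e2 : b = y := valueAt_unique h2 (valueAt_placeAt_genY W h)
    have e3 : a = x' := valueAt_unique h3 (valueAt_placeAt_genX W h')
    have e4 : b = y' := valueAt_unique h4 (valueAt_placeAt_genY W h')
    rw [placeAt_eq_iff]
    exact ⟨e1.symm.trans e3, e2.symm.trans e4⟩

@[simp] theorem wDictFF_Pinf : (wDictFF W).Pinf = placeInfty W W.FunctionField := rfl

/-- every point of the curve is the centre of an affine place. -/
theorem exists_place_of_equation {x y : k} (h : W.Equation x y) :
    ∃ P : Place k W.FunctionField, P ≠ (wDictFF W).Pinf ∧ ValueAt P (genX W) x ∧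
      ValueAt P (genY W) y :=
  ⟨placeAt W W.FunctionField h, placeAt_ne_placeInfty W W.FunctionField h,
    valueAt_placeAt_genX W h, valueAt_placeAt_genY W h⟩

end FF

end Fermat.Agent.GF.EFrame
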