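/-
GATE-F / E-side, node GF-EFIXPL, file 6 (helper75): THE GAL CONTRACT OF THE WEIERSTRASS FRAME,
ALL BINDERS DISCHARGED.

`A` a valuation subring of `ℚ̄` over a prime `q ≠ 2`, `WA` a Weierstrass curve over `A` with
rational coefficients and GOOD REDUCTION (`(Ek A WA).Δ ≠ 0`).  Then

* `lSpaceHypE_good : LSpaceHyp (redDataE A WA) 1 1`  (helper45's Riemann–Roch on both fibres),
* `galFrameE_good  : GalFrame H 1 D_A I_A` for every `H : LSpaceHyp (redDataE A WA) 1 1`, w.r.t.
  the action `pic0ActionE hrat` of `G_ℚ` on `Pic0 ℚ̄ (FE A WA)`,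
* the integer forms `lSpaceHypE_int`, `galFrameE_int` for `WA = W.map (Int.castRingHom A)`,
  `W : WeierstrassCurve ℤ`, `¬ q ∣ W.Δ`.

Inputs: helper85 `GF/EPoints` (places), helper45 `GF/EGenus/Inst` (genus one), helper62
`GF/EFrame/Hensel` + helper17 `GF/EFrame/{GalERed,HLift}` (Galois action, Hensel lifts).
-/
import Mathlib
import Fermat.Agent.GF.EFrame.GalFrameE
import Fermat.Agent.GF.EFrame.WDictInst
import Fermat.Agent.GF.EFrame.HLift
import Fermat.Agent.GF.EGenus.Inst
import Fermat.Agent.GJ.J1.ResidueAlgClosed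

set_option autoImplicit false
set_option linter.unusedSectionVars false

noncomputable section

open AlgebraicCurve WeierstrassCurve IsLocalRing

namespace Fermat.Agent.GF.EFrame

open Fermat.Agent.RRh45 Fermat.Agent.GJ.S37MinDiv Fermat.Agent.GJ.J1 Fermat.Agent.GJ.S37LSpace
  Fermat.Agent.GJ.S37ROfSurj Fermat.Agent.S24 Fermat.Agent.GH Fermat.Agent.GH.Gal
  Fermat.Agent.GH.Disc Fermat.Agent.GF.EFrame.GalERed Fermat.Agent.Common_helper32
  Fermat.Agent.GL.Local.InertiaField

/-! ### the standing instances of a Weierstrass function field -/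

instance instFiniteResiduesFF {K : Type*} [Field K] (E : WeierstrassCurve.Affine K) :
    FiniteResidues K E.FunctionField := finiteResidues_ff E

instance instHasPrincipalDivisorsFF {K : Type*} [Field K] (E : WeierstrassCurve.Affine K) :
    HasPrincipalDivisors K E.FunctionField := hasPrincipalDivisors_ff E

instance instNonemptyPlaceFF {K : Type*} [Field K] (E : WeierstrassCurve.Affine K) :
    Nonempty (Place K E.FunctionField) := nonempty_place_ff E

instance instIsAlgClosedKA {K : Type} [Field K] [IsAlgClosed K] (A : ValuationSubring K) :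
    IsAlgClosed (kA A) := Fermat.Agent.GJ.ResidueAlgClosed.isAlgClosed_residueField A

/-! ### the residue characteristic -/

section Char

variable {K : Type} [Field K] (A : ValuationSubring K) {q : ℕ}

/-- the residue field of a valuation ring over `q` has characteristic `q`. -/
theorem charP_kA (hq : q.Prime) (hA : (q : K) ∈ A.nonunits) : CharP (kA A) q := by
  have h1 : ((q : ℕ) : kA A) = 0 := by
    have h2 : residue A ((q : ℕ) : A) = 0 := by
      rw [residue_eq_zero_iff, mem_maximalIdeal, mem_nonunits_iff]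
      intro hu
      have h3 : (((q : ℕ) : A) : K) ∈ A.nonunits := by
        rw [show (((q : ℕ) : A) : K) = (q : K) from by simp]
        exact hA
      rw [ValuationSubring.mem_nonunits_iff_exists_mem_maximalIdeal] at h3
      obtain ⟨hmem, hmax⟩ := h3
      exact ((mem_maximalIdeal _).1 hmax) hu
    rwa [map_natCast] at h2
  have h2 := CharP.ringChar_of_prime_eq_zero hq h1
  have h3 : CharP (kA A) (ringChar (kA A)) := ringChar.charP _
  rwa [h2] at h3

theorem two_ne_zero_kA (hq : q.Prime) (hA : (q : K) ∈ A.nonunits) (hq2 : q ≠ 2) :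
    (2 : kA A) ≠ 0 := by
  have := charP_kA A hq hA
  intro h
  have h1 : ((2 : ℕ) : kA A) = 0 := by exact_mod_cast h
  rw [CharP.cast_eq_zero_iff (kA A) q] at h1
  have := (Nat.prime_dvd_prime_iff_eq hq Nat.prime_two).1 h1
  exact hq2 this

end Char

/-! ### good reduction over `ℚ̄` -/

section Good

variable (A : ValuationSubring Qb) (WA : WeierstrassCurve.Affine A) {q : ℕ}

/-- the discriminant of the generic fibre does not vanish when that of the special fibre does
not. -/
theorem Δ_EK_ne_zero (hΔ : (Ek A WA).Δ ≠ 0) : (EK A WA).Δ ≠ 0 := by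
  intro h
  apply hΔ
  rw [WeierstrassCurve.map_Δ] at h ⊢
  have h0 : WA.Δ = 0 := Subtype.ext h
  rw [h0, map_zero]

include q in
/-- **Riemann–Roch on both fibres: the L-space hypotheses of a good Weierstrass frame.** -/
theorem lSpaceHypE_good (hq : q.Prime) (hA : (q : Qb) ∈ A.nonunits) (hq2 : q ≠ 2)
    (hΔ : (Ek A WA).Δ ≠ 0) : LSpaceHyp (redDataE A WA) 1 1 :=
  lSpaceHypE A WA
    (fun D hD => Fermat.Agent.GF.EGenus.finrank_eq_degree_functionField (EK A WA) two_ne_zero
      (Δ_EK_ne_zero A WA hΔ) D hD)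
    (fun D hD => Fermat.Agent.GF.EGenus.finrank_eq_degree_functionField (Ek A WA)
      (two_ne_zero_kA A hq hA hq2) hΔ D hD)

variable {A WA}

/-- **the GAL contract of a good Weierstrass frame**, all binders discharged. -/
def galFrameE_good (hq : q.Prime) (hA : (q : Qb) ∈ A.nonunits) (hq2 : q ≠ 2)
    (hΔ : (Ek A WA).Δ ≠ 0) (hrat : HRat A WA)
    (H : LSpaceHyp (redDataE A WA) 1 1) :
    letI := pic0ActionE hrat
    GalFrame H 1 (A.decompositionSubgroup ℚ) (A.inertiaSubgroupIn ℚ) :=
  haveI : (EK A WA).IsElliptic := ⟨isUnit_iff_ne_zero.2 (Δ_EK_ne_zero A WA hΔ)⟩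
  haveI : (Ek A WA).IsElliptic := ⟨isUnit_iff_ne_zero.2 hΔ⟩
  let dF : WDict Qb (tE A WA) (yE A WA) := wDictFF (EK A WA)
  let dT : WDict (kA A) ((redDataE A WA).red ⟨tE A WA, tE_mem_Rw A WA⟩)
      ((redDataE A WA).red ⟨yE A WA, yE_mem_Rw A WA⟩) :=
    (wDictFF (Ek A WA)).congr (red_tE A WA).symm (red_yE A WA).symm
  galFrameE hrat
    (fun D hD => Fermat.Agent.GF.EGenus.finrank_eq_degree_functionField (EK A WA) two_ne_zero
      (Δ_EK_ne_zero A WA hΔ) D hD)
    (fun D hD => Fermat.Agent.GF.EGenus.finrank_eq_degree_functionField (Ek A WA)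
      (two_ne_zero_kA A hq hA hq2) hΔ D hD)
    dF dT
    (fun Q hQ => by
      have hratI : (WA.a₁ : Qb) ∈ inertiaField A ∧ (WA.a₂ : Qb) ∈ inertiaField A ∧
          (WA.a₃ : Qb) ∈ inertiaField A ∧ (WA.a₄ : Qb) ∈ inertiaField A ∧
          (WA.a₆ : Qb) ∈ inertiaField A := by
        have key : ∀ σ : GQ, σ (WA.a₁ : Qb) = WA.a₁ ∧ σ (WA.a₂ : Qb) = WA.a₂ ∧
            σ (WA.a₃ : Qb) = WA.a₃ ∧ σ (WA.a₄ : Qb) = WA.a₄ ∧ σ (WA.a₆ : Qb) = WA.a₆ := by
          intro σ
          have h := hrat σ
          exact ⟨congrArg WeierstrassCurve.a₁ h, congrArg WeierstrassCurve.a₂ h,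
            congrArg WeierstrassCurve.a₃ h, congrArg WeierstrassCurve.a₄ h,
            congrArg WeierstrassCurve.a₆ h⟩
        exact ⟨(mem_inertiaField_iff A _).mpr fun σ _ => (key σ).1,
          (mem_inertiaField_iff A _).mpr fun σ _ => (key σ).2.1,
          (mem_inertiaField_iff A _).mpr fun σ _ => (key σ).2.2.1,
          (mem_inertiaField_iff A _).mpr fun σ _ => (key σ).2.2.2.1,
          (mem_inertiaField_iff A _).mpr fun σ _ => (key σ).2.2.2.2⟩
      obtain ⟨P, hP, a, b, ha, hb, h1, h2, h3, h4⟩ :=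
        HLift.exists_lift_place A WA dF dT hq hA hratI hΔ
          (fun Q => PlaceB.deg_eq_one Q (ttE A WA))
          (fun x y h => exists_place_of_equation (EK A WA) h) Q hQ
      exact ⟨P, hP, a, b, (mem_inertiaField_iff A _).mp ha, (mem_inertiaField_iff A _).mp hb,
        h1, h2, h3, h4⟩)

end Good

/-! ### integer models -/

section Int

variable (A : ValuationSubring Qb) {q : ℕ} (W : WeierstrassCurve ℤ)

/-- the Weierstrass curve over `A` of an integral Weierstrass equation. -/
abbrev WAint : WeierstrassCurve.Affine A := W.map (Int.castRingHom A)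

theorem hrat_int : HRat A (WAint A W) := hrat_of_int A _ W rfl

/-- good reduction of an integer model at a prime not dividing the discriminant. -/
theorem Δ_Ek_int_ne_zero (hq : q.Prime) (hA : (q : Qb) ∈ A.nonunits) (hΔ : ¬ (q : ℤ) ∣ W.Δ) :
    (Ek A (WAint A W)).Δ ≠ 0 := by
  have := charP_kA A hq hA
  rw [WeierstrassCurve.map_Δ, WeierstrassCurve.map_Δ, eq_intCast, map_intCast, Ne,
    CharP.intCast_eq_zero_iff (kA A) q]
  exact hΔ

/-- **the L-space hypotheses of the Weierstrass frame of an integer model with good reduction at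
`q ≠ 2`.** -/
theorem lSpaceHypE_int (hq : q.Prime) (hA : (q : Qb) ∈ A.nonunits) (hq2 : q ≠ 2)
    (hΔ : ¬ (q : ℤ) ∣ W.Δ) : LSpaceHyp (redDataE A (WAint A W)) 1 1 :=
  lSpaceHypE_good A (WAint A W) hq hA hq2 (Δ_Ek_int_ne_zero A W hq hA hΔ)

/-- **the GAL contract of the Weierstrass frame of an integer model with good reduction at
`q ≠ 2`.** -/
def galFrameE_int (hq : q.Prime) (hA : (q : Qb) ∈ A.nonunits) (hq2 : q ≠ 2)
    (hΔ : ¬ (q : ℤ) ∣ W.Δ) (H : LSpaceHyp (redDataE A (WAint A W)) 1 1) :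
    letI := pic0ActionE (hrat_int A W)
    GalFrame H 1 (A.decompositionSubgroup ℚ) (A.inertiaSubgroupIn ℚ) :=
  galFrameE_good hq hA hq2 (Δ_Ek_int_ne_zero A W hq hA hΔ) (hrat_int A W) H

end Int

end Fermat.Agent.GF.EFrame
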