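/-
GATE-F / E-side, node GF-EFINORD, file 2 (helper75): **a finite flat order on the FROZEN `E[p]`
at a good prime `p ≠ 2`.**

`W : WeierstrassCurve ℤ`, `p` an odd prime with `¬ p ∣ W.Δ`.  The frozen residual representation
is `E[p] = Submodule.torsionBy ℤ ((W.map (Int.castRingHom ℚ))⁄ℚ̄).Point p` with the action
`σ • P = Point.map σ P` (`Def_FLTPrelim_GaloisRep`).  We embed it `G_ℚ`-equivariantly into
`Pic⁰ ℚ̄ (FE A WA)`, `WA = W.map (Int.castRingHom A)`, `A` a place of `ℚ̄` over `p`
(helper85 `pointEquiv`, `pointEquiv_smul_some`; `castPoint` for the propositional equality of the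
two generic fibres), and apply the generic CORE chain (helper57 `hasFinOrder_of_lSpaceHyp`) to the
GAL contract `galFrameE_int`.

**`hasFinOrder_torsion W hp2 hgood : HasFinOrder p (frozen action on E[p])`.**
-/
import Mathlib
import Fermat.Agent.GF.EFrame.GalFrameEInst
import Fermat.Agent.GF.EFrame.CoreMain
import Fermat.Agent.GF.EFrame.FinOrdLevel
import Fermat.Agent.GF.EPoints.Torsion

set_option autoImplicit false
set_option linter.unusedSectionVars false

noncomputable section

open AlgebraicCurve WeierstrassCurve IsLocalRing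
open scoped WeierstrassCurve.Affine

namespace Fermat.Agent.GF.EFrame

open Fermat.Agent.RRh45 Fermat.Agent.GJ.S37MinDiv Fermat.Agent.GJ.J1 Fermat.Agent.GJ.S37LSpace
  Fermat.Agent.GJ.S37ROfSurj Fermat.Agent.S24 Fermat.Agent.GH Fermat.Agent.GH.Gal
  Fermat.Agent.GH.Closure Fermat.Agent.GF.EFrame.GalERed Fermat.Agent.GF.EPoints
  WeierstrassCurve.Affine.Point

local notation "Qb" => AlgebraicClosure ℚ
local notation "GQ" => (AlgebraicClosure ℚ ≃ₐ[ℚ] AlgebraicClosure ℚ)

/-- the frozen generic fibre. -/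
abbrev Efrozen (W : WeierstrassCurve ℤ) : WeierstrassCurve.Affine Qb :=
  (W.map (Int.castRingHom ℚ))⁄Qb

/-- the frozen generic fibre is the generic fibre of the integral model over any `A`. -/
theorem Efrozen_eq (A : ValuationSubring Qb) (W : WeierstrassCurve ℤ) :
    Efrozen W = EK A (WAint A W) := by
  show ((W.map (Int.castRingHom ℚ)).baseChange Qb) = (W.map (Int.castRingHom A)).map A.subtype
  rw [WeierstrassCurve.baseChange, WeierstrassCurve.map_map, WeierstrassCurve.map_map]
  congr 1

section Main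

variable (A : ValuationSubring Qb) (W : WeierstrassCurve ℤ) {p : ℕ} [Fact p.Prime]

/-- the embedding of the frozen curve into `Pic⁰` of the Weierstrass frame. -/
def jPoint [(EK A (WAint A W)).IsElliptic] : (Efrozen W).Point →+ Pic0 Qb (FE A (WAint A W)) :=
  (pointEquiv (EK A (WAint A W)) (FE A (WAint A W))).toAddMonoidHom.comp
    (castPoint (Efrozen_eq A W)).toAddMonoidHom

theorem jPoint_injective [(EK A (WAint A W)).IsElliptic] : Function.Injective (jPoint A W) :=
  (pointEquiv (EK A (WAint A W)) (FE A (WAint A W))).injective.comp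
    (castPoint (Efrozen_eq A W)).injective

/-- **equivariance** of the embedding. -/
theorem jPoint_smul [(EK A (WAint A W)).IsElliptic] (σ : GQ) (P : (Efrozen W).Point) :
    jPoint A W (σ • P) = galE (hrat_int A W) σ • jPoint A W P := by
  rcases P with _ | ⟨x, y, h⟩
  · have h0 : (Affine.Point.zero : (Efrozen W).Point) = 0 := rfl
    have h1 : σ • (0 : (Efrozen W).Point) = 0 := smul_zero (A := (Efrozen W).Point) σ
    rw [h0, h1, _root_.map_zero]
    exact (smul_zero (A := Pic0 Qb (FE A (WAint A W))) (galE (hrat_int A W) σ)).symm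
  · rw [Affine.Point.algEquiv_smul_def, Affine.Point.map_some]
    show pointEquiv _ _ (castPoint (Efrozen_eq A W) _) =
      galE (hrat_int A W) σ • pointEquiv _ _ (castPoint (Efrozen_eq A W) _)
    rw [castPoint_some, castPoint_some]
    exact pointEquiv_smul_some (EK A (WAint A W)) (galE (hrat_int A W) σ)
      (galE_smul_tE (hrat_int A W) σ) (galE_smul_yE (hrat_int A W) σ) _ rfl rfl _

/-- the frozen action on `E[p]`, as additive endomorphisms. -/
def actTorsion (n : ℕ) (σ : GQ) :
    Submodule.torsionBy ℤ (Efrozen W).Point (n : ℤ) →+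
      Submodule.torsionBy ℤ (Efrozen W).Point (n : ℤ) :=
  DistribSMul.toAddMonoidHom _ σ

theorem actTorsion_apply (n : ℕ) (σ : GQ)
    (P : Submodule.torsionBy ℤ (Efrozen W).Point (n : ℤ)) : actTorsion W n σ P = σ • P := rfl

/-- **a finite flat order on the frozen `E[p]`**, given a place over `p`. -/
theorem hasFinOrder_torsion_of_place (hp2 : p ≠ 2) (hgood : ¬ (p : ℤ) ∣ W.Δ)
    (hA : (p : Qb) ∈ A.nonunits) : HasFinOrder p (actTorsion W p) := by
  have hp : p.Prime := Fact.out
  have hΔk := Δ_Ek_int_ne_zero A W hp hA hgood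
  have hΔK := Δ_EK_ne_zero A (WAint A W) hΔk
  have : (EK A (WAint A W)).IsElliptic := ⟨isUnit_iff_ne_zero.2 hΔK⟩
  letI := pic0ActionE (hrat_int A W)
  have H := lSpaceHypE_int A W hp hA hp2 hgood
  have G := galFrameE_int A W hp hA hp2 hgood H
  have hM : ∀ σ : GQ, ∀ x ∈ Pic0.torsion Qb (FE A (WAint A W)) p,
      σ • x ∈ Pic0.torsion Qb (FE A (WAint A W)) p :=
    fun σ x hx => SemilinearAut.smul_mem_torsion (galE (hrat_int A W) σ) hx
  have hfinE : Finite (Submodule.torsionBy ℤ (EK A (WAint A W)).Point (p : ℤ)) :=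
    Fermat.Agent.GE.Tors.finite_torsionBy (W := EK A (WAint A W)) hΔK p hp.one_le
  have : Finite (Pic0.torsion Qb (FE A (WAint A W)) p) :=
    Finite.of_equiv _ (torsionEquiv (EK A (WAint A W)) (FE A (WAint A W)) p).toEquiv
  have hlev : ∃ U : Subgroup GQ, IsOpen (U : Set GQ) ∧ ∀ σ ∈ U,
      ∀ x : Pic0.torsion Qb (FE A (WAint A W)) p, actM hM σ x = x := by
    obtain ⟨U, hU, hfix⟩ := exists_level_torsion (EK A (WAint A W)) hΔK p hp.one_le
    refine ⟨U, hU, fun σ hσ x => Subtype.ext ?_⟩
    show galE (hrat_int A W) σ • (x : Pic0 Qb (FE A (WAint A W))) = x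
    obtain ⟨P, hP⟩ := (pointEquiv (EK A (WAint A W)) (FE A (WAint A W))).surjective x.1
    have hPt : (p : ℤ) • P = 0 :=
      (pointEquiv_mem_torsion_iff (EK A (WAint A W)) (FE A (WAint A W)) p P).1 (by
        rw [hP]; exact x.2)
    rw [← hP]
    rcases P with _ | ⟨a, b, h⟩
    · have h0 : (Affine.Point.zero : (EK A (WAint A W)).Point) = 0 := rfl
      rw [h0, _root_.map_zero]
      exact smul_zero (A := Pic0 Qb (FE A (WAint A W))) (galE (hrat_int A W) σ)
    · obtain ⟨ha, hb⟩ := hfix σ hσ a b h hPt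
      exact (pointEquiv_smul_some (EK A (WAint A W)) (galE (hrat_int A W) σ)
        (galE_smul_tE (hrat_int A W) σ) (galE_smul_yE (hrat_int A W) σ) h ha hb h).symm
  have h1 : HasFinOrder p (actM hM) :=
    hasFinOrder_of_lSpaceHyp (R := redDataE A (WAint A W)) H (n := 1) (by norm_num) G hA hM hlev
  -- the embedding of the frozen `E[p]`
  have hjmem : ∀ P : Submodule.torsionBy ℤ (Efrozen W).Point (p : ℤ),
      jPoint A W P.1 ∈ Pic0.torsion Qb (FE A (WAint A W)) p := by
    intro P
    rw [Pic0.mem_torsion, ← map_zsmul, (Submodule.mem_torsionBy_iff _ _).1 P.2, _root_.map_zero]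
  let j : Submodule.torsionBy ℤ (Efrozen W).Point (p : ℤ) →+
      Pic0.torsion Qb (FE A (WAint A W)) p :=
    { toFun := fun P => ⟨jPoint A W P.1, hjmem P⟩
      map_zero' := Subtype.ext (_root_.map_zero (jPoint A W))
      map_add' := fun P Q => Subtype.ext (_root_.map_add (jPoint A W) P.1 Q.1) }
  have hj : Function.Injective j := by
    intro P Q hPQ
    have h2 : jPoint A W P.1 = jPoint A W Q.1 := congrArg Subtype.val hPQ
    exact Subtype.ext (jPoint_injective A W h2)
  refine h1.of_injective j hj fun σ P => Subtype.ext ?_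
  show jPoint A W (σ • P.1) = galE (hrat_int A W) σ • jPoint A W P.1
  exact jPoint_smul A W σ P.1

/-- **a finite flat order on the frozen `E[p]`** at a good prime `p ≠ 2`. -/
theorem hasFinOrder_torsion (hp2 : p ≠ 2) (hgood : ¬ (p : ℤ) ∣ W.Δ) :
    HasFinOrder p (actTorsion W p) := by
  obtain ⟨A, hA⟩ := Fermat.Agent.Common_helper32.exists_liesOverPrime p (Fact.out : p.Prime)
  exact hasFinOrder_torsion_of_place A W hp2 hgood hA

end Main

end Fermat.Agent.GF.EFrame
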