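/-
GATE-F / E-side, node GF-EFINORD, file 3 (helper75): the finite flat order on `W[p]` in the
spelling of `GB/A/A6/ECDet` (`Tp W p`, `rho W p`) = the binder `h` of helper61's
`GF/Setup/PeuY0.peu_valuation_Y0` and the input of helper57's `GF/EFlat`.
-/
import Mathlib
import Fermat.Agent.GF.EFrame.FinOrd
import Fermat.Agent.GB.A.A6.ECDet

set_option autoImplicit false

namespace Fermat.Agent.GF.EFrame

open Fermat.Agent.GH.Closure Fermat.Agent.GB.A.A6.ECDet

local notation "GQ" => (AlgebraicClosure ℚ ≃ₐ[ℚ] AlgebraicClosure ℚ)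

/-- **`W[p]` carries a finite flat order at a good prime `p ≠ 2`** (spelling `rho W p`). -/
theorem hasFinOrder_rho (W : WeierstrassCurve ℤ) {p : ℕ} [Fact p.Prime] (hp2 : p ≠ 2)
    (hgood : W.IsGoodPrimeFor p) :
    HasFinOrder p (fun σ : GQ => (rho W p σ).toAddMonoidHom) :=
  hasFinOrder_torsion W hp2 hgood

end Fermat.Agent.GF.EFrame
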