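/-
GATE-F / E-side (S40 branch), node GF-EFINORD, file 4 (helper75): **the pinned E-side Prop
`KummerUnit W p A ζ` (helper70 `GF/ETate/Pin`) AT A GOOD PRIME `p ≠ 2`**, for EVERY place `A ∣ p`
and every primitive `p`-th root of unity `ζ` — binder-free.  (The S44 branch gets the same Prop
from the Tate curve, `GF/ETate/Main`.)
-/
import Mathlib
import Fermat.Agent.GF.EFrame.FinOrdRho
import Fermat.Agent.GF.ETate.Pin

set_option autoImplicit false

namespace Fermat.Agent.GF.EFrame

open Fermat.Agent.Common_helper32 Fermat.Agent.GF.ETate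

/-- **the Kummer unit of the E-side at a good prime `p ≠ 2`.** -/
theorem kummerUnit_good (W : WeierstrassCurve ℤ) {p : ℕ} [Fact p.Prime] (hp2 : p ≠ 2)
    (hgood : W.IsGoodPrimeFor p) {A : ValuationSubring Qb} (hA : (p : Qb) ∈ A.nonunits) {ζ : Qb}
    (hζ : IsPrimitiveRoot ζ p) : KummerUnit W p A ζ :=
  kummerUnit_of_hasFinOrder hp2 hA hζ (hasFinOrder_rho W hp2 hgood)

end Fermat.Agent.GF.EFrame
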